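import Mathlib
import Fermat.Prelude.Def_ModularCurve_X0
import Fermat.Prelude.Def_ModularCurve_LaurentCoeff

/-!
Functions on the upper half plane given by convergent Laurent expansions in a parameter `s`
(for example `exp(2πiτ/N)`) with coefficients in a ring `R` mapping to `ℂ`.
-/

set_option autoImplicit false

noncomputable section

namespace Fermat.Agent.ModFun

open UpperHalfPlane hiding I
open Complex Function Filter Topology
open scoped Manifold

local notation "𝕢" => Function.Periodic.qParam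

/-- A parameter: a function on `ℍ` with values in the unit disk, surjective onto the punctured
unit disk. -/
structure IsParam (s : ℍ → ℂ) : Prop where
  norm_lt : ∀ τ, ‖s τ‖ < 1
  surj : ∀ w : ℂ, w ≠ 0 → ‖w‖ < 1 → ∃ τ, s τ = w

/-- the parameter `exp(2πiτ/N)` -/
def qN (N : ℕ) : ℍ → ℂ := fun τ => 𝕢 N τ

theorem qN_apply (N : ℕ) (τ : ℍ) : qN N τ = 𝕢 N τ := rfl

theorem qN_ne_zero (N : ℕ) (τ : ℍ) : qN N τ ≠ 0 := Periodic.qParam_ne_zero _

theorem norm_qN_lt (N : ℕ) [NeZero N] (τ : ℍ) : ‖qN N τ‖ < 1 := by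
  have hN : (0 : ℝ) < N := by exact_mod_cast Nat.pos_of_ne_zero (NeZero.ne N)
  exact Periodic.norm_qParam_lt_one hN τ.im_pos

theorem isParam_qN (N : ℕ) [NeZero N] : IsParam (qN N) where
  norm_lt := norm_qN_lt N
  surj w hw0 hw1 := by
    have hN : (0 : ℝ) < N := by exact_mod_cast Nat.pos_of_ne_zero (NeZero.ne N)
    refine ⟨⟨Periodic.invQParam N w, Periodic.im_invQParam_pos_of_norm_lt_one hN hw1 hw0⟩, ?_⟩
    rw [qN_apply]
    exact Periodic.qParam_right_inv hN.ne' hw0

variable {R : Type*} [CommRing R] (φ : R →+* ℂ)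

/-- `f` has the Laurent expansion `F` (with coefficients in `R`) in the parameter `s`. -/
def HasExp (s : ℍ → ℂ) (f : ℍ → ℂ) (F : LaurentSeries R) : Prop :=
  ∀ τ : ℍ, s τ ≠ 0 → HasSum (fun n : ℤ => φ (F.coeff n) * s τ ^ n) (f τ)

variable {φ} {s : ℍ → ℂ} {f g : ℍ → ℂ} {F G : LaurentSeries R}

theorem hasSum_congr' {β : Type*} {f g : β → ℂ} {a : ℂ} (h : ∀ b, f b = g b) (hg : HasSum g a) :
    HasSum f a := by
  rwa [funext h]

theorem HasExp.congr (h : HasExp φ s f F) (hfg : ∀ τ, f τ = g τ) : HasExp φ s g F := by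
  intro τ hτ
  rw [← hfg]
  exact h τ hτ

theorem hasExp_zero : HasExp φ s (0 : ℍ → ℂ) (0 : LaurentSeries R) := by
  intro τ _
  simp only [HahnSeries.coeff_zero, map_zero, zero_mul, Pi.zero_apply]
  exact hasSum_zero

theorem hasExp_single (k : ℤ) (a : R) :
    HasExp φ s (fun τ => φ a * s τ ^ k) (HahnSeries.single k a : LaurentSeries R) := by
  intro τ _
  have h := hasSum_ite_eq k (φ a * s τ ^ k)
  convert h using 1
  funext n
  by_cases hn : n = k
  · subst hn
    simp
  · rw [if_neg hn, HahnSeries.coeff_single_of_ne hn]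
    simp

theorem HasExp.add (hf : HasExp φ s f F) (hg : HasExp φ s g G) : HasExp φ s (f + g) (F + G) := by
  intro τ hτ
  have := (hf τ hτ).add (hg τ hτ)
  simpa [add_mul] using this

theorem HasExp.neg (hf : HasExp φ s f F) : HasExp φ s (-f) (-F) := by
  intro τ hτ
  have := (hf τ hτ).neg
  simpa using this

theorem HasExp.sub (hf : HasExp φ s f F) (hg : HasExp φ s g G) : HasExp φ s (f - g) (F - G) := by
  rw [sub_eq_add_neg, sub_eq_add_neg]
  exact hf.add hg.neg

theorem HasExp.mul (hf : HasExp φ s f F) (hg : HasExp φ s g G) : HasExp φ s (f * g) (F * G) := by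
  intro τ hq0
  set q := s τ with hq
  have hs := summable_mul_of_summable_norm (hf τ hq0).summable.norm (hg τ hq0).summable.norm
  have h1 := (hf τ hq0).mul (hg τ hq0) hs
  have h2 := h1.tsum_fiberwise (fun p : ℤ × ℤ => p.1 + p.2)
  refine hasSum_congr' (fun n => ?_) h2
  rw [tsum_subtype ((fun p : ℤ × ℤ => p.1 + p.2) ⁻¹' {n})
    (fun x : ℤ × ℤ => φ (F.coeff x.1) * q ^ x.1 * (φ (G.coeff x.2) * q ^ x.2))]
  rw [HahnSeries.coeff_mul, map_sum, Finset.sum_mul]
  rw [tsum_eq_sum (s := Finset.antidiagonal F.isPWO_support G.isPWO_support n)]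
  · refine Finset.sum_congr rfl fun p hp => ?_
    rw [Finset.mem_antidiagonal] at hp
    rw [Set.indicator_of_mem (by exact hp.2.2), ← hp.2.2, zpow_add₀ hq0, map_mul]
    ring
  · intro p hp
    rw [Set.indicator_apply_eq_zero]
    intro hpn
    rw [Finset.mem_antidiagonal] at hp
    by_cases h3 : F.coeff p.1 = 0
    · rw [h3]; simp
    · by_cases h4 : G.coeff p.2 = 0
      · rw [h4]; simp
      · exact absurd ⟨h3, h4, hpn⟩ hp

theorem HasExp.const (a : R) : HasExp φ s (fun _ => φ a) (HahnSeries.C a : LaurentSeries R) := by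
  have := hasExp_single (φ := φ) (s := s) 0 a
  intro τ hτ
  simpa using this τ hτ

theorem hasExp_one : HasExp φ s (1 : ℍ → ℂ) (1 : LaurentSeries R) := by
  have := HasExp.const (φ := φ) (s := s) (1 : R)
  intro τ hτ
  simpa using this τ hτ

theorem HasExp.pow (hf : HasExp φ s f F) (n : ℕ) : HasExp φ s (f ^ n) (F ^ n) := by
  induction n with
  | zero => simpa using hasExp_one
  | succ n ih => rw [pow_succ, pow_succ]; exact ih.mul hf

theorem HasExp.smul (a : R) (hf : HasExp φ s f F) :
    HasExp φ s (fun τ => φ a * f τ) (HahnSeries.C a * F) :=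
  (HasExp.const a).mul hf

theorem HasExp.prod {ι : Type*} (t : Finset ι) {f : ι → ℍ → ℂ} {F : ι → LaurentSeries R}
    (h : ∀ i ∈ t, HasExp φ s (f i) (F i)) : HasExp φ s (∏ i ∈ t, f i) (∏ i ∈ t, F i) := by
  classical
  induction t using Finset.induction_on with
  | empty => simpa using hasExp_one
  | insert a t ha ih =>
    rw [Finset.prod_insert ha, Finset.prod_insert ha]
    exact (h a (Finset.mem_insert_self _ _)).mul
      (ih fun i hi => h i (Finset.mem_insert_of_mem hi))

theorem HasExp.sum {ι : Type*} (t : Finset ι) {f : ι → ℍ → ℂ} {F : ι → LaurentSeries R}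
    (h : ∀ i ∈ t, HasExp φ s (f i) (F i)) : HasExp φ s (∑ i ∈ t, f i) (∑ i ∈ t, F i) := by
  classical
  induction t using Finset.induction_on with
  | empty => simpa using hasExp_zero
  | insert a t ha ih =>
    rw [Finset.sum_insert ha, Finset.sum_insert ha]
    exact (h a (Finset.mem_insert_self _ _)).add
      (ih fun i hi => h i (Finset.mem_insert_of_mem hi))

/-- the expansion given by a power series -/
theorem hasExp_ofPowerSeries {P : PowerSeries R}
    (h : ∀ τ, s τ ≠ 0 → HasSum (fun n : ℕ => φ (P.coeff n) * s τ ^ n) (f τ)) :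
    HasExp φ s f (HahnSeries.ofPowerSeries ℤ R P) := by
  intro τ hτ
  have hinj : Function.Injective (fun n : ℕ => (n : ℤ)) := Nat.cast_injective
  rw [← hinj.hasSum_iff]
  · refine hasSum_congr' (fun n => ?_) (h τ hτ)
    simp only [Function.comp_apply]
    rw [HahnSeries.ofPowerSeries_apply_coeff, zpow_natCast]
  · intro n hn
    have hlt : n < 0 := by
      by_contra hc
      exact hn ⟨n.toNat, by simp; omega⟩
    rw [ModularCurve.ofPowerSeries_coeff_of_neg _ hlt]
    simp

/-- shifting an expansion to a power series -/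
theorem HasExp.hasSum_shift (h : HasExp φ s f F) {k : ℤ} (hk : ∀ m < k, F.coeff m = 0) (τ : ℍ)
    (hτ : s τ ≠ 0) :
    HasSum (fun n : ℕ => φ (F.coeff (k + n)) * s τ ^ n) (s τ ^ (-k) * f τ) := by
  have h2 := h τ hτ
  have hinj : Function.Injective (fun n : ℕ => k + (n : ℤ)) := by
    intro a b hab
    simpa using hab
  have h3 : HasSum (fun n : ℕ => φ (F.coeff (k + n)) * s τ ^ (k + (n : ℤ))) (f τ) := by
    rw [← hinj.hasSum_iff] at h2
    · exact h2
    · intro n hn
      have hlt : n < k := by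
        by_contra hc
        exact hn ⟨(n - k).toNat, by simp; omega⟩
      rw [hk n hlt]
      simp
  have h4 := h3.mul_left (s τ ^ (-k))
  refine hasSum_congr' (fun n => ?_) h4
  rw [zpow_add₀ hτ, zpow_natCast, zpow_neg]
  have : s τ ^ k ≠ 0 := zpow_ne_zero _ hτ
  field_simp

/-- A power series converging on the punctured unit disk is continuous at `0`. -/
theorem continuousAt_tsum_zero {c : ℕ → ℂ}
    (h : ∀ w : ℂ, w ≠ 0 → ‖w‖ < 1 → Summable (fun n : ℕ => c n * w ^ n)) :
    ContinuousAt (fun w : ℂ => ∑' n : ℕ, c n * w ^ n) 0 := by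
  have hrad : 1 ≤ (FormalMultilinearSeries.ofScalars ℂ c : FormalMultilinearSeries ℂ ℂ ℂ).radius := by
    refine le_of_forall_lt_imp_le_of_dense fun r hr ↦ ?_
    rcases eq_or_ne r 0 with rfl | hr'
    · simp
    · lift r to NNReal using hr.ne_top
      apply FormalMultilinearSeries.le_radius_of_summable
      have h1 := (h (r : ℂ) (by exact_mod_cast hr') (by simpa using hr)).norm
      simpa [smul_eq_mul, norm_mul, mul_comm, mul_left_comm, mul_assoc] using h1
  have h1 : HasFPowerSeriesOnBall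
      (FormalMultilinearSeries.ofScalars ℂ c : FormalMultilinearSeries ℂ ℂ ℂ).sum
      (FormalMultilinearSeries.ofScalars ℂ c) 0
      (FormalMultilinearSeries.ofScalars ℂ c : FormalMultilinearSeries ℂ ℂ ℂ).radius :=
    (FormalMultilinearSeries.ofScalars ℂ c).hasFPowerSeriesOnBall
      (lt_of_lt_of_le one_pos hrad)
  have h2 := h1.hasFPowerSeriesAt.continuousAt
  have h3 : (FormalMultilinearSeries.ofScalars ℂ c : FormalMultilinearSeries ℂ ℂ ℂ).sum =
      fun w : ℂ => ∑' n : ℕ, c n * w ^ n := by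
    funext w
    unfold FormalMultilinearSeries.sum
    refine tsum_congr fun n => ?_
    simp [mul_comm]
  rwa [h3] at h2

theorem tsum_at_zero {c : ℕ → ℂ} : (∑' n : ℕ, c n * (0 : ℂ) ^ n) = c 0 := by
  rw [tsum_eq_single 0]
  · simp
  · intro n hn
    simp [hn]

/-- A power series whose sum is a continuous function on the punctured unit disk. -/
theorem coeff_zero_eq_of_hasSum {c : ℕ → ℂ} {g : ℂ → ℂ} (hg : ContinuousAt g 0)
    (h : ∀ w : ℂ, w ≠ 0 → ‖w‖ < 1 → HasSum (fun n : ℕ => c n * w ^ n) (g w)) : c 0 = g 0 := by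
  have h2 := continuousAt_tsum_zero (fun w h0 h1 => (h w h0 h1).summable)
  have h3 : (fun w : ℂ => ∑' n : ℕ, c n * w ^ n) =ᶠ[𝓝[≠] 0] g := by
    have hb : Metric.ball (0 : ℂ) 1 ∈ 𝓝[≠] (0 : ℂ) :=
      mem_nhdsWithin_of_mem_nhds (Metric.ball_mem_nhds _ one_pos)
    filter_upwards [hb, self_mem_nhdsWithin] with w hw hw0
    exact (h w hw0 (by simpa using hw)).tsum_eq
  have h5 := ((h2.eventuallyEq_nhds_iff_eventuallyEq_nhdsNE hg).mp h3).eq_of_nhds
  rw [← h5]
  exact tsum_at_zero.symm

/-- A Laurent series whose evaluation vanishes identically is zero. -/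
theorem HasExp.eq_zero (hφ : Function.Injective φ) (hs : IsParam s)
    (h : HasExp φ s (0 : ℍ → ℂ) F) : F = 0 := by
  by_contra hF
  set k := F.order with hk
  have h1 : ∀ w : ℂ, w ≠ 0 → ‖w‖ < 1 →
      HasSum (fun n : ℕ => φ (F.coeff (k + n)) * w ^ n) ((fun _ => (0 : ℂ)) w) := by
    intro w hw0 hw1
    obtain ⟨τ, rfl⟩ := hs.surj w hw0 hw1
    have := h.hasSum_shift (k := k) (fun m hm => HahnSeries.coeff_eq_zero_of_lt_order hm) τ hw0
    simpa using this
  have h6 := coeff_zero_eq_of_hasSum continuousAt_const h1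
  have h7 : F.coeff k = 0 := by
    apply hφ
    simpa using h6
  exact HahnSeries.coeff_order_eq_zero.not.2 hF h7

theorem HasExp.unique (hφ : Function.Injective φ) (hs : IsParam s) (hF : HasExp φ s f F)
    (hG : HasExp φ s f G) : F = G := by
  have := (hF.sub hG)
  rw [sub_self] at this
  exact sub_eq_zero.1 (this.eq_zero hφ hs)

theorem HasExp.fun_unique (hs : ∀ τ, s τ ≠ 0) (hf : HasExp φ s f F) (hg : HasExp φ s g F) :
    f = g := by
  funext τ
  exact (hf τ (hs τ)).unique (hg τ (hs τ))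

/-- change of coefficients -/
theorem HasExp.coeffMap {S : Type*} [CommRing S] {ψ : S →+* ℂ} (u : R →+* S) (h : ψ.comp u = φ)
    (hf : HasExp φ s f F) : HasExp ψ s f (ModularCurve.coeffMap u F) := by
  intro τ hτ
  subst h
  exact hf τ hτ

theorem hasExp_coeffMap_iff {S : Type*} [CommRing S] {ψ : S →+* ℂ} (u : R →+* S)
    (h : ψ.comp u = φ) :
    HasExp ψ s f (ModularCurve.coeffMap u F) ↔ HasExp φ s f F := by
  subst h
  exact Iff.rfl

/-- Substituting a parameter: if `s' = s ^ d` composed with a map. -/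
theorem HasExp.qExpand {s' : ℍ → ℂ} (d : ℕ) [NeZero d] (α : ℍ → ℍ)
    (hα : ∀ τ, s (α τ) = s' τ ^ d) (hf : HasExp φ s f F) :
    HasExp φ s' (fun τ => f (α τ)) (ModularCurve.qExpand R d F) := by
  intro τ hτ
  have hτ' : s (α τ) ≠ 0 := by
    rw [hα]
    exact pow_ne_zero _ hτ
  have h1 := hf (α τ) hτ'
  have hd : (d : ℤ) ≠ 0 := by exact_mod_cast NeZero.ne d
  have hinj : Function.Injective (fun n : ℤ => (d : ℤ) * n) := mul_right_injective₀ hd
  rw [← hinj.hasSum_iff]
  · refine hasSum_congr' (fun n => ?_) h1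
    simp only [Function.comp_apply]
    rw [ModularCurve.qExpand_coeff_mul, hα, ← zpow_natCast, ← zpow_mul]
  · intro n hn
    rw [ModularCurve.qExpand_coeff_of_not_dvd]
    · simp
    · rintro ⟨m, rfl⟩
      exact hn ⟨m, rfl⟩

/-- Twisting a Laurent series: multiply the `n`-th coefficient by `u ^ n`. -/
def twistAux (u : Rˣ) (F : LaurentSeries R) : LaurentSeries R where
  coeff n := ((u ^ n : Rˣ) : R) * F.coeff n
  isPWO_support' := by
    refine F.isPWO_support.mono ?_
    intro n hn
    rw [HahnSeries.mem_support]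
    rw [Function.mem_support] at hn
    exact fun h => hn (by rw [h, mul_zero])

theorem twistAux_coeff (u : Rˣ) (F : LaurentSeries R) (n : ℤ) :
    (twistAux u F).coeff n = ((u ^ n : Rˣ) : R) * F.coeff n := rfl

theorem support_twistAux (u : Rˣ) (F : LaurentSeries R) :
    (twistAux u F).support = F.support := by
  ext m
  rw [HahnSeries.mem_support, HahnSeries.mem_support, twistAux_coeff, Ne, Units.mul_right_eq_zero]

/-- Twisting a Laurent series: multiply the `n`-th coefficient by `u ^ n`. -/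
def twist (u : Rˣ) : LaurentSeries R →+* LaurentSeries R where
  toFun F := twistAux u F
  map_zero' := by ext n; simp [twistAux_coeff]
  map_one' := by
    ext n
    simp only [HahnSeries.coeff_one, twistAux_coeff]
    split_ifs with h
    · subst h; simp
    · simp
  map_add' F G := by
    ext n
    simp [mul_add, twistAux_coeff]
  map_mul' F G := by
    ext n
    rw [HahnSeries.coeff_mul, twistAux_coeff, HahnSeries.coeff_mul]
    simp only [support_twistAux]
    rw [Finset.mul_sum]
    refine Finset.sum_congr rfl fun p hp => ?_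
    rw [Finset.mem_antidiagonal] at hp
    rw [← hp.2.2, zpow_add, Units.val_mul, twistAux_coeff, twistAux_coeff]
    ring

@[simp]
theorem twist_coeff (u : Rˣ) (F : LaurentSeries R) (n : ℤ) :
    (twist u F).coeff n = ((u ^ n : Rˣ) : R) * F.coeff n := rfl

theorem map_units_zpow (φ : R →+* ℂ) (u : Rˣ) (n : ℤ) : φ ((u ^ n : Rˣ) : R) = φ (u : R) ^ n := by
  have h : Units.map (φ : R →* ℂ) (u ^ n) = (Units.map (φ : R →* ℂ) u) ^ n := map_zpow _ _ _
  have h2 := congrArg Units.val h
  rw [Units.val_zpow_eq_zpow_val] at h2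
  exact h2

theorem HasExp.twist {s' : ℍ → ℂ} (u : Rˣ) (α : ℍ → ℍ)
    (hα : ∀ τ, s (α τ) = φ u * s' τ) (hf : HasExp φ s f F) :
    HasExp φ s' (fun τ => f (α τ)) (Fermat.Agent.ModFun.twist u F) := by
  intro τ hτ
  have hu : φ (u : R) ≠ 0 := (u.isUnit.map φ).ne_zero
  have hτ' : s (α τ) ≠ 0 := by
    rw [hα]
    exact mul_ne_zero hu hτ
  refine hasSum_congr' (fun n => ?_) (hf (α τ) hτ')
  rw [twist_coeff, hα, mul_zpow, map_mul, map_units_zpow]
  ring

end Fermat.Agent.ModFun
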