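import Mathlib
import Fermat.Agent.ModFun.Exp

/-!
Existence of `q`-expansions, boundedness, and modular functions of level one.
-/

set_option autoImplicit false

noncomputable section

namespace Fermat.Agent.ModFun

open UpperHalfPlane hiding I
open Complex Function Filter Topology
open scoped Manifold MatrixGroups ModularForm

local notation "𝕢" => Function.Periodic.qParam

theorem periodic_ofComplex {f : ℍ → ℂ} {h : ℝ} (hf : ∀ τ : ℍ, f (h +ᵥ τ) = f τ) :
    Periodic (f ∘ ofComplex) h := by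
  intro w
  by_cases! hw : 0 < im w
  · have : 0 < im (w + h) := by simp [hw]
    simp only [comp_apply, ofComplex_apply_of_im_pos this, ofComplex_apply_of_im_pos hw]
    rw [← hf ⟨w, hw⟩]
    congr 1
    ext
    simp [add_comm]
  · have : im (w + h) ≤ 0 := by simpa using hw
    simp [ofComplex_apply_of_im_nonpos this, ofComplex_apply_of_im_nonpos hw]

theorem mdiff_qParam (h : ℝ) : MDiff (fun τ : ℍ => 𝕢 h τ) := by
  rw [UpperHalfPlane.mdifferentiable_iff]
  have : Differentiable ℂ (𝕢 h) := Periodic.differentiable_qParam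
  refine DifferentiableOn.congr (f := 𝕢 h) this.differentiableOn ?_
  intro z hz
  simp [ofComplex_apply_of_im_pos hz]

theorem mdiff_qN (N : ℕ) : MDiff (qN N) := mdiff_qParam N

theorem qN_vadd (N : ℕ) [NeZero N] (τ : ℍ) : qN N ((N : ℝ) +ᵥ τ) = qN N τ := by
  rw [qN_apply, qN_apply]
  have hN : (N : ℂ) ≠ 0 := by exact_mod_cast NeZero.ne N
  have h1 : (((N : ℝ) +ᵥ τ : ℍ) : ℂ) = N + τ := by simp
  rw [h1, Periodic.qParam, Periodic.qParam]
  push_cast
  rw [show 2 * Real.pi * Complex.I * (N + τ) / N = 2 * Real.pi * Complex.I * τ / N +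
    2 * Real.pi * Complex.I by field_simp; ring]
  exact Complex.exp_periodic _

/-- Existence of the Laurent expansion at `i∞`. -/
theorem exists_hasExp {N : ℕ} [NeZero N] {f : ℍ → ℂ} (hf : MDiff f)
    (hper : ∀ τ : ℍ, f ((N : ℝ) +ᵥ τ) = f τ) (k : ℕ)
    (hb : IsBoundedAtImInfty (fun τ => qN N τ ^ k * f τ)) :
    ∃ F : LaurentSeries ℂ, HasExp (RingHom.id ℂ) (qN N) f F := by
  have hN : (0 : ℝ) < N := by exact_mod_cast Nat.pos_of_ne_zero (NeZero.ne N)
  set g : ℍ → ℂ := fun τ => qN N τ ^ k * f τ with hg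
  have hgd : MDiff g := ((mdiff_qN N).pow k).mul hf
  have hgp : ∀ τ : ℍ, g ((N : ℝ) +ᵥ τ) = g τ := by
    intro τ
    rw [hg]
    simp only
    rw [hper, qN_vadd]
  have h1 := fun τ => UpperHalfPlane.hasSum_qExpansion hN (periodic_ofComplex hgp) hgd hb τ
  have h2 : HasExp (RingHom.id ℂ) (qN N) g
      (HahnSeries.ofPowerSeries ℤ ℂ (UpperHalfPlane.qExpansion N g)) := by
    refine hasExp_ofPowerSeries fun τ _ => ?_
    exact h1 τ
  refine ⟨HahnSeries.single (-(k : ℤ)) 1 *
    HahnSeries.ofPowerSeries ℤ ℂ (UpperHalfPlane.qExpansion N g), ?_⟩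
  have h3 := (hasExp_single (φ := RingHom.id ℂ) (s := qN N) (-(k : ℤ)) 1).mul h2
  refine h3.congr fun τ => ?_
  simp only [Pi.mul_apply, map_one, one_mul, hg]
  have := qN_ne_zero N τ
  rw [zpow_neg, zpow_natCast]
  field_simp

variable {R : Type*} [CommRing R] {φ : R →+* ℂ} {f g : ℍ → ℂ} {F G : LaurentSeries R}

/-- A function with an expansion without negative terms tends to the constant coefficient. -/
theorem HasExp.tendsto {N : ℕ} [NeZero N] (h : HasExp φ (qN N) f F)
    (hF : ∀ m < 0, F.coeff m = 0) : Tendsto f atImInfty (𝓝 (φ (F.coeff 0))) := by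
  have hN : (0 : ℝ) < N := by exact_mod_cast Nat.pos_of_ne_zero (NeZero.ne N)
  have h1 : ∀ τ : ℍ, HasSum (fun n : ℕ => φ (F.coeff n) * qN N τ ^ n) (f τ) := by
    intro τ
    have := h.hasSum_shift (k := 0) hF τ (qN_ne_zero N τ)
    simpa using this
  have h2 : ContinuousAt (fun w : ℂ => ∑' n : ℕ, φ (F.coeff n) * w ^ n) 0 := by
    refine continuousAt_tsum_zero fun w h0 hw => ?_
    obtain ⟨τ, rfl⟩ := (isParam_qN N).surj w h0 hw
    exact (h1 τ).summable
  have h3 := h2.tendsto.comp (qParam_tendsto_atImInfty hN)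
  simp only [tsum_at_zero] at h3
  refine Tendsto.congr (fun τ => ?_) h3
  exact (h1 τ).tsum_eq

/-- A function with an expansion without negative terms is bounded at `i∞`. -/
theorem HasExp.isBoundedAtImInfty {N : ℕ} [NeZero N] (h : HasExp φ (qN N) f F)
    (hF : ∀ m < 0, F.coeff m = 0) : IsBoundedAtImInfty f :=
  (h.tendsto hF).isBigO_one ℝ

/-- A holomorphic `SL₂(ℤ)`-invariant function bounded at `i∞` is constant. -/
theorem eq_const_of_isBounded (hf : MDiff f) (hinv : ∀ (γ : SL(2, ℤ)) (τ : ℍ), f (γ • τ) = f τ)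
    (hb : IsBoundedAtImInfty f) : ∃ c : ℂ, ∀ τ, f τ = c := by
  have hslash : ∀ γ : SL(2, ℤ), f ∣[(0 : ℤ)] γ = f := by
    intro γ
    funext τ
    rw [ModularForm.SL_slash_apply]
    have := hinv γ τ
    rw [neg_zero, zpow_zero, mul_one]
    exact this
  let f' : ModularForm 𝒮ℒ 0 :=
    { toFun := f
      slash_action_eq' := fun _ ⟨γ, hγ⟩ ↦ hγ ▸ hslash γ
      holo' := hf
      bdd_at_cusps' {c} hc := by
        rw [Subgroup.IsArithmetic.isCusp_iff_isCusp_SL2Z] at hc
        rw [OnePoint.isBoundedAt_iff_forall_SL2Z hc]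
        intro γ _
        rw [hslash]
        exact hb }
  obtain ⟨c, hc⟩ := ModularFormClass.levelOne_weight_zero_const f'
  exact ⟨c, fun τ => congrFun hc τ⟩

theorem C_coeff_ne_zero {a : R} {n : ℤ} (hn : n ≠ 0) :
    (HahnSeries.C a : LaurentSeries R).coeff n = 0 := by
  rw [HahnSeries.C_apply, HahnSeries.coeff_single_of_ne hn]

/-- A level one modular function whose expansion has no terms of non-positive degree is zero. -/
theorem eq_zero_of_level_one (hφ : Function.Injective φ) (hf : MDiff f)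
    (hinv : ∀ (γ : SL(2, ℤ)) (τ : ℍ), f (γ • τ) = f τ) (h : HasExp φ (qN 1) f F)
    (hF : ∀ m ≤ 0, F.coeff m = 0) : f = 0 := by
  obtain ⟨c, hc⟩ := eq_const_of_isBounded hf hinv
    (h.isBoundedAtImInfty fun m hm => hF m hm.le)
  have h1 : HasExp (RingHom.id ℂ) (qN 1) f (HahnSeries.C c : LaurentSeries ℂ) := by
    refine (HasExp.const c).congr fun τ => ?_
    rw [hc]; rfl
  have h2 : HasExp (RingHom.id ℂ) (qN 1) f (ModularCurve.coeffMap φ F) :=
    h.coeffMap φ (RingHom.id_comp φ)
  have h3 := h1.unique Function.injective_id (isParam_qN 1) h2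
  have h4 : c = 0 := by
    have := congrArg (fun G : LaurentSeries ℂ => G.coeff 0) h3
    simp only [ModularCurve.coeffMap_coeff, hF 0 le_rfl, map_zero] at this
    simpa using this
  funext τ
  rw [hc, h4]
  rfl

end Fermat.Agent.ModFun
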