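import Mathlib
import Fermat.Agent.ModFun.Expand

/-!
The power series `etaProd` evaluates to the infinite product; expansions of `E₄` and `Δ`.
-/

set_option autoImplicit false

noncomputable section

namespace Fermat.Agent.ModFun

open UpperHalfPlane hiding I
open Complex Function Filter Topology
open scoped Manifold MatrixGroups ModularForm

local notation "𝕢" => Function.Periodic.qParam

theorem tendsto_iteratedDeriv {ι : Type*} {φ : Filter ι} {F : ι → ℂ → ℂ} {f : ℂ → ℂ} {U : Set ℂ}
    (hU : IsOpen U) (h : TendstoLocallyUniformlyOn F f φ U)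
    (hF : ∀ i, DifferentiableOn ℂ (F i) U) (n : ℕ) :
    TendstoLocallyUniformlyOn (fun i => iteratedDeriv n (F i)) (iteratedDeriv n f) φ U ∧
      ∀ i, DifferentiableOn ℂ (iteratedDeriv n (F i)) U := by
  induction n with
  | zero => simpa using ⟨h, hF⟩
  | succ n ih =>
    obtain ⟨h1, h2⟩ := ih
    refine ⟨?_, ?_⟩
    · have := h1.deriv (Eventually.of_forall h2) hU
      rw [iteratedDeriv_succ]
      simp only [iteratedDeriv_succ]
      exact this
    · intro i
      rw [iteratedDeriv_succ]
      exact (h2 i).deriv hU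

theorem iteratedDeriv_eval (p : Polynomial ℂ) (n : ℕ) :
    iteratedDeriv n (fun x => p.eval x) = fun x => (Polynomial.derivative^[n] p).eval x := by
  induction n with
  | zero => simp
  | succ n ih =>
    rw [iteratedDeriv_succ, ih, Function.iterate_succ_apply']
    funext x
    exact Polynomial.deriv _

theorem iteratedDeriv_eval_zero (p : Polynomial ℂ) (n : ℕ) :
    iteratedDeriv n (fun x => p.eval x) 0 = (n.factorial : ℂ) * p.coeff n := by
  rw [iteratedDeriv_eval]
  simp only
  rw [← Polynomial.coeff_zero_eq_eval_zero, Polynomial.coeff_iterate_derivative, zero_add,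
    Nat.descFactorial_self, nsmul_eq_mul]

/-- Taylor expansion of a locally uniform limit of polynomials. -/
theorem hasSum_of_tendsto_polynomial {ι : Type*} {φ : Filter ι} [φ.NeBot] {P : ι → Polynomial ℂ}
    {f : ℂ → ℂ} (h : TendstoLocallyUniformlyOn (fun i x => (P i).eval x) f φ (Metric.ball 0 1))
    {c : ℕ → ℂ} (hc : ∀ n, ∀ᶠ i in φ, (P i).coeff n = c n) {w : ℂ} (hw : ‖w‖ < 1) :
    HasSum (fun n : ℕ => c n * w ^ n) (f w) := by
  have hd : ∀ i, DifferentiableOn ℂ (fun x => (P i).eval x) (Metric.ball 0 1) := fun i =>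
    (P i).differentiable.differentiableOn
  have hf : DifferentiableOn ℂ f (Metric.ball 0 1) :=
    h.differentiableOn (Eventually.of_forall hd) Metric.isOpen_ball
  have h1 := hasSum_taylorSeries_on_ball hf (z := w) (by simpa using hw)
  refine hasSum_congr' (fun n => ?_) h1
  have h2 := ((tendsto_iteratedDeriv Metric.isOpen_ball h hd n).1.tendsto_at
    (Metric.mem_ball_self one_pos))
  have h3 : Tendsto (fun i => iteratedDeriv n (fun x => (P i).eval x) 0) φ
      (𝓝 ((n.factorial : ℂ) * c n)) := by
    refine tendsto_nhds_of_eventually_eq ?_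
    filter_upwards [hc n] with i hi
    rw [iteratedDeriv_eval_zero, hi]
  have h4 := tendsto_nhds_unique h2 h3
  rw [h4]
  have : (n.factorial : ℂ) ≠ 0 := by exact_mod_cast n.factorial_ne_zero
  simp only [sub_zero, smul_eq_mul]
  field_simp

open scoped PowerSeries.WithPiTopology in
theorem hasSum_etaProd {w : ℂ} (hw : ‖w‖ < 1) :
    HasSum (fun n : ℕ => (Int.castRingHom ℂ) (ModularCurve.etaProd.coeff n) * w ^ n)
      (∏' n : ℕ, (1 - w ^ (n + 1))) := by
  have hprod := ModularForm.multipliableLocallyUniformlyOn_one_sub_pow.hasProdLocallyUniformlyOn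
  have h := hprod
  unfold HasProdLocallyUniformlyOn at h
  refine hasSum_of_tendsto_polynomial (P := fun t : Finset ℕ => ∏ n ∈ t, (1 - Polynomial.X ^ (n + 1)))
    (f := fun w => ∏' n : ℕ, (1 - w ^ (n + 1))) (φ := atTop) ?_ ?_ hw
  · refine h.congr ?_
    intro t x hx
    simp [Polynomial.eval_prod]
  · intro n
    have h1 := PowerSeries.coeff_prod_one_sub_X_pow_eventually_eq ℂ n
    have h2 := PowerSeries.coeff_prod_one_sub_X_pow_eventually_eq ℤ n
    have h3 : ModularCurve.etaProd = PowerSeries.pentagonalSeries ℤ :=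
      PowerSeries.WithPiTopology.tprod_one_sub_X_pow ℤ
    filter_upwards [h2] with t ht
    rw [h3, ← ht]
    have h4 : (∏ n ∈ t, (1 - Polynomial.X ^ (n + 1)) : Polynomial ℂ) =
        (∏ n ∈ t, (1 - Polynomial.X ^ (n + 1)) : Polynomial ℤ).map (Int.castRingHom ℂ) := by
      rw [Polynomial.map_prod]
      simp
    have h5 : (∏ n ∈ t, (1 - PowerSeries.X ^ (n + 1)) : PowerSeries ℤ) =
        ((∏ n ∈ t, (1 - Polynomial.X ^ (n + 1)) : Polynomial ℤ) : PowerSeries ℤ) := by
      rw [← Polynomial.coeToPowerSeries.ringHom_apply, map_prod]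
      simp
    rw [h4, h5, Polynomial.coeff_map, Polynomial.coeff_coe]

end Fermat.Agent.ModFun
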