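import Mathlib
import Fermat.Agent.ModFun.Eta
import Fermat.Prelude.Def_ModularCurve_JqCoeff
import Fermat.Prelude.Thm_ModularCurve_coeff_jqModC_pow_of_lt
import Fermat.Prelude.Thm_ModularCurve_coeff_jqModC_pow_self

/-!
The `j`-function as a holomorphic function on the upper half plane.
-/

set_option autoImplicit false

noncomputable section

namespace Fermat.Agent.ModFun

open UpperHalfPlane hiding I
open Complex Function Filter Topology ModularForm
open scoped Manifold MatrixGroups ModularForm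

local notation "𝕢" => Function.Periodic.qParam

local notation "ιZ" => (Int.castRingHom ℂ)

theorem hasExp_E₄ : HasExp ιZ (qN 1) E₄
    (HahnSeries.ofPowerSeries ℤ ℤ ModularCurve.eisenstein4) := by
  refine hasExp_ofPowerSeries fun τ _ => ?_
  have h1 := ModularForm.hasSum_qExpansion (h := 1) one_pos (f := E₄) one_mem_strictPeriods_SL τ
  refine hasSum_congr' (fun n => ?_) h1
  rw [EisensteinSeries.E_qExpansion_coeff (by norm_num) (by decide)]
  simp only [ModularCurve.eisenstein4, PowerSeries.coeff_mk, qN_apply]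
  split_ifs with h
  · simp
  · rw [bernoulli_eq_bernoulli'_of_ne_one (by norm_num), bernoulli'_four]
    rw [ArithmeticFunction.sigma_apply]
    simp only [eq_intCast, Int.cast_mul, Int.cast_sum, Int.cast_pow, Int.cast_natCast,
      Nat.cast_sum, Nat.cast_pow]
    norm_num

/-- the expansion of `Δ` -/
def dSeries : LaurentSeries ℤ :=
  HahnSeries.single (1 : ℤ) 1 * HahnSeries.ofPowerSeries ℤ ℤ ModularCurve.dedekindEtaUnit

theorem hasExp_etaProd : HasExp ιZ (qN 1) (fun τ => ∏' n : ℕ, (1 - qN 1 τ ^ (n + 1)))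
    (HahnSeries.ofPowerSeries ℤ ℤ ModularCurve.etaProd) :=
  hasExp_ofPowerSeries fun τ _ => hasSum_etaProd (norm_qN_lt 1 τ)

theorem hasExp_discriminant : HasExp ιZ (qN 1) ModularForm.discriminant dSeries := by
  have h1 := (hasExp_single (φ := ιZ) (s := qN 1) 1 1).mul (hasExp_etaProd.pow 24)
  rw [← map_pow] at h1
  refine h1.congr fun τ => ?_
  rw [ModularForm.discriminant_eq_q_prod]
  simp only [Pi.mul_apply, map_one, one_mul, zpow_one, Pi.pow_apply, qN_apply, Nat.cast_one]
  congr 1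
  have hq : ‖𝕢 (1 : ℝ) τ‖ < 1 := by
    have := norm_qN_lt 1 τ
    rwa [qN_apply, Nat.cast_one] at this
  exact ((ModularForm.multipliable_one_sub_pow hq).tprod_pow 24).symm

/-- the `j`-function -/
def J (τ : ℍ) : ℂ := E₄ τ ^ 3 / ModularForm.discriminant τ

theorem mdiff_E₄ : MDiff (E₄ : ℍ → ℂ) := E₄.holo'

theorem mdiff_E₆ : MDiff (E₆ : ℍ → ℂ) := E₆.holo'

theorem mdiff_discriminant : MDiff (ModularForm.discriminant : ℍ → ℂ) :=
  CuspForm.discriminant.holo'

theorem mdiff_J : MDiff J := (mdiff_E₄.pow 3).div mdiff_discriminant discriminant_ne_zero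

theorem smul_of_SL {k : ℤ} (f : ModularForm 𝒮ℒ k) (γ : SL(2, ℤ)) (τ : ℍ) :
    f (γ • τ) = denom γ τ ^ k * f τ :=
  SlashInvariantForm.slash_action_eqn'' (Γ := 𝒮ℒ) f (γ := (γ : GL (Fin 2) ℝ))
    (MonoidHom.mem_range.mpr ⟨γ, rfl⟩) τ

theorem discriminant_smul (γ : SL(2, ℤ)) (τ : ℍ) :
    ModularForm.discriminant (γ • τ) = denom γ τ ^ (12 : ℤ) * ModularForm.discriminant τ :=
  SlashInvariantForm.slash_action_eqn'' (Γ := 𝒮ℒ) CuspForm.discriminant
    (γ := (γ : GL (Fin 2) ℝ)) (MonoidHom.mem_range.mpr ⟨γ, rfl⟩) τ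

theorem J_smul (γ : SL(2, ℤ)) (τ : ℍ) : J (γ • τ) = J τ := by
  have h1 := smul_of_SL E₄ γ τ
  have h2 := discriminant_smul γ τ
  have h3 := denom_ne_zero (γ : GL (Fin 2) ℝ) τ
  have h4 := discriminant_ne_zero τ
  unfold J
  rw [h1, h2]
  rw [mul_pow, ← zpow_natCast, ← zpow_mul]
  have h5 : denom γ τ ^ (12 : ℤ) ≠ 0 := zpow_ne_zero _ h3
  norm_num
  field_simp

theorem J_sub_1728 (τ : ℍ) : J τ - 1728 = E₆ τ ^ 2 / ModularForm.discriminant τ := by
  have h := discriminant_eq_E₄_cube_sub_E₆_sq τ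
  have h4 := discriminant_ne_zero τ
  unfold J
  rw [eq_div_iff h4, sub_mul, div_mul_cancel₀ _ h4, h]
  ring

theorem isBounded_qJ : IsBoundedAtImInfty (fun τ => qN 1 τ ^ 1 * J τ) := by
  have h1 : IsBoundedAtImInfty (E₄ : ℍ → ℂ) := ModularFormClass.bdd_at_infty E₄
  have h2 : (fun τ : ℍ => qN 1 τ) =O[atImInfty] ModularForm.discriminant := by
    refine Asymptotics.IsBigO.trans ?_ exp_isBigO_discriminant
    refine Asymptotics.isBigO_of_le _ fun τ => ?_
    rw [qN_apply, Nat.cast_one, Periodic.norm_qParam]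
    rw [Real.norm_of_nonneg (Real.exp_nonneg _)]
    simp
  have h3 : IsBoundedAtImInfty (fun τ : ℍ => qN 1 τ / ModularForm.discriminant τ) :=
    (Asymptotics.div_isBoundedUnder_of_isBigO h2).isBigO_one ℝ
  have h4 := h3.mul ((h1.mul h1).mul h1)
  have h5 : (fun τ => qN 1 τ ^ 1 * J τ) = (fun τ : ℍ => qN 1 τ / ModularForm.discriminant τ) *
      ((E₄ : ℍ → ℂ) * E₄ * E₄) := by
    funext τ
    simp only [Pi.mul_apply, J]
    ring
  rw [h5]
  exact h4

theorem J_vadd_one (τ : ℍ) : J ((1 : ℝ) +ᵥ τ) = J τ := by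
  rw [← modular_T_smul]
  exact J_smul _ _

theorem dSeries_ne_zero : dSeries ≠ 0 := by
  intro h
  have h1 := congrArg (fun F : LaurentSeries ℤ => F.coeff 1) h
  simp only [dSeries, HahnSeries.coeff_single_mul, one_mul, sub_self, HahnSeries.coeff_zero] at h1
  rw [show (0 : ℤ) = ((0 : ℕ) : ℤ) from rfl, HahnSeries.ofPowerSeries_apply_coeff,
    PowerSeries.coeff_zero_eq_constantCoeff, ModularCurve.constantCoeff_dedekindEtaUnit] at h1
  exact one_ne_zero h1

theorem jqModC_mul_dSeries : ModularCurve.jqModC ℤ * dSeries =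
    (HahnSeries.ofPowerSeries ℤ ℤ ModularCurve.eisenstein4) ^ 3 := by
  have hid : (Int.castRingHom ℤ) = RingHom.id ℤ := RingHom.ext_int _ _
  rw [ModularCurve.jqModC, dSeries, hid, PowerSeries.map_id, id,
    ModularCurve.jNum, map_mul, map_pow]
  have h1 : (HahnSeries.single (-1 : ℤ) (1 : ℤ) : LaurentSeries ℤ) *
      HahnSeries.single (1 : ℤ) 1 = 1 := by
    rw [HahnSeries.single_mul_single]
    simp
  have h2 : (HahnSeries.ofPowerSeries ℤ ℤ ModularCurve.dedekindEtaUnit) *
      (HahnSeries.ofPowerSeries ℤ ℤ ModularCurve.dedekindEtaUnitInv) = 1 := by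
    rw [← map_mul, ModularCurve.dedekindEtaUnit_mul_inv, map_one]
  calc _ = ((HahnSeries.single (-1 : ℤ) (1 : ℤ) : LaurentSeries ℤ) *
      HahnSeries.single (1 : ℤ) 1) * ((HahnSeries.ofPowerSeries ℤ ℤ ModularCurve.dedekindEtaUnit) *
      (HahnSeries.ofPowerSeries ℤ ℤ ModularCurve.dedekindEtaUnitInv)) *
      (HahnSeries.ofPowerSeries ℤ ℤ ModularCurve.eisenstein4) ^ 3 := by ring
    _ = _ := by rw [h1, h2, one_mul, one_mul]

theorem hasExp_J : HasExp ιZ (qN 1) J (ModularCurve.jqModC ℤ) := by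
  obtain ⟨F, hF⟩ := exists_hasExp (N := 1) mdiff_J
    (fun τ => by rw [Nat.cast_one]; exact J_vadd_one τ) 1 isBounded_qJ
  have hφ : (RingHom.id ℂ).comp ιZ = ιZ := RingHom.id_comp _
  have h1 := hF.mul (hasExp_discriminant.coeffMap ιZ hφ)
  have h2 := (hasExp_E₄.pow 3).coeffMap ιZ hφ
  have h3 : (J * ModularForm.discriminant : ℍ → ℂ) = (E₄ : ℍ → ℂ) ^ 3 := by
    funext τ
    simp only [Pi.mul_apply, Pi.pow_apply, J]
    exact div_mul_cancel₀ _ (discriminant_ne_zero τ)
  rw [h3] at h1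
  have h4 := h1.unique Function.injective_id (isParam_qN 1) h2
  rw [← jqModC_mul_dSeries, map_mul] at h4
  have h5 : ModularCurve.coeffMap ιZ dSeries ≠ 0 := by
    intro h
    refine dSeries_ne_zero ?_
    ext n
    have := congrArg (fun F : LaurentSeries ℂ => F.coeff n) h
    simpa using this
  have h6 := mul_right_cancel₀ h5 h4
  rw [h6] at hF
  exact (hasExp_coeffMap_iff ιZ hφ).1 hF

section Poly

variable {R : Type*} [CommRing R] {φ : R →+* ℂ} {f g : ℍ → ℂ} {F G : LaurentSeries R}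

theorem coeffMap_jqModC {S : Type*} [CommRing S] (u : R →+* S) :
    ModularCurve.coeffMap u (ModularCurve.jqModC R) = ModularCurve.jqModC S :=
  ModularCurve.map_jqModC u

theorem hasExp_J' (φ : R →+* ℂ) : HasExp φ (qN 1) J (ModularCurve.jqModC R) := by
  have h := hasExp_J.coeffMap (Int.castRingHom R) (ψ := φ) (RingHom.ext_int _ _)
  rwa [coeffMap_jqModC] at h

theorem mdiff_const (c : ℂ) : MDiff (fun _ : ℍ => c) := mdifferentiable_const

theorem coeff_jqModC_pow_of_lt' {b : ℕ} {m : ℤ} (hm : m < -(b : ℤ)) :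
    ((ModularCurve.jqModC R) ^ b).coeff m = 0 := ModularCurve.coeff_jqModC_pow_of_lt R hm

theorem coeff_jqModC_pow_self' (b : ℕ) :
    ((ModularCurve.jqModC R) ^ b).coeff (-(b : ℤ)) = 1 := ModularCurve.coeff_jqModC_pow_self R b

/-- Holomorphic modular functions of level one are polynomials in `j`. -/
theorem exists_polynomial (hφ : Function.Injective φ) (hf : MDiff f)
    (hinv : ∀ (γ : SL(2, ℤ)) (τ : ℍ), f (γ • τ) = f τ) (h : HasExp φ (qN 1) f F) :
    ∃ P : Polynomial R, (∀ τ, f τ = P.eval₂ φ (J τ)) ∧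
      F = P.eval₂ HahnSeries.C (ModularCurve.jqModC R) := by
  have key : ∀ n : ℕ, ∀ (f : ℍ → ℂ) (F : LaurentSeries R), MDiff f →
      (∀ (γ : SL(2, ℤ)) (τ : ℍ), f (γ • τ) = f τ) → HasExp φ (qN 1) f F →
      (∀ m ≤ -(n : ℤ), F.coeff m = 0) →
      ∃ P : Polynomial R, (∀ τ, f τ = P.eval₂ φ (J τ)) ∧
      F = P.eval₂ HahnSeries.C (ModularCurve.jqModC R) := by
    intro n
    induction n with
    | zero =>
      intro f F hf hinv h hF
      have h0 := eq_zero_of_level_one hφ hf hinv h (by simpa using hF)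
      subst h0
      have h1 := h.eq_zero hφ (isParam_qN 1)
      subst h1
      exact ⟨0, by simp, by simp⟩
    | succ n ih =>
      intro f F hf hinv h hF
      set c : R := F.coeff (-(n : ℤ)) with hc
      obtain ⟨P, hP1, hP2⟩ := ih (f - fun τ => φ c * (J ^ n) τ)
        (F - HahnSeries.C c * ModularCurve.jqModC R ^ n)
        (hf.sub ((mdiff_const _).mul (mdiff_J.pow n)))
        (fun γ τ => by
          simp only [Pi.sub_apply, Pi.pow_apply, J_smul, hinv])
        (h.sub (((hasExp_J' φ).pow n).smul c))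
        (fun m hm => by
          rw [HahnSeries.coeff_sub, HahnSeries.C_mul_eq_smul, HahnSeries.coeff_smul, smul_eq_mul]
          rcases lt_or_eq_of_le hm with hlt | heq
          · rw [hF m (by push_cast; omega), coeff_jqModC_pow_of_lt' hlt, mul_zero, sub_zero]
          · subst heq
            rw [coeff_jqModC_pow_self', mul_one, hc, sub_self])
      refine ⟨P + Polynomial.C c * Polynomial.X ^ n, ?_, ?_⟩
      · intro τ
        rw [Polynomial.eval₂_add, ← hP1]
        simp
      · rw [Polynomial.eval₂_add, ← hP2]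
        simp
  refine key (Int.toNat (1 - F.order)) f F hf hinv h fun m hm => ?_
  exact HahnSeries.coeff_eq_zero_of_lt_order (by omega)

end Poly

end Fermat.Agent.ModFun
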