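import Mathlib
import Fermat.Agent.ModFun.JFun

/-!
Modular functions of level `N`: the functions `J(dτ)` and their conjugates.
-/

set_option autoImplicit false

noncomputable section

namespace Fermat.Agent.ModFun

open UpperHalfPlane hiding I
open Complex Function Filter Topology ModularForm
open scoped Manifold MatrixGroups ModularForm

local notation "𝕢" => Function.Periodic.qParam

/-- The map `τ ↦ (a τ + b) / d`. -/
def tri (a : ℕ) (b : ℤ) (d : ℕ) [NeZero a] [NeZero d] (τ : ℍ) : ℍ :=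
  ⟨((a : ℂ) * τ + b) / d, by
    have ha : (0 : ℝ) < a := by exact_mod_cast Nat.pos_of_ne_zero (NeZero.ne a)
    have hd : (0 : ℝ) < d := by exact_mod_cast Nat.pos_of_ne_zero (NeZero.ne d)
    have h1 : (((a : ℂ) * τ + b) / d).im = a * τ.im / d := by
      rw [show (d : ℂ) = ((d : ℝ) : ℂ) by simp, Complex.div_ofReal_im]
      simp
    rw [h1]
    have := τ.im_pos
    positivity⟩

theorem coe_tri (a : ℕ) (b : ℤ) (d : ℕ) [NeZero a] [NeZero d] (τ : ℍ) :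
    (tri a b d τ : ℂ) = ((a : ℂ) * τ + b) / d := rfl

theorem mdiff_tri (a : ℕ) (b : ℤ) (d : ℕ) [NeZero a] [NeZero d] {f : ℍ → ℂ} (hf : MDiff f) :
    MDiff (fun τ => f (tri a b d τ)) := by
  rw [UpperHalfPlane.mdifferentiable_iff] at hf ⊢
  have h1 : DifferentiableOn ℂ (fun z : ℂ => ((a : ℂ) * z + b) / d) upperHalfPlaneSet := by
    fun_prop
  have h2 : Set.MapsTo (fun z : ℂ => ((a : ℂ) * z + b) / d) upperHalfPlaneSet upperHalfPlaneSet := by
    intro z hz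
    exact (tri a b d ⟨z, hz⟩).im_pos
  refine (hf.comp h1 h2).congr ?_
  intro z hz
  simp only [Function.comp_apply, ofComplex_apply_of_im_pos hz]
  congr 1
  have h3 : 0 < (((a : ℂ) * z + b) / d).im := h2 hz
  rw [ofComplex_apply_of_im_pos h3]
  rfl

/-- Hermite normal form. -/
theorem exists_hermite (d : ℕ) [NeZero d] (γ : SL(2, ℤ)) :
    ∃ (γ' : SL(2, ℤ)) (a d' : ℕ) (b : ℤ), 0 < a ∧ a * d' = d ∧
      γ' 0 0 * a = d * γ 0 0 ∧ γ' 0 0 * b + γ' 0 1 * d' = d * γ 0 1 ∧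
      γ' 1 0 * a = γ 1 0 ∧ γ' 1 0 * b + γ' 1 1 * d' = γ 1 1 := by
  have hdet := γ.det_coe
  rw [Matrix.det_fin_two] at hdet
  set a : ℕ := Int.gcd (d : ℤ) (γ 1 0) with ha
  have hd0 : (d : ℤ) ≠ 0 := by exact_mod_cast NeZero.ne d
  have ha0 : 0 < a := Int.gcd_pos_of_ne_zero_left _ hd0
  have had : (a : ℤ) ∣ d := Int.gcd_dvd_left _ _
  have hac : (a : ℤ) ∣ γ 1 0 := Int.gcd_dvd_right _ _
  obtain ⟨d', hd'⟩ : a ∣ d := by exact_mod_cast had
  obtain ⟨r, hr⟩ := hac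
  have ha0' : (a : ℤ) ≠ 0 := by exact_mod_cast ha0.ne'
  have hd'z : (d : ℤ) = a * d' := by exact_mod_cast hd'
  -- coprimality
  have hcop1 : IsCoprime (d' : ℤ) r := by
    rw [Int.isCoprime_iff_gcd_eq_one]
    have h1 : (a : ℕ) = a * Int.gcd (d' : ℤ) r := by
      conv_lhs => rw [ha, hd'z, hr, Int.gcd_mul_left, Int.natAbs_natCast]
    exact Nat.eq_of_mul_eq_mul_left ha0 (by rw [← h1, mul_one])
  have hcop2 : IsCoprime (γ 0 0) r := by
    refine ⟨γ 1 1, -(a : ℤ) * γ 0 1, ?_⟩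
    rw [hr] at hdet
    linear_combination hdet
  have hcop : IsCoprime ((d' : ℤ) * γ 0 0) r := hcop1.mul_left hcop2
  obtain ⟨y, x', hxy⟩ := hcop
  refine ⟨⟨!![(d' : ℤ) * γ 0 0, -x'; r, y], by
    rw [Matrix.det_fin_two_of]; linear_combination hxy⟩, a, d',
    y * d * γ 0 1 + x' * γ 1 1, ha0, hd'.symm, ?_, ?_, ?_, ?_⟩
  · simp only [Matrix.SpecialLinearGroup.coe_mk, Matrix.of_apply, Matrix.cons_val', Matrix.cons_val_zero,
      Matrix.cons_val_fin_one]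
    rw [hd'z]; ring
  · simp only [Matrix.SpecialLinearGroup.coe_mk, Matrix.of_apply, Matrix.cons_val', Matrix.cons_val_zero,
      Matrix.cons_val_one, Matrix.cons_val_fin_one]
    rw [hr] at hdet
    rw [hd'z]
    linear_combination (a * d' * γ 0 1) * hxy + x' * d' * hdet
  · simp only [Matrix.SpecialLinearGroup.coe_mk, Matrix.of_apply, Matrix.cons_val', Matrix.cons_val_zero,
      Matrix.cons_val_one, Matrix.cons_val_fin_one]
    rw [hr]; ring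
  · simp only [Matrix.SpecialLinearGroup.coe_mk, Matrix.of_apply, Matrix.cons_val', Matrix.cons_val_zero,
      Matrix.cons_val_one, Matrix.cons_val_fin_one]
    rw [hr] at hdet
    rw [hd'z]
    linear_combination (γ 1 1) * hxy + (- y * d') * hdet

/-- the action of an element of `SL(2, ℤ)` -/
theorem coe_smul_SL (γ : SL(2, ℤ)) (τ : ℍ) :
    ((γ • τ : ℍ) : ℂ) = ((γ 0 0 : ℂ) * τ + γ 0 1) / ((γ 1 0 : ℂ) * τ + γ 1 1) := by
  have := UpperHalfPlane.coe_specialLinearGroup_apply γ τ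
  simpa using this

theorem denom_SL_ne_zero (γ : SL(2, ℤ)) (τ : ℍ) : (γ 1 0 : ℂ) * τ + γ 1 1 ≠ 0 := by
  have := UpperHalfPlane.denom_ne_zero (γ : GL (Fin 2) ℝ) τ
  rwa [ModularGroup.denom_apply] at this

theorem tri_smul {d : ℕ} [NeZero d] {γ γ' : SL(2, ℤ)} {a d' : ℕ} [NeZero a] [NeZero d'] {b : ℤ}
    (h1 : γ' 0 0 * a = d * γ 0 0) (h2 : γ' 0 0 * b + γ' 0 1 * d' = d * γ 0 1)
    (h3 : γ' 1 0 * a = γ 1 0) (h4 : γ' 1 0 * b + γ' 1 1 * d' = γ 1 1) (τ : ℍ) :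
    tri d 0 1 (γ • τ) = γ' • tri a b d' τ := by
  apply UpperHalfPlane.ext
  have e1 := denom_SL_ne_zero γ τ
  have e2 := denom_SL_ne_zero γ' (tri a b d' τ)
  rw [coe_smul_SL, coe_tri, coe_smul_SL, coe_tri]
  rw [coe_tri] at e2
  have hd' : (d' : ℂ) ≠ 0 := by exact_mod_cast NeZero.ne d'
  have h1' : (γ' 0 0 : ℂ) * a = d * γ 0 0 := by exact_mod_cast h1
  have h2' : (γ' 0 0 : ℂ) * b + γ' 0 1 * d' = d * γ 0 1 := by exact_mod_cast h2
  have h3' : (γ' 1 0 : ℂ) * a = γ 1 0 := by exact_mod_cast h3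
  have h4' : (γ' 1 0 : ℂ) * b + γ' 1 1 * d' = γ 1 1 := by exact_mod_cast h4
  have e3 : (γ' 1 0 : ℂ) * (((a : ℂ) * τ + b) / d') + γ' 1 1 = ((γ 1 0 : ℂ) * τ + γ 1 1) / d' := by
    rw [← h3', ← h4']
    field_simp
    ring
  have e4 : (γ' 0 0 : ℂ) * (((a : ℂ) * τ + b) / d') + γ' 0 1 =
      ((d : ℂ) * ((γ 0 0 : ℂ) * τ + γ 0 1)) / d' := by
    rw [mul_add, ← mul_assoc, ← h1', ← h2']
    field_simp
    ring
  rw [e3, e4]
  field_simp
  push_cast
  ring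

/-- The function `J(dτ)`. -/
def Jd (d : ℕ) [NeZero d] : ℍ → ℂ := fun τ => J (tri d 0 1 τ)

theorem mdiff_Jd (d : ℕ) [NeZero d] : MDiff (Jd d) := mdiff_tri d 0 1 mdiff_J

theorem Jd_smul {d : ℕ} [NeZero d] {γ γ' : SL(2, ℤ)} {a d' : ℕ} [NeZero a] [NeZero d'] {b : ℤ}
    (h1 : γ' 0 0 * a = d * γ 0 0) (h2 : γ' 0 0 * b + γ' 0 1 * d' = d * γ 0 1)
    (h3 : γ' 1 0 * a = γ 1 0) (h4 : γ' 1 0 * b + γ' 1 1 * d' = γ 1 1) (τ : ℍ) :
    Jd d (γ • τ) = J (tri a b d' τ) := by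
  rw [Jd, tri_smul h1 h2 h3 h4, J_smul]

section Expansion

variable {R : Type*} [CommRing R] {φ : R →+* ℂ}

theorem qN_one_tri {N a d' e : ℕ} [NeZero a] [NeZero d'] [NeZero e]
    (hN : a * d' * e = N) (b : ℤ) (τ : ℍ) :
    qN 1 (tri a b d' τ) =
      Complex.exp (2 * Real.pi * Complex.I / N) ^ ((a : ℤ) * e * b) * qN N τ ^ (a * a * e) := by
  have ha : (a : ℂ) ≠ 0 := by exact_mod_cast NeZero.ne a
  have hd : (d' : ℂ) ≠ 0 := by exact_mod_cast NeZero.ne d'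
  have he : (e : ℂ) ≠ 0 := by exact_mod_cast NeZero.ne e
  rw [qN_apply, qN_apply, Periodic.qParam, Periodic.qParam, ← Complex.exp_int_mul,
    ← Complex.exp_nat_mul, ← Complex.exp_add, coe_tri, ← hN]
  congr 1
  push_cast
  field_simp
  ring

theorem hasExp_J_tri {N a d' e : ℕ} [NeZero a] [NeZero d'] [NeZero e]
    (hN : a * d' * e = N) (b : ℤ) {ζ : Rˣ}
    (hζ : φ ζ = Complex.exp (2 * Real.pi * Complex.I / N)) :
    haveI : NeZero (a * a * e) := ⟨mul_ne_zero (mul_ne_zero (NeZero.ne a) (NeZero.ne a))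
      (NeZero.ne e)⟩
    HasExp φ (qN N) (fun τ => J (tri a b d' τ))
      (ModularCurve.qExpand R (a * a * e)
        (twist (ζ ^ ((a : ℤ) * e * b)) (ModularCurve.jqModC R))) := by
  haveI : NeZero (a * a * e) := ⟨mul_ne_zero (mul_ne_zero (NeZero.ne a) (NeZero.ne a))
      (NeZero.ne e)⟩
  have h1 : HasExp φ (fun τ => qN N τ ^ (a * a * e)) (fun τ => J (tri a b d' τ))
      (twist (ζ ^ ((a : ℤ) * e * b)) (ModularCurve.jqModC R)) := by
    refine (hasExp_J' φ).twist (s' := fun τ => qN N τ ^ (a * a * e)) _ (fun τ => tri a b d' τ) ?_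
    intro τ
    rw [map_units_zpow, hζ]
    exact qN_one_tri hN b τ
  exact h1.qExpand (s' := qN N) (a * a * e) (fun τ => τ) (fun τ => rfl)

/-- Modular functions of level `N` with coefficients in `R`. -/
def modFun (φ : R →+* ℂ) (N : ℕ) : Subring (ℍ → ℂ) where
  carrier := {f | MDiff f ∧ ∀ γ : SL(2, ℤ), ∃ F : LaurentSeries R,
    HasExp φ (qN N) (fun τ => f (γ • τ)) F}
  mul_mem' := by
    rintro f g ⟨hf, hf'⟩ ⟨hg, hg'⟩
    refine ⟨hf.mul hg, fun γ => ?_⟩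
    obtain ⟨F, hF⟩ := hf' γ
    obtain ⟨G, hG⟩ := hg' γ
    exact ⟨F * G, hF.mul hG⟩
  one_mem' := ⟨mdiff_const 1, fun γ => ⟨1, hasExp_one⟩⟩
  add_mem' := by
    rintro f g ⟨hf, hf'⟩ ⟨hg, hg'⟩
    refine ⟨hf.add hg, fun γ => ?_⟩
    obtain ⟨F, hF⟩ := hf' γ
    obtain ⟨G, hG⟩ := hg' γ
    exact ⟨F + G, hF.add hG⟩
  zero_mem' := ⟨mdiff_const 0, fun γ => ⟨0, hasExp_zero⟩⟩
  neg_mem' := by
    rintro f ⟨hf, hf'⟩
    refine ⟨hf.neg, fun γ => ?_⟩
    obtain ⟨F, hF⟩ := hf' γ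
    exact ⟨-F, hF.neg⟩

theorem mem_modFun {N : ℕ} {f : ℍ → ℂ} : f ∈ modFun φ N ↔ MDiff f ∧ ∀ γ : SL(2, ℤ),
    ∃ F : LaurentSeries R, HasExp φ (qN N) (fun τ => f (γ • τ)) F := Iff.rfl

theorem const_mem_modFun {N : ℕ} (a : R) : (fun _ => φ a) ∈ modFun φ N :=
  ⟨mdiff_const _, fun _ => ⟨_, HasExp.const a⟩⟩

theorem mdiff_smul {f : ℍ → ℂ} (hf : MDiff f) (γ : SL(2, ℤ)) : MDiff (fun τ => f (γ • τ)) := by
  have h : (0 : ℝ) < (γ : GL (Fin 2) ℝ).det.val := by simp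
  exact hf.comp (UpperHalfPlane.mdifferentiable_smul h)

theorem smul_mem_modFun {N : ℕ} {f : ℍ → ℂ} (hf : f ∈ modFun φ N) (γ : SL(2, ℤ)) :
    (fun τ => f (γ • τ)) ∈ modFun φ N := by
  refine ⟨mdiff_smul hf.1 γ, fun γ' => ?_⟩
  obtain ⟨F, hF⟩ := hf.2 (γ * γ')
  refine ⟨F, hF.congr fun τ => ?_⟩
  rw [mul_smul]

theorem Jd_mem_modFun {N d : ℕ} [NeZero N] [NeZero d] (hd : d ∣ N) {ζ : Rˣ}
    (hζ : φ ζ = Complex.exp (2 * Real.pi * Complex.I / N)) : Jd d ∈ modFun φ N := by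
  refine ⟨mdiff_Jd d, fun γ => ?_⟩
  obtain ⟨e, he⟩ := hd
  obtain ⟨γ', a, d', b, ha, had, h1, h2, h3, h4⟩ := exists_hermite d γ
  haveI : NeZero a := ⟨ha.ne'⟩
  haveI : NeZero d' := ⟨by rintro rfl; exact NeZero.ne d (by rw [← had, mul_zero])⟩
  haveI : NeZero e := ⟨by rintro rfl; exact NeZero.ne N (by rw [he, mul_zero])⟩
  have hN : a * d' * e = N := by rw [had, he]
  exact ⟨_, (hasExp_J_tri hN b hζ).congr fun τ => (Jd_smul h1 h2 h3 h4 τ).symm⟩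

theorem hasExp_Jd {d : ℕ} [NeZero d] (φ : R →+* ℂ) :
    HasExp φ (qN 1) (Jd d) (ModularCurve.qExpand R d (ModularCurve.jqModC R)) := by
  refine (hasExp_J' φ).qExpand (s' := qN 1) d (fun τ => tri d 0 1 τ) fun τ => ?_
  rw [qN_apply, qN_apply, Periodic.qParam, Periodic.qParam, ← Complex.exp_nat_mul, coe_tri]
  congr 1
  push_cast
  ring

/-- level change -/
theorem HasExp.level {f : ℍ → ℂ} {F : LaurentSeries R} (h : HasExp φ (qN 1) f F) (N : ℕ)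
    [NeZero N] : HasExp φ (qN N) f (ModularCurve.qExpand R N F) := by
  refine h.qExpand (s' := qN N) N (fun τ => τ) fun τ => ?_
  have hN : (N : ℂ) ≠ 0 := by exact_mod_cast NeZero.ne N
  rw [qN_apply, qN_apply, Periodic.qParam, Periodic.qParam, ← Complex.exp_nat_mul]
  congr 1
  push_cast
  field_simp

/-- descending a level -/
theorem HasExp.unlevel {f : ℍ → ℂ} {F : LaurentSeries R} {N : ℕ} [NeZero N] (hφ : Injective φ)
    {ζ : Rˣ} (hζ : φ ζ = Complex.exp (2 * Real.pi * Complex.I / N))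
    (hper : ∀ τ : ℍ, f ((1 : ℝ) +ᵥ τ) = f τ) (h : HasExp φ (qN N) f F) :
    ∃ G : LaurentSeries R, HasExp φ (qN 1) f G ∧ F = ModularCurve.qExpand R N G := by
  have hN : (N : ℂ) ≠ 0 := by exact_mod_cast NeZero.ne N
  -- T-shift
  have h1 : HasExp φ (qN N) f (Fermat.Agent.ModFun.twist ζ F) := by
    have h2 := h.twist (s' := qN N) ζ (fun τ => (1 : ℝ) +ᵥ τ) (fun τ => by
      rw [hζ, qN_apply, qN_apply, Periodic.qParam, Periodic.qParam, ← Complex.exp_add]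
      congr 1
      have : (((1 : ℝ) +ᵥ τ : ℍ) : ℂ) = 1 + τ := by simp
      rw [this]
      push_cast
      field_simp)
    exact h2.congr hper
  have h3 := h.unique hφ (isParam_qN N) h1
  have hprim : IsPrimitiveRoot (Complex.exp (2 * Real.pi * Complex.I / N)) N :=
    Complex.isPrimitiveRoot_exp N (NeZero.ne N)
  have h4 : ∀ n : ℤ, ¬ (N : ℤ) ∣ n → F.coeff n = 0 := by
    intro n hn
    have h5 := congrArg (fun G : LaurentSeries R => φ (G.coeff n)) h3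
    simp only [twist_coeff, map_mul, map_units_zpow, hζ] at h5
    have h6 : Complex.exp (2 * Real.pi * Complex.I / N) ^ n ≠ 1 := fun h7 =>
      hn ((hprim.zpow_eq_one_iff_dvd n).mp h7)
    have h7 : φ (F.coeff n) * (1 - Complex.exp (2 * Real.pi * Complex.I / N) ^ n) = 0 := by
      linear_combination h5
    rcases mul_eq_zero.mp h7 with h8 | h8
    · exact hφ (by rw [h8, map_zero])
    · exact absurd (sub_eq_zero.mp h8).symm h6
  have hN' : (0 : ℤ) < N := by exact_mod_cast Nat.pos_of_ne_zero (NeZero.ne N)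
  let G : LaurentSeries R := HahnSeries.ofSuppBddBelow (fun n : ℤ => F.coeff (N * n)) (by
    refine ⟨-|F.order|, fun n hn => ?_⟩
    rw [Function.mem_support] at hn
    have h8 : F.order ≤ N * n := by
      by_contra hlt
      exact hn (HahnSeries.coeff_eq_zero_of_lt_order (not_le.mp hlt))
    have h9 := neg_abs_le F.order
    rcases le_or_gt 0 n with h10 | h10
    · exact le_trans (neg_nonpos.mpr (abs_nonneg _)) h10
    · nlinarith)
  have hG : ∀ n, G.coeff n = F.coeff (N * n) := fun n => rfl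
  have hFG : F = ModularCurve.qExpand R N G := by
    ext n
    by_cases hn : (N : ℤ) ∣ n
    · obtain ⟨m, rfl⟩ := hn
      rw [ModularCurve.qExpand_coeff_mul, hG]
    · rw [ModularCurve.qExpand_coeff_of_not_dvd _ _ hn, h4 n hn]
  refine ⟨G, ?_, hFG⟩
  intro τ hτ
  have h5 := h τ (qN_ne_zero N τ)
  have hinj : Function.Injective (fun n : ℤ => (N : ℤ) * n) := mul_right_injective₀ hN'.ne'
  rw [← hinj.hasSum_iff] at h5
  · refine hasSum_congr' (fun n => ?_) h5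
    simp only [Function.comp_apply]
    rw [hG, zpow_mul, zpow_natCast]
    congr 2
    rw [qN_apply, qN_apply, Periodic.qParam, Periodic.qParam, ← Complex.exp_nat_mul]
    congr 1
    push_cast
    field_simp
  · intro n hn
    rw [h4 n (fun ⟨m, hm⟩ => hn ⟨m, hm.symm⟩)]
    simp

end Expansion

theorem Jd_invariant {N d : ℕ} [NeZero d] (hd : d ∣ N) {γ : SL(2, ℤ)}
    (hγ : γ ∈ CongruenceSubgroup.Gamma0 N) (τ : ℍ) : Jd d (γ • τ) = Jd d τ := by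
  rw [CongruenceSubgroup.Gamma0_mem, ZMod.intCast_zmod_eq_zero_iff_dvd] at hγ
  have hd' : (d : ℤ) ∣ γ 1 0 := (Int.natCast_dvd_natCast.mpr hd).trans hγ
  obtain ⟨r, hr⟩ := hd'
  have hdet := γ.det_coe
  rw [Matrix.det_fin_two] at hdet
  let γ' : SL(2, ℤ) := ⟨!![γ 0 0, d * γ 0 1; r, γ 1 1], by
    rw [Matrix.det_fin_two_of]
    rw [hr] at hdet
    linear_combination hdet⟩
  have h := Jd_smul (d := d) (γ := γ) (γ' := γ') (a := d) (d' := 1) (b := 0)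
    (by simp [γ']; ring) (by simp [γ']) (by simp [γ', hr]; ring) (by simp [γ']) τ
  rw [h]
  rfl

/-- The conjugates of `J(Nτ)` are distinct. -/
theorem mul_inv_mem_of_Jd_eq {N : ℕ} [NeZero N] {g h : SL(2, ℤ)}
    (heq : ∀ τ, Jd N (g • τ) = Jd N (h • τ)) : g * h⁻¹ ∈ CongruenceSubgroup.Gamma0 N := by
  obtain ⟨γ₁, a₁, d₁, b₁, ha₁, had₁, h₁1, h₁2, h₁3, h₁4⟩ := exists_hermite N g
  obtain ⟨γ₂, a₂, d₂, b₂, ha₂, had₂, h₂1, h₂2, h₂3, h₂4⟩ := exists_hermite N h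
  haveI : NeZero a₁ := ⟨ha₁.ne'⟩
  haveI : NeZero d₁ := ⟨by rintro rfl; exact NeZero.ne N (by rw [← had₁, mul_zero])⟩
  haveI : NeZero a₂ := ⟨ha₂.ne'⟩
  haveI : NeZero d₂ := ⟨by rintro rfl; exact NeZero.ne N (by rw [← had₂, mul_zero])⟩
  have hprim : IsPrimitiveRoot (Complex.exp (2 * Real.pi * Complex.I / N)) N :=
    Complex.isPrimitiveRoot_exp N (NeZero.ne N)
  have hu : IsUnit (Complex.exp (2 * Real.pi * Complex.I / N)) := (Complex.exp_ne_zero _).isUnit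
  obtain ⟨ζ, hζ⟩ := hu
  have e1 := (hasExp_J_tri (φ := RingHom.id ℂ) (N := N) (a := a₁) (d' := d₁) (e := 1)
    (by rw [mul_one, had₁]) b₁ (ζ := ζ) hζ)
  have e2 := (hasExp_J_tri (φ := RingHom.id ℂ) (N := N) (a := a₂) (d' := d₂) (e := 1)
    (by rw [mul_one, had₂]) b₂ (ζ := ζ) hζ)
  have e3 := e1.congr (g := fun τ => J (tri a₂ b₂ d₂ τ)) (fun τ => by
    rw [← Jd_smul h₁1 h₁2 h₁3 h₁4 τ, ← Jd_smul h₂1 h₂2 h₂3 h₂4 τ]
    exact heq τ)
  have e4 := e3.unique Function.injective_id (isParam_qN N) e2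
  -- compare leading terms
  have key : ∀ (a : ℕ) [NeZero (a * a * 1)] (u : ℂˣ),
      (ModularCurve.qExpand ℂ (a * a * 1) (twist u (ModularCurve.jqModC ℂ))).coeff
        (-((a * a : ℕ) : ℤ)) = ((u ^ (-1 : ℤ) : ℂˣ) : ℂ) := by
    intro a _ u
    have h1 : (-((a * a : ℕ) : ℤ)) = ((a * a * 1 : ℕ) : ℤ) * (-1) := by push_cast; ring
    rw [h1, ModularCurve.qExpand_coeff_mul, twist_coeff]
    have h2 := coeff_jqModC_pow_self' (R := ℂ) 1
    rw [pow_one, Nat.cast_one] at h2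
    rw [h2, mul_one]
  have key2 : ∀ (a : ℕ) [NeZero (a * a * 1)] (u : ℂˣ) (m : ℤ), m < -((a * a : ℕ) : ℤ) →
      (ModularCurve.qExpand ℂ (a * a * 1) (twist u (ModularCurve.jqModC ℂ))).coeff m = 0 := by
    intro a hne u m hm
    by_cases hdvd : ((a * a * 1 : ℕ) : ℤ) ∣ m
    · obtain ⟨n, rfl⟩ := hdvd
      rw [ModularCurve.qExpand_coeff_mul, twist_coeff]
      have hpos : (0 : ℤ) < ((a * a * 1 : ℕ) : ℤ) := by
        exact_mod_cast Nat.pos_of_ne_zero hne.ne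
      have hn : n < -((1 : ℕ) : ℤ) := by
        push_cast at hm hpos ⊢
        nlinarith
      have := coeff_jqModC_pow_of_lt' (R := ℂ) hn
      rw [pow_one] at this
      rw [this, mul_zero]
    · exact ModularCurve.qExpand_coeff_of_not_dvd _ _ hdvd
  have ha : a₁ = a₂ := by
    have hle : ∀ (a a' : ℕ) [NeZero (a * a * 1)] [NeZero (a' * a' * 1)] (u u' : ℂˣ),
        ModularCurve.qExpand ℂ (a * a * 1) (twist u (ModularCurve.jqModC ℂ)) =
        ModularCurve.qExpand ℂ (a' * a' * 1) (twist u' (ModularCurve.jqModC ℂ)) → a ≤ a' := by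
      intro a a' _ _ u u' h
      by_contra hlt
      push Not at hlt
      have h1 := key a u
      rw [h, key2 a' u' _ (by
        have : a' * a' < a * a := Nat.mul_self_lt_mul_self hlt
        omega)] at h1
      exact Units.ne_zero _ h1.symm
    haveI : NeZero (a₁ * a₁ * 1) := ⟨mul_ne_zero (mul_ne_zero (NeZero.ne a₁) (NeZero.ne a₁))
      one_ne_zero⟩
    haveI : NeZero (a₂ * a₂ * 1) := ⟨mul_ne_zero (mul_ne_zero (NeZero.ne a₂) (NeZero.ne a₂))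
      one_ne_zero⟩
    exact le_antisymm (hle _ _ _ _ e4) (hle _ _ _ _ e4.symm)
  subst ha
  have hdd : d₁ = d₂ := Nat.eq_of_mul_eq_mul_left ha₁ (had₁.trans had₂.symm)
  subst hdd
  haveI : NeZero (a₁ * a₁ * 1) := ⟨mul_ne_zero (mul_ne_zero (NeZero.ne a₁) (NeZero.ne a₁))
      one_ne_zero⟩
  have h5 := key a₁ (ζ ^ ((a₁ : ℤ) * ((1 : ℕ) : ℤ) * b₁))
  rw [e4, key a₁] at h5
  have h6 : (Complex.exp (2 * Real.pi * Complex.I / N)) ^ ((a₁ : ℤ) * (b₁ - b₂)) = 1 := by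
    have h7 := Units.ext h5
    have h8 : ζ ^ ((a₁ : ℤ) * (b₁ - b₂)) = 1 := by
      rw [← zpow_mul, ← zpow_mul] at h7
      have h9 : ζ ^ ((a₁ : ℤ) * (b₁ - b₂)) = ζ ^ ((a₁ : ℤ) * ((1 : ℕ) : ℤ) * b₂ * -1) *
          (ζ ^ ((a₁ : ℤ) * ((1 : ℕ) : ℤ) * b₁ * -1))⁻¹ := by
        rw [← zpow_neg, ← zpow_add]
        congr 1
        push_cast
        ring
      rw [h9, h7, mul_inv_cancel]
    have h10 := congrArg Units.val h8
    rw [Units.val_zpow_eq_zpow_val, Units.val_one] at h10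
    have hζ' : (ζ : ℂ) = Complex.exp (2 * Real.pi * Complex.I / N) := hζ
    rwa [hζ'] at h10
  rw [hprim.zpow_eq_one_iff_dvd] at h6
  have h7 : (d₁ : ℤ) ∣ b₁ - b₂ := by
    have h8 : (N : ℤ) = (a₁ : ℤ) * d₁ := by exact_mod_cast had₁.symm
    rw [h8] at h6
    exact Int.dvd_of_mul_dvd_mul_left (by exact_mod_cast ha₁.ne') h6
  obtain ⟨k, hk⟩ := h7
  rw [CongruenceSubgroup.Gamma0_mem, ZMod.intCast_zmod_eq_zero_iff_dvd]
  have h8 : (g * h⁻¹) 1 0 = g 1 0 * h 1 1 - g 1 1 * h 1 0 := by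
    simp [Matrix.SpecialLinearGroup.coe_mul, Matrix.SpecialLinearGroup.coe_inv,
      Matrix.adjugate_fin_two, Matrix.mul_apply, Fin.sum_univ_two]
    ring
  rw [h8, ← h₁3, ← h₁4, ← h₂3, ← h₂4]
  have h9 : (N : ℤ) = (a₁ : ℤ) * d₁ := by exact_mod_cast had₁.symm
  rw [h9]
  refine ⟨-k * γ₁ 1 0 * γ₂ 1 0 + γ₁ 1 0 * γ₂ 1 1 - γ₁ 1 1 * γ₂ 1 0, ?_⟩
  linear_combination (-(γ₁ 1 0) * γ₂ 1 0 * a₁) * hk

end Fermat.Agent.ModFun
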