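import Mathlib
import Fermat.Agent.ModFun.Level

/-!
The characteristic polynomial of a modular function on `Γ₀(N)` over the `j`-line.
-/

set_option autoImplicit false

noncomputable section

namespace Fermat.Agent.ModFun

open UpperHalfPlane hiding I
open Complex Function Filter Topology ModularForm
open scoped Manifold MatrixGroups ModularForm

/-- The coset space `SL(2, ℤ) / Γ₀(N)`. -/
abbrev XN (N : ℕ) : Type := SL(2, ℤ) ⧸ (CongruenceSubgroup.Gamma0 N)

instance (N : ℕ) [NeZero N] : Finite (XN N) := by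
  haveI : (CongruenceSubgroup.Gamma0 N).FiniteIndex := inferInstance
  infer_instance

instance (N : ℕ) [NeZero N] : Fintype (XN N) := Fintype.ofFinite _

/-- Invariance under `Γ₀(N)`. -/
def IsInv (N : ℕ) (f : ℍ → ℂ) : Prop :=
  ∀ γ ∈ CongruenceSubgroup.Gamma0 N, ∀ τ : ℍ, f (γ • τ) = f τ

/-- The conjugate of a function by a coset. -/
def conjHom {N : ℕ} (x : XN N) : (ℍ → ℂ) →+* (ℍ → ℂ) where
  toFun f := fun τ => f ((Quotient.out x)⁻¹ • τ)
  map_one' := rfl
  map_mul' _ _ := rfl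
  map_zero' := rfl
  map_add' _ _ := rfl

theorem conjHom_apply {N : ℕ} (x : XN N) (f : ℍ → ℂ) (τ : ℍ) :
    conjHom x f τ = f ((Quotient.out x)⁻¹ • τ) := rfl

theorem conjHom_mk {N : ℕ} {f : ℍ → ℂ} (hf : IsInv N f) (g : SL(2, ℤ)) (τ : ℍ) :
    conjHom ((g : SL(2, ℤ)) : XN N) f τ = f (g⁻¹ • τ) := by
  obtain ⟨h, hh⟩ := QuotientGroup.mk_out_eq_mul (CongruenceSubgroup.Gamma0 N) g
  rw [conjHom_apply]
  have h1 : (Quotient.out ((g : SL(2, ℤ)) : XN N))⁻¹ = (h : SL(2, ℤ))⁻¹ * g⁻¹ := by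
    rw [← mul_inv_rev]
    exact congrArg _ hh
  rw [h1, mul_smul]
  exact hf _ (inv_mem h.2) _

theorem conjHom_smul {N : ℕ} {f : ℍ → ℂ} (hf : IsInv N f) (h : SL(2, ℤ)) (x : XN N) (τ : ℍ) :
    conjHom x f (h • τ) = conjHom (h⁻¹ • x) f τ := by
  obtain ⟨g, rfl⟩ := QuotientGroup.mk_surjective x
  rw [conjHom_mk hf]
  have h1 : h⁻¹ • ((g : SL(2, ℤ)) : XN N) = ((h⁻¹ * g : SL(2, ℤ)) : XN N) := rfl
  rw [h1, conjHom_mk hf, mul_inv_rev, inv_inv, mul_smul]

theorem conjHom_one {N : ℕ} {f : ℍ → ℂ} (hf : IsInv N f) :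
    conjHom ((1 : SL(2, ℤ)) : XN N) f = f := by
  funext τ
  rw [conjHom_mk hf, inv_one, one_smul]

variable {R : Type*} [CommRing R] {φ : R →+* ℂ} {N : ℕ} [NeZero N]

theorem conjHom_mem_modFun {f : ℍ → ℂ} (hf : f ∈ modFun φ N) (x : XN N) :
    conjHom x f ∈ modFun φ N := smul_mem_modFun hf _

/-- The characteristic polynomial with coefficients functions on `ℍ`. -/
def cpoly (N : ℕ) [NeZero N] (f : ℍ → ℂ) : Polynomial (ℍ → ℂ) :=
  ∏ x : XN N, (Polynomial.X - Polynomial.C (conjHom x f))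

theorem cpoly_coeff_mem {f : ℍ → ℂ} (hf : f ∈ modFun φ N) (k : ℕ) :
    (cpoly N f).coeff k ∈ modFun φ N := by
  have h1 : cpoly N f = (∏ x : XN N, (Polynomial.X -
      Polynomial.C (⟨conjHom x f, conjHom_mem_modFun hf x⟩ : modFun φ N))).map
        (modFun φ N).subtype := by
    rw [Polynomial.map_prod]
    simp [cpoly]
  rw [h1, Polynomial.coeff_map]
  exact Subtype.mem _

/-- pullback by an element of `SL(2, ℤ)` -/
def pullHom (h : SL(2, ℤ)) : (ℍ → ℂ) →+* (ℍ → ℂ) where
  toFun f := fun τ => f (h • τ)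
  map_one' := rfl
  map_mul' _ _ := rfl
  map_zero' := rfl
  map_add' _ _ := rfl

theorem cpoly_coeff_smul {f : ℍ → ℂ} (hf : IsInv N f) (k : ℕ) (h : SL(2, ℤ)) (τ : ℍ) :
    (cpoly N f).coeff k (h • τ) = (cpoly N f).coeff k τ := by
  have h1 : (cpoly N f).map (pullHom h) = cpoly N f := by
    rw [cpoly, Polynomial.map_prod]
    have h2 : ∀ x : XN N, (Polynomial.X - Polynomial.C (conjHom x f)).map (pullHom h) =
        Polynomial.X - Polynomial.C (conjHom (h⁻¹ • x) f) := by
      intro x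
      rw [Polynomial.map_sub, Polynomial.map_X, Polynomial.map_C]
      congr 2
      funext τ
      exact conjHom_smul hf h x τ
    simp only [h2]
    exact Fintype.prod_equiv (MulAction.toPerm h⁻¹ : Equiv.Perm (XN N)) _ _ (fun x => rfl)
  have h3 := congrArg (fun p : Polynomial (ℍ → ℂ) => p.coeff k τ) h1
  simp only [Polynomial.coeff_map] at h3
  exact h3

theorem cpoly_map_eval (f : ℍ → ℂ) (τ : ℍ) :
    (cpoly N f).map (Pi.evalRingHom (fun _ : ℍ => ℂ) τ) =
      ∏ x : XN N, (Polynomial.X - Polynomial.C (conjHom x f τ)) := by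
  rw [cpoly, Polynomial.map_prod]
  simp

/-- The characteristic polynomial of a modular function over `R[j]`. -/
theorem exists_charpoly (hφ : Injective φ) {ζ : Rˣ}
    (hζ : φ ζ = Complex.exp (2 * Real.pi * Complex.I / N)) {f : ℍ → ℂ}
    (hf : f ∈ modFun φ N) (hinv : IsInv N f) :
    ∃ Q : Polynomial (Polynomial R), Q.Monic ∧ Q.natDegree = Fintype.card (XN N) ∧
      ∀ τ, Q.map (Polynomial.eval₂RingHom φ (J τ)) =
        ∏ x : XN N, (Polynomial.X - Polynomial.C (conjHom x f τ)) := by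
  have hR : Nontrivial R := ⟨0, 1, fun h01 => by
    have := congrArg φ h01
    rw [map_zero, map_one] at this
    exact zero_ne_one this⟩
  have h1 : ∀ k, ∃ P : Polynomial R, ∀ τ, (cpoly N f).coeff k τ = P.eval₂ φ (J τ) := by
    intro k
    have h2 := cpoly_coeff_mem hf k
    have h3 := cpoly_coeff_smul hinv k
    obtain ⟨F, hF⟩ := h2.2 1
    have hF' : HasExp φ (qN N) ((cpoly N f).coeff k) F := hF.congr fun τ => by rw [one_smul]
    obtain ⟨G, hG, -⟩ := hF'.unlevel hφ hζ (fun τ => by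
      rw [← modular_T_smul]
      exact h3 _ _)
    obtain ⟨P, hP, -⟩ := exists_polynomial hφ h2.1 h3 hG
    exact ⟨P, hP⟩
  choose P hP using h1
  set n := Fintype.card (XN N) with hn
  set Q : Polynomial (Polynomial R) := Polynomial.X ^ n +
    ∑ k ∈ Finset.range n, Polynomial.C (P k) * Polynomial.X ^ k with hQ
  have hdeg : (∑ k ∈ Finset.range n, Polynomial.C (P k) * Polynomial.X ^ k :
      Polynomial (Polynomial R)).degree < n := by
    rw [Polynomial.degree_lt_iff_coeff_zero]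
    intro m hm
    rw [Polynomial.finset_sum_coeff]
    refine Finset.sum_eq_zero fun k hk => ?_
    rw [Polynomial.coeff_C_mul_X_pow, if_neg]
    have := Finset.mem_range.mp hk
    omega
  have hmonic : Q.Monic := Polynomial.monic_X_pow_add hdeg
  have hnat : Q.natDegree = n := Polynomial.natDegree_eq_of_degree_eq_some (by
    rw [hQ, Polynomial.degree_add_eq_left_of_degree_lt (by rwa [Polynomial.degree_X_pow]),
      Polynomial.degree_X_pow])
  refine ⟨Q, hmonic, hnat, fun τ => ?_⟩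
  set p : Polynomial ℂ := ∏ x : XN N, (Polynomial.X - Polynomial.C (conjHom x f τ)) with hp
  have hpm : p.Monic := Polynomial.monic_prod_of_monic _ _ fun x _ => Polynomial.monic_X_sub_C _
  have hpn : p.natDegree = n := by
    rw [hp, Polynomial.natDegree_finsetProd_X_sub_C_eq_card]
    rfl
  rw [hpm.as_sum, hpn, hQ, Polynomial.map_add, Polynomial.map_pow, Polynomial.map_X,
    Polynomial.map_sum]
  congr 1
  refine Finset.sum_congr rfl fun k _ => ?_
  rw [Polynomial.map_mul, Polynomial.map_C, Polynomial.map_pow, Polynomial.map_X]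
  congr 2
  have h4 := cpoly_map_eval (N := N) f τ
  have h5 := congrArg (fun q : Polynomial ℂ => q.coeff k) h4
  simp only [Polynomial.coeff_map] at h5
  rw [← h5]
  exact (hP k τ).symm

end Fermat.Agent.ModFun
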