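import Mathlib
import Fermat.Agent.ModFun.JFun

/-!
The derivative of the `j`-function.
-/

set_option autoImplicit false

noncomputable section

namespace Fermat.Agent.ModFun

open UpperHalfPlane hiding I
open Complex Function Filter Topology ModularForm Derivative
open scoped Manifold MatrixGroups ModularForm Derivative

local notation "𝕢" => Function.Periodic.qParam

theorem hasDerivAt_qParam_one (z : ℂ) :
    HasDerivAt (𝕢 (1 : ℝ)) (2 * Real.pi * Complex.I * 𝕢 (1 : ℝ) z) z := by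
  have h1 : HasDerivAt (fun z : ℂ => 2 * Real.pi * Complex.I * z / ((1 : ℝ) : ℂ))
      (2 * Real.pi * Complex.I * 1 / ((1 : ℝ) : ℂ)) z :=
    ((hasDerivAt_id z).const_mul _).div_const _
  have h2 := h1.cexp
  have h3 : 2 * Real.pi * Complex.I * 𝕢 (1 : ℝ) z = cexp (2 * Real.pi * Complex.I * z / ((1 : ℝ) : ℂ)) *
      (2 * Real.pi * Complex.I * 1 / ((1 : ℝ) : ℂ)) := by
    rw [Periodic.qParam, mul_one, Complex.ofReal_one, div_one, div_one]
    ring
  rw [h3]
  exact h2

theorem comp_ofComplex_eventually {f g : ℂ → ℂ} (h : ∀ z : ℂ, 0 < z.im → f z = g z) (τ : ℍ) :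
    f =ᶠ[𝓝 (τ : ℂ)] g := by
  filter_upwards [isOpen_upperHalfPlaneSet.mem_nhds τ.im_pos] with w hw
  exact h w hw

/-- The normalised derivative of a bounded periodic function. -/
theorem D_eq_of_isBounded {f : ℍ → ℂ} (hf : MDiff f) (hper : ∀ τ : ℍ, f ((1 : ℝ) +ᵥ τ) = f τ)
    (hb : IsBoundedAtImInfty f) (τ : ℍ) :
    D f τ = 𝕢 (1 : ℝ) τ * deriv (cuspFunction 1 f) (𝕢 (1 : ℝ) τ) := by
  have hd : DifferentiableAt ℂ (cuspFunction 1 f) (𝕢 (1 : ℝ) τ) :=
    UpperHalfPlane.differentiableAt_cuspFunction one_pos (periodic_ofComplex hper) hf hb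
      (Periodic.norm_qParam_lt_one one_pos τ.im_pos)
  have h1 : HasDerivAt (cuspFunction 1 f ∘ 𝕢 (1 : ℝ))
      (deriv (cuspFunction 1 f) (𝕢 (1 : ℝ) τ) * (2 * Real.pi * Complex.I * 𝕢 (1 : ℝ) τ)) τ :=
    hd.hasDerivAt.comp _ (hasDerivAt_qParam_one _)
  have h2 : (f ∘ ofComplex) =ᶠ[𝓝 (τ : ℂ)] (cuspFunction 1 f ∘ 𝕢 (1 : ℝ)) := by
    refine comp_ofComplex_eventually (fun z hz => ?_) τ
    have := eq_cuspFunction ⟨z, hz⟩ one_ne_zero (periodic_ofComplex hper)
    simp only [Function.comp_apply, ofComplex_apply_of_im_pos hz]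
    exact this.symm
  rw [normalizedDerivOfComplex, h2.deriv_eq, h1.deriv]
  have := Complex.two_pi_I_ne_zero
  field_simp

theorem isBounded_D {f : ℍ → ℂ} (hf : MDiff f) (hper : ∀ τ : ℍ, f ((1 : ℝ) +ᵥ τ) = f τ)
    (hb : IsBoundedAtImInfty f) : IsBoundedAtImInfty (D f) := by
  have h0 : D f = fun τ : ℍ => 𝕢 (1 : ℝ) (τ : ℂ) * deriv (cuspFunction 1 f) (𝕢 (1 : ℝ) (τ : ℂ)) :=
    funext fun τ => D_eq_of_isBounded hf hper hb τ
  rw [h0]
  have h1 : AnalyticAt ℂ (cuspFunction 1 f) 0 :=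
    analyticAt_cuspFunction_zero one_pos (periodic_ofComplex hper) hf hb
  have h2 : Tendsto (fun w : ℂ => w * deriv (cuspFunction 1 f) w) (𝓝 0)
      (𝓝 (0 * deriv (cuspFunction 1 f) 0)) :=
    tendsto_id.mul h1.deriv.continuousAt.tendsto
  exact (h2.comp (qParam_tendsto_atImInfty one_pos)).isBigO_one ℝ

theorem D_qN : D (qN 1) = qN 1 := by
  funext τ
  have h2 : (qN 1 ∘ ofComplex) =ᶠ[𝓝 (τ : ℂ)] (𝕢 (1 : ℝ)) := by
    refine comp_ofComplex_eventually (fun z hz => ?_) τ
    simp only [Function.comp_apply, ofComplex_apply_of_im_pos hz, qN_apply, Nat.cast_one]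
  rw [normalizedDerivOfComplex, h2.deriv_eq, (hasDerivAt_qParam_one _).deriv, qN_apply,
    Nat.cast_one]
  have := Complex.two_pi_I_ne_zero
  field_simp

theorem mdiff_DJ : MDiff (D J) := normalizedDerivOfComplex_mdifferentiable mdiff_J

theorem J_slash (γ : SL(2, ℤ)) : J ∣[(0 : ℤ)] γ = J := by
  funext τ
  rw [ModularForm.SL_slash_apply, neg_zero, zpow_zero, mul_one]
  exact J_smul γ τ

theorem DJ_slash (γ : SL(2, ℤ)) : (D J) ∣[(2 : ℤ)] γ = D J := by
  have h := normalizedDerivOfComplex_SL_slash (k := 0) mdiff_J (γ := γ)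
  rw [J_slash] at h
  funext τ
  have h2 := congrFun h τ
  simp only [Pi.sub_apply] at h2
  rw [h2]
  simp

theorem isBounded_qDJ : IsBoundedAtImInfty (qN 1 * D J) := by
  have h1 : IsBoundedAtImInfty (qN 1 * J) := by
    have := isBounded_qJ
    refine this.congr_left fun τ => ?_
    simp
  have hd : MDiff (qN 1 * J) := (mdiff_qN 1).mul mdiff_J
  have hper : ∀ τ : ℍ, (qN 1 * J) ((1 : ℝ) +ᵥ τ) = (qN 1 * J) τ := by
    intro τ
    have := qN_vadd 1 τ
    rw [Nat.cast_one] at this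
    simp only [Pi.mul_apply]
    rw [this, J_vadd_one]
  have h2 := isBounded_D hd hper h1
  have h3 : D (qN 1 * J) = qN 1 * J + qN 1 * D J := by
    rw [normalizedDerivOfComplex_mul _ _ (mdiff_qN 1) mdiff_J, D_qN]
  have h4 : (qN 1 * D J) = D (qN 1 * J) - (qN 1 * J) := by
    rw [h3]
    ring
  rw [h4]
  exact h2.sub h1

theorem isBounded_discriminant_div : IsBoundedAtImInfty
    (fun τ : ℍ => ModularForm.discriminant τ / qN 1 τ) := by
  have h := tendsto_atImInfty_tprod_one_sub_eta_q_pow.isBigO_one ℝ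
  refine h.congr_left fun τ => ?_
  rw [discriminant_eq_q_prod, qN_apply, Nat.cast_one]
  have := Periodic.qParam_ne_zero (h := 1) (τ : ℂ)
  rw [mul_div_cancel_left₀ _ this]

/-- `D J * Δ` as a modular form of weight 14. -/
def DJΔ : ModularForm 𝒮ℒ 14 where
  toFun := D J * ModularForm.discriminant
  slash_action_eq' := fun _ ⟨γ, hγ⟩ ↦ by
    rw [← hγ]
    have h2 : ModularForm.discriminant ∣[(12 : ℤ)] γ = ModularForm.discriminant :=
      SlashInvariantForm.slash_action_eqn CuspForm.discriminant _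
        (MonoidHom.mem_range.mpr ⟨γ, rfl⟩)
    have h3 := ModularForm.mul_slash_SL2 2 12 γ (D J) ModularForm.discriminant
    rw [DJ_slash, h2] at h3
    exact h3
  holo' := mdiff_DJ.mul mdiff_discriminant
  bdd_at_cusps' {c} hc := by
    rw [Subgroup.IsArithmetic.isCusp_iff_isCusp_SL2Z] at hc
    rw [OnePoint.isBoundedAt_iff_forall_SL2Z hc]
    intro γ _
    have h2 : ModularForm.discriminant ∣[(12 : ℤ)] γ = ModularForm.discriminant :=
      SlashInvariantForm.slash_action_eqn CuspForm.discriminant _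
        (MonoidHom.mem_range.mpr ⟨γ, rfl⟩)
    have h3 := ModularForm.mul_slash_SL2 2 12 γ (D J) ModularForm.discriminant
    rw [DJ_slash, h2] at h3
    have h3' : (D J * ModularForm.discriminant) ∣[(14 : ℤ)] γ = D J * ModularForm.discriminant := h3
    rw [h3']
    have h4 := isBounded_qDJ.mul isBounded_discriminant_div
    refine h4.congr_left fun τ => ?_
    simp only [Pi.mul_apply]
    have := qN_ne_zero 1 τ
    field_simp

theorem not_const_J : ¬ ∃ c, ∀ τ, J τ = c := by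
  rintro ⟨c, hc⟩
  have h1 : HasExp (RingHom.id ℂ) (qN 1) J (HahnSeries.C c : LaurentSeries ℂ) := by
    refine (HasExp.const c).congr fun τ => ?_
    rw [hc]; rfl
  have h2 := h1.unique Function.injective_id (isParam_qN 1) (hasExp_J' (RingHom.id ℂ))
  have h3 := congrArg (fun G : LaurentSeries ℂ => G.coeff (-1)) h2
  simp only [C_coeff_ne_zero (show (-1 : ℤ) ≠ 0 by norm_num)] at h3
  have h4 := coeff_jqModC_pow_self' (R := ℂ) 1
  rw [pow_one, Nat.cast_one] at h4
  rw [h4] at h3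
  exact zero_ne_one h3

theorem DJ_ne_zero : D J ≠ 0 := by
  intro h
  apply not_const_J
  refine ⟨J UpperHalfPlane.I, fun τ => ?_⟩
  have h1 : DifferentiableOn ℂ (J ∘ ofComplex) upperHalfPlaneSet :=
    UpperHalfPlane.mdifferentiable_iff.mp mdiff_J
  have h2 := isOpen_upperHalfPlaneSet.is_const_of_deriv_eq_zero
    (Convex.isPreconnected (convex_halfSpace_im_gt 0)) h1 (fun z hz => by
      have := congrFun h ⟨z, hz⟩
      simp only [normalizedDerivOfComplex, Pi.zero_apply, mul_eq_zero, inv_eq_zero] at this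
      rcases this with h3 | h3
      · exact absurd h3 (by simpa using Complex.two_pi_I_ne_zero)
      · exact h3) τ.im_pos UpperHalfPlane.I.im_pos
  simp only [Function.comp_apply, ofComplex_apply] at h2
  exact h2

/-- `E₄ ^ 2 * E₆` as a modular form of weight 14. -/
def E14 : ModularForm 𝒮ℒ 14 := ModularForm.mcast (by norm_num) ((E₄.mul E₄).mul E₆)

theorem E14_apply (τ : ℍ) : E14 τ = E₄ τ ^ 2 * E₆ τ := by
  have : E14 τ = E₄ τ * E₄ τ * E₆ τ := rfl
  rw [this]
  ring

theorem E14_ne_zero : E14 ≠ 0 := by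
  intro h
  have h1 : ((E₄ : ℍ → ℂ) * E₄) * E₆ = 0 := by
    funext τ
    have := congrArg (fun f : ModularForm 𝒮ℒ 14 => f τ) h
    simpa [E14_apply, pow_two] using this
  have h4 : (E₄ : ℍ → ℂ) ≠ 0 := by
    intro h
    exact EisensteinSeries.E_ne_zero (by norm_num) (by decide) (DFunLike.ext' h)
  have h6 : (E₆ : ℍ → ℂ) ≠ 0 := by
    intro h
    exact EisensteinSeries.E_ne_zero (by norm_num) (by decide) (DFunLike.ext' h)
  rw [UpperHalfPlane.mul_eq_zero_iff (mdiff_E₄.mul mdiff_E₄) mdiff_E₆,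
    UpperHalfPlane.mul_eq_zero_iff mdiff_E₄ mdiff_E₄] at h1
  tauto

theorem exists_DJ_eq : ∃ c : ℂ, c ≠ 0 ∧
    ∀ τ, D J τ * ModularForm.discriminant τ = c * (E₄ τ ^ 2 * E₆ τ) := by
  have h1 : Module.finrank ℂ (ModularForm 𝒮ℒ 14) = 1 := by
    have h := dimension_level_one 14 (by decide)
    rw [if_pos (by decide)] at h
    have h2 : Module.rank ℂ (ModularForm 𝒮ℒ 14) = 1 := by
      simpa using h
    exact Module.rank_eq_one_iff_finrank_eq_one.mp h2
  obtain ⟨c, hc⟩ := (finrank_eq_one_iff_of_nonzero' E14 E14_ne_zero).mp h1 DJΔ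
  have h3 : ∀ τ, D J τ * ModularForm.discriminant τ = c * (E₄ τ ^ 2 * E₆ τ) := by
    intro τ
    have := congrArg (fun f : ModularForm 𝒮ℒ 14 => f τ) hc
    rw [← E14_apply]
    exact this.symm
  refine ⟨c, ?_, h3⟩
  rintro rfl
  apply DJ_ne_zero
  funext τ
  have := h3 τ
  rw [zero_mul] at this
  exact (mul_eq_zero.mp this).resolve_right (discriminant_ne_zero τ)

/-- `J` is surjective. -/
theorem J_surjective : Function.Surjective J := by
  intro c
  by_contra hcon
  push Not at hcon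
  have hne : ∀ τ, J τ - c ≠ 0 := fun τ => sub_ne_zero.mpr (hcon τ)
  have hmd : MDiff (fun τ => (1 : ℂ) / (J τ - c)) :=
    (mdiff_const 1).div (mdiff_J.sub (mdiff_const c)) hne
  have h4 : Tendsto (E₄ : ℍ → ℂ) atImInfty (𝓝 1) := by
    have := hasExp_E₄.tendsto (fun m hm => ModularCurve.ofPowerSeries_coeff_of_neg _ hm)
    rw [show (0 : ℤ) = ((0 : ℕ) : ℤ) from rfl, HahnSeries.ofPowerSeries_apply_coeff,
      PowerSeries.coeff_zero_eq_constantCoeff, ModularCurve.constantCoeff_eisenstein4] at this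
    simpa using this
  have h5 : Tendsto (ModularForm.discriminant : ℍ → ℂ) atImInfty (𝓝 0) :=
    discriminant_isZeroAtImInfty
  have h6 : Tendsto (fun τ => ModularForm.discriminant τ /
      (E₄ τ ^ 3 - c * ModularForm.discriminant τ)) atImInfty (𝓝 (0 / (1 ^ 3 - c * 0))) :=
    h5.div ((h4.pow 3).sub (h5.const_mul c)) (by simp)
  have h7 : IsBoundedAtImInfty (fun τ => (1 : ℂ) / (J τ - c)) := by
    refine (h6.isBigO_one ℝ).congr_left fun τ => ?_
    have h8 := hne τ
    unfold J at h8 ⊢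
    have h9 := discriminant_ne_zero τ
    have h10 : E₄ τ ^ 3 - c * ModularForm.discriminant τ ≠ 0 := by
      intro h
      apply h8
      rw [sub_eq_zero] at h ⊢
      rw [h]
      field_simp
    rw [div_eq_div_iff h10 h8]
    field_simp
  obtain ⟨a, ha⟩ := eq_const_of_isBounded hmd (fun γ τ => by simp only [J_smul]) h7
  apply not_const_J
  refine ⟨c + 1 / a, fun τ => ?_⟩
  rw [← ha τ]
  have := hne τ
  field_simp
  ring

end Fermat.Agent.ModFun
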