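import Mathlib
import Fermat.Agent.ModFun.JDeriv

/-!
Taylor expansions at a point of the upper half plane in the disk coordinate.
-/

set_option autoImplicit false

noncomputable section

namespace Fermat.Agent.ModFun

open UpperHalfPlane hiding I
open Complex Function Filter Topology ModularForm Derivative
open scoped Manifold MatrixGroups ModularForm Derivative

/-- The disk coordinate at `τ₀`. -/
def sD (τ₀ : ℍ) : ℍ → ℂ := fun τ => ((τ : ℂ) - τ₀) / (τ - (starRingEnd ℂ) (τ₀ : ℂ))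

/-- The inverse of the disk coordinate. -/
def diskMap (τ₀ : ℍ) (w : ℂ) : ℂ := ((τ₀ : ℂ) - (starRingEnd ℂ) (τ₀ : ℂ) * w) / (1 - w)

theorem sub_conj_ne_zero (τ₀ τ : ℍ) : (τ : ℂ) - (starRingEnd ℂ) (τ₀ : ℂ) ≠ 0 := by
  intro h
  have h1 := congrArg Complex.im h
  simp only [Complex.sub_im, Complex.conj_im, Complex.zero_im, sub_neg_eq_add] at h1
  have h2 := τ.im_pos
  have h3 := τ₀.im_pos
  rw [← UpperHalfPlane.coe_im] at h2 h3
  linarith

theorem norm_sD_lt (τ₀ τ : ℍ) : ‖sD τ₀ τ‖ < 1 := by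
  rw [sD, norm_div, div_lt_one (norm_pos_iff.mpr (sub_conj_ne_zero τ₀ τ))]
  have h2 := τ.im_pos
  have h3 := τ₀.im_pos
  rw [← UpperHalfPlane.coe_im] at h2 h3
  rw [← sq_lt_sq₀ (norm_nonneg _) (norm_nonneg _), ← Complex.normSq_eq_norm_sq,
    ← Complex.normSq_eq_norm_sq, Complex.normSq_apply, Complex.normSq_apply]
  simp only [Complex.sub_re, Complex.sub_im, Complex.conj_re, Complex.conj_im]
  nlinarith [mul_pos h2 h3]

theorem diskMap_im (τ₀ : ℍ) {w : ℂ} (hw : 1 - w ≠ 0) :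
    (diskMap τ₀ w).im = τ₀.im * (1 - Complex.normSq w) / Complex.normSq (1 - w) := by
  have h1 : Complex.normSq (1 - w) ≠ 0 := (Complex.normSq_pos.mpr hw).ne'
  rw [diskMap, Complex.div_im]
  field_simp
  simp only [Complex.sub_re, Complex.sub_im, Complex.conj_re, Complex.conj_im, Complex.mul_re,
    Complex.mul_im, Complex.one_re, Complex.one_im, Complex.normSq_apply, UpperHalfPlane.coe_im,
    UpperHalfPlane.coe_re]
  ring

theorem one_sub_ne_zero_of_norm_lt {w : ℂ} (hw : ‖w‖ < 1) : 1 - w ≠ 0 := by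
  intro h
  rw [sub_eq_zero] at h
  rw [← h, norm_one] at hw
  exact lt_irrefl _ hw

theorem diskMap_im_pos (τ₀ : ℍ) {w : ℂ} (hw : ‖w‖ < 1) : 0 < (diskMap τ₀ w).im := by
  have h0 := one_sub_ne_zero_of_norm_lt hw
  rw [diskMap_im τ₀ h0]
  have h1 := Complex.normSq_pos.mpr h0
  have h2 : Complex.normSq w < 1 := by
    rw [Complex.normSq_eq_norm_sq]
    nlinarith [norm_nonneg w]
  have h3 := τ₀.im_pos
  have : 0 < 1 - Complex.normSq w := by linarith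
  positivity

theorem sD_diskMap (τ₀ : ℍ) {w : ℂ} (hw : ‖w‖ < 1) :
    sD τ₀ ⟨diskMap τ₀ w, diskMap_im_pos τ₀ hw⟩ = w := by
  have h0 := one_sub_ne_zero_of_norm_lt hw
  have h1 := sub_conj_ne_zero τ₀ τ₀
  have h2 := sub_conj_ne_zero τ₀ ⟨diskMap τ₀ w, diskMap_im_pos τ₀ hw⟩
  rw [sD, div_eq_iff h2]
  show diskMap τ₀ w - τ₀ = w * (diskMap τ₀ w - (starRingEnd ℂ) (τ₀ : ℂ))
  rw [diskMap]
  field_simp
  ring

theorem diskMap_sD (τ₀ τ : ℍ) : diskMap τ₀ (sD τ₀ τ) = τ := by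
  have h1 := sub_conj_ne_zero τ₀ τ
  have h2 := sub_conj_ne_zero τ₀ τ₀
  have h3 := one_sub_ne_zero_of_norm_lt (norm_sD_lt τ₀ τ)
  rw [diskMap, div_eq_iff h3, sD]
  field_simp
  ring

theorem isParam_sD (τ₀ : ℍ) : IsParam (sD τ₀) where
  norm_lt := norm_sD_lt τ₀
  surj w _ hw := ⟨⟨diskMap τ₀ w, diskMap_im_pos τ₀ hw⟩, sD_diskMap τ₀ hw⟩

theorem sD_self (τ₀ : ℍ) : sD τ₀ τ₀ = 0 := by simp [sD]

theorem sD_eq_zero_iff (τ₀ τ : ℍ) : sD τ₀ τ = 0 ↔ τ = τ₀ := by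
  constructor
  · intro h
    have h1 := diskMap_sD τ₀ τ
    have h2 := diskMap_sD τ₀ τ₀
    rw [sD_self] at h2
    rw [h, h2] at h1
    exact UpperHalfPlane.ext h1.symm
  · rintro rfl
    exact sD_self _

/-- Pulling back to the disk. -/
def toDisk (τ₀ : ℍ) (f : ℍ → ℂ) : ℂ → ℂ := fun w => f (ofComplex (diskMap τ₀ w))

theorem toDisk_sD (τ₀ : ℍ) (f : ℍ → ℂ) (τ : ℍ) : toDisk τ₀ f (sD τ₀ τ) = f τ := by
  rw [toDisk, diskMap_sD, ofComplex_apply]

theorem hasDerivAt_diskMap (τ₀ : ℍ) {w : ℂ} (hw : 1 - w ≠ 0) :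
    HasDerivAt (diskMap τ₀) (((τ₀ : ℂ) - (starRingEnd ℂ) (τ₀ : ℂ)) / (1 - w) ^ 2) w := by
  have h1 : HasDerivAt (fun w : ℂ => (τ₀ : ℂ) - (starRingEnd ℂ) (τ₀ : ℂ) * w)
      (-((starRingEnd ℂ) (τ₀ : ℂ) * 1)) w :=
    ((hasDerivAt_id w).const_mul _).const_sub _
  have h2 : HasDerivAt (fun w : ℂ => 1 - w) (-1) w := (hasDerivAt_id w).const_sub _
  have h3 := h1.div h2 hw
  have h4 : ((τ₀ : ℂ) - (starRingEnd ℂ) (τ₀ : ℂ)) / (1 - w) ^ 2 =
      (-((starRingEnd ℂ) (τ₀ : ℂ) * 1) * (1 - w) - ((τ₀ : ℂ) - (starRingEnd ℂ) (τ₀ : ℂ) * w) * -1) /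
        (1 - w) ^ 2 := by
    congr 1
    ring
  rw [h4]
  exact h3

theorem hasDerivAt_toDisk (τ₀ : ℍ) {f : ℍ → ℂ} (hf : MDiff f) {w : ℂ} (hw : ‖w‖ < 1) :
    HasDerivAt (toDisk τ₀ f) (toDisk τ₀ (D f) w * (2 * Real.pi * Complex.I) *
      (((τ₀ : ℂ) - (starRingEnd ℂ) (τ₀ : ℂ)) / (1 - w) ^ 2)) w := by
  have h0 := one_sub_ne_zero_of_norm_lt hw
  have h1 := hasDerivAt_diskMap τ₀ h0
  have h2 := diskMap_im_pos τ₀ hw
  have h3 : DifferentiableAt ℂ (f ∘ ofComplex) (diskMap τ₀ w) := by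
    have := UpperHalfPlane.mdifferentiableAt_iff.mp (hf ⟨diskMap τ₀ w, h2⟩)
    exact this
  have h4 := h3.hasDerivAt.comp w h1
  have h5 : toDisk τ₀ (D f) w * (2 * Real.pi * Complex.I) = deriv (f ∘ ofComplex) (diskMap τ₀ w) := by
    rw [toDisk, normalizedDerivOfComplex, ofComplex_apply_of_im_pos h2]
    have := Complex.two_pi_I_ne_zero
    field_simp
  rw [h5]
  exact h4

theorem differentiableOn_toDisk (τ₀ : ℍ) {f : ℍ → ℂ} (hf : MDiff f) :
    DifferentiableOn ℂ (toDisk τ₀ f) (Metric.ball 0 1) := by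
  intro w hw
  exact (hasDerivAt_toDisk τ₀ hf (by simpa using hw)).differentiableAt.differentiableWithinAt

/-- The Taylor series at `0`. -/
def taylor (g : ℂ → ℂ) : PowerSeries ℂ :=
  PowerSeries.mk fun n => (n.factorial : ℂ)⁻¹ * iteratedDeriv n g 0

theorem hasSum_taylor {g : ℂ → ℂ} (hg : DifferentiableOn ℂ g (Metric.ball 0 1)) {w : ℂ}
    (hw : ‖w‖ < 1) : HasSum (fun n : ℕ => (taylor g).coeff n * w ^ n) (g w) := by
  have h1 := hasSum_taylorSeries_on_ball hg (z := w) (by simpa using hw)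
  refine hasSum_congr' (fun n => ?_) h1
  simp only [taylor, PowerSeries.coeff_mk, sub_zero, smul_eq_mul]
  ring

theorem taylor_deriv (g : ℂ → ℂ) :
    taylor (deriv g) = (PowerSeries.derivative ℂ) (taylor g) := by
  ext n
  rw [PowerSeries.coeff_derivative]
  simp only [taylor, PowerSeries.coeff_mk]
  rw [iteratedDeriv_succ']
  have h1 : ((n + 1).factorial : ℂ) = (n + 1) * n.factorial := by
    rw [Nat.factorial_succ]; push_cast; ring
  rw [h1]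
  have h2 : (n.factorial : ℂ) ≠ 0 := by exact_mod_cast n.factorial_ne_zero
  have h3 : (n + 1 : ℂ) ≠ 0 := by exact_mod_cast n.succ_ne_zero
  field_simp

theorem constantCoeff_taylor (g : ℂ → ℂ) : PowerSeries.constantCoeff (taylor g) = g 0 := by
  rw [← PowerSeries.coeff_zero_eq_constantCoeff_apply]
  simp [taylor]

theorem hasExp_taylor (τ₀ : ℍ) {g : ℂ → ℂ} (hg : DifferentiableOn ℂ g (Metric.ball 0 1)) :
    HasExp (RingHom.id ℂ) (sD τ₀) (fun τ => g (sD τ₀ τ))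
      (HahnSeries.ofPowerSeries ℤ ℂ (taylor g)) :=
  hasExp_ofPowerSeries fun τ _ => hasSum_taylor hg (norm_sD_lt τ₀ τ)

/-- the Taylor expansion of a function on `ℍ` in the disk coordinate -/
def dExp (τ₀ : ℍ) (f : ℍ → ℂ) : PowerSeries ℂ := taylor (toDisk τ₀ f)

theorem hasExp_dExp (τ₀ : ℍ) {f : ℍ → ℂ} (hf : MDiff f) :
    HasExp (RingHom.id ℂ) (sD τ₀) f (HahnSeries.ofPowerSeries ℤ ℂ (dExp τ₀ f)) :=
  (hasExp_taylor τ₀ (differentiableOn_toDisk τ₀ hf)).congr fun τ => toDisk_sD τ₀ f τ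

theorem constantCoeff_dExp (τ₀ : ℍ) (f : ℍ → ℂ) :
    PowerSeries.constantCoeff (dExp τ₀ f) = f τ₀ := by
  rw [dExp, constantCoeff_taylor]
  have := toDisk_sD τ₀ f τ₀
  rwa [sD_self] at this

/-- The expansion of the derivative. -/
theorem derivative_dExp (τ₀ : ℍ) {f : ℍ → ℂ} (hf : MDiff f) :
    (PowerSeries.derivative ℂ) (dExp τ₀ f) * (1 - PowerSeries.X) ^ 2 =
      PowerSeries.C (((τ₀ : ℂ) - (starRingEnd ℂ) (τ₀ : ℂ)) * (2 * Real.pi * Complex.I)) *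
        dExp τ₀ (D f) := by
  have hdD := normalizedDerivOfComplex_mdifferentiable hf
  have h1 : HasExp (RingHom.id ℂ) (sD τ₀) (fun τ => deriv (toDisk τ₀ f) (sD τ₀ τ))
      (HahnSeries.ofPowerSeries ℤ ℂ ((PowerSeries.derivative ℂ) (dExp τ₀ f))) := by
    rw [dExp, ← taylor_deriv]
    exact hasExp_taylor τ₀ ((differentiableOn_toDisk τ₀ hf).deriv Metric.isOpen_ball)
  have h2 : HasExp (RingHom.id ℂ) (sD τ₀) (fun τ => sD τ₀ τ)
      (HahnSeries.ofPowerSeries ℤ ℂ PowerSeries.X) := by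
    have := hasExp_single (φ := RingHom.id ℂ) (s := sD τ₀) 1 1
    rw [HahnSeries.ofPowerSeries_X]
    refine this.congr fun τ => ?_
    simp
  have h3 := h1.mul ((hasExp_one.sub h2).pow 2)
  have h4 := (hasExp_dExp τ₀ hdD).smul
    (((τ₀ : ℂ) - (starRingEnd ℂ) (τ₀ : ℂ)) * (2 * Real.pi * Complex.I))
  have h5 : (fun τ => deriv (toDisk τ₀ f) (sD τ₀ τ)) * ((1 : ℍ → ℂ) - fun τ => sD τ₀ τ) ^ 2 =
      fun τ => (RingHom.id ℂ) (((τ₀ : ℂ) - (starRingEnd ℂ) (τ₀ : ℂ)) * (2 * Real.pi * Complex.I)) *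
        D f τ := by
    funext τ
    simp only [Pi.mul_apply, Pi.pow_apply, Pi.sub_apply, Pi.one_apply, RingHom.id_apply]
    rw [(hasDerivAt_toDisk τ₀ hf (norm_sD_lt τ₀ τ)).deriv, toDisk_sD]
    have := one_sub_ne_zero_of_norm_lt (norm_sD_lt τ₀ τ)
    field_simp
  rw [h5] at h3
  have h6 := h3.unique Function.injective_id (isParam_sD τ₀) h4
  rw [← HahnSeries.ofPowerSeries_C, ← map_one (HahnSeries.ofPowerSeries ℤ ℂ), ← map_sub, ← map_pow,
    ← map_mul, ← map_mul] at h6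
  exact HahnSeries.ofPowerSeries_injective h6

theorem dExp_mul (τ₀ : ℍ) {f g : ℍ → ℂ} (hf : MDiff f) (hg : MDiff g) :
    dExp τ₀ (f * g) = dExp τ₀ f * dExp τ₀ g := by
  have h1 := (hasExp_dExp τ₀ hf).mul (hasExp_dExp τ₀ hg)
  have h2 := h1.unique Function.injective_id (isParam_sD τ₀) (hasExp_dExp τ₀ (hf.mul hg))
  rw [← map_mul] at h2
  exact (HahnSeries.ofPowerSeries_injective h2).symm

theorem dExp_pow (τ₀ : ℍ) {f : ℍ → ℂ} (hf : MDiff f) (n : ℕ) :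
    dExp τ₀ (f ^ n) = dExp τ₀ f ^ n := by
  have h1 := (hasExp_dExp τ₀ hf).pow n
  have h2 := h1.unique Function.injective_id (isParam_sD τ₀) (hasExp_dExp τ₀ (hf.pow n))
  rw [← map_pow] at h2
  exact (HahnSeries.ofPowerSeries_injective h2).symm

theorem dExp_sub_const (τ₀ : ℍ) {f : ℍ → ℂ} (hf : MDiff f) (c : ℂ) :
    dExp τ₀ (f - fun _ => c) = dExp τ₀ f - PowerSeries.C c := by
  have h1 := (hasExp_dExp τ₀ hf).sub (HasExp.const (φ := RingHom.id ℂ) c)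
  have h2 := h1.unique Function.injective_id (isParam_sD τ₀)
    (hasExp_dExp τ₀ (hf.sub (mdiff_const c)))
  rw [← HahnSeries.ofPowerSeries_C, ← map_sub] at h2
  exact (HahnSeries.ofPowerSeries_injective h2).symm

theorem dExp_const_mul (τ₀ : ℍ) {f : ℍ → ℂ} (hf : MDiff f) (c : ℂ) :
    dExp τ₀ ((fun _ => c) * f) = PowerSeries.C c * dExp τ₀ f := by
  have h1 := (hasExp_dExp τ₀ hf).smul c
  have h2 := h1.unique Function.injective_id (isParam_sD τ₀)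
    (hasExp_dExp τ₀ ((mdiff_const c).mul hf))
  rw [← HahnSeries.ofPowerSeries_C, ← map_mul] at h2
  exact (HahnSeries.ofPowerSeries_injective h2).symm

theorem eq_zero_of_dExp_eq_zero (τ₀ : ℍ) {f : ℍ → ℂ} (hf : MDiff f) (h : dExp τ₀ f = 0) :
    f = 0 := by
  funext τ
  have h1 := hasSum_taylor (differentiableOn_toDisk τ₀ hf) (norm_sD_lt τ₀ τ)
  rw [toDisk_sD] at h1
  have h2 : taylor (toDisk τ₀ f) = 0 := h
  rw [h2] at h1
  simp only [map_zero, zero_mul] at h1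
  exact h1.unique hasSum_zero

end Fermat.Agent.ModFun
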