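import Mathlib
import Fermat.Agent.ModFun.Disk

/-!
The order of vanishing of `J - J(τ₀)` at `τ₀`.
-/

set_option autoImplicit false

noncomputable section

namespace Fermat.Agent.ModFun

open UpperHalfPlane hiding I
open Complex Function Filter Topology ModularForm Derivative
open scoped Manifold MatrixGroups ModularForm Derivative

theorem order_derivative {Q : PowerSeries ℂ} {m : ℕ} (h : Q.order = (m + 1 : ℕ)) :
    ((PowerSeries.derivative ℂ) Q).order = m := by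
  rw [PowerSeries.order_eq_nat] at h ⊢
  obtain ⟨h1, h2⟩ := h
  refine ⟨?_, fun i hi => ?_⟩
  · rw [PowerSeries.coeff_derivative]
    exact mul_ne_zero h1 (by exact_mod_cast m.succ_ne_zero)
  · rw [PowerSeries.coeff_derivative, h2 (i + 1) (by omega), zero_mul]

theorem order_eq_zero_of_constantCoeff_ne {Q : PowerSeries ℂ}
    (h : PowerSeries.constantCoeff Q ≠ 0) : Q.order = 0 := by
  have h1 : Q.order = ((0 : ℕ) : ℕ∞) := by
    rw [PowerSeries.order_eq_nat]
    refine ⟨?_, fun i hi => absurd hi (Nat.not_lt_zero _)⟩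
    rwa [PowerSeries.coeff_zero_eq_constantCoeff_apply]
  simpa using h1

theorem order_dExp_ne_top (τ₀ : ℍ) {f : ℍ → ℂ} (hf : MDiff f) (h : f ≠ 0) :
    ∃ n : ℕ, (dExp τ₀ f).order = n := by
  have h1 : dExp τ₀ f ≠ 0 := fun h0 => h (eq_zero_of_dExp_eq_zero τ₀ hf h0)
  rw [← PowerSeries.order_finite_iff_ne_zero] at h1
  obtain ⟨n, hn⟩ := ENat.ne_top_iff_exists.mp h1.ne
  exact ⟨n, hn.symm⟩

theorem order_dExp_eq_zero (τ₀ : ℍ) {f : ℍ → ℂ} (h : f τ₀ ≠ 0) : (dExp τ₀ f).order = 0 := by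
  apply order_eq_zero_of_constantCoeff_ne
  rwa [constantCoeff_dExp]

theorem E₄_ne : (E₄ : ℍ → ℂ) ≠ 0 := by
  intro h
  exact EisensteinSeries.E_ne_zero (by norm_num) (by decide) (DFunLike.ext' h)

theorem E₆_ne : (E₆ : ℍ → ℂ) ≠ 0 := by
  intro h
  exact EisensteinSeries.E_ne_zero (by norm_num) (by decide) (DFunLike.ext' h)

/-- The key identity in the ring of power series. -/
theorem derivative_dExp_J (τ₀ : ℍ) : ∃ a : ℂ, a ≠ 0 ∧
    (PowerSeries.derivative ℂ) (dExp τ₀ J) * (1 - PowerSeries.X) ^ 2 *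
      dExp τ₀ ModularForm.discriminant =
      PowerSeries.C a * (dExp τ₀ E₄ ^ 2 * dExp τ₀ E₆) := by
  obtain ⟨c, hc, h⟩ := exists_DJ_eq
  have h1 := derivative_dExp τ₀ mdiff_J
  have h2 : dExp τ₀ (D J) * dExp τ₀ ModularForm.discriminant =
      PowerSeries.C c * (dExp τ₀ E₄ ^ 2 * dExp τ₀ E₆) := by
    rw [← dExp_mul τ₀ mdiff_DJ mdiff_discriminant, ← dExp_pow τ₀ mdiff_E₄,
      ← dExp_mul τ₀ (mdiff_E₄.pow 2) mdiff_E₆,
      ← dExp_const_mul τ₀ ((mdiff_E₄.pow 2).mul mdiff_E₆)]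
    congr 1
    funext τ
    exact h τ
  refine ⟨((τ₀ : ℂ) - (starRingEnd ℂ) (τ₀ : ℂ)) * (2 * Real.pi * Complex.I) * c, ?_, ?_⟩
  · exact mul_ne_zero (mul_ne_zero (sub_conj_ne_zero τ₀ τ₀) Complex.two_pi_I_ne_zero) hc
  · rw [h1, mul_assoc, h2, map_mul (PowerSeries.C (R := ℂ)) _ c]
    ring

theorem order_derivative_dExp_J (τ₀ : ℍ) :
    ((PowerSeries.derivative ℂ) (dExp τ₀ J)).order =
      2 • (dExp τ₀ E₄).order + (dExp τ₀ E₆).order := by
  obtain ⟨a, ha, h⟩ := derivative_dExp_J τ₀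
  have h1 := congrArg PowerSeries.order h
  rw [PowerSeries.order_mul, PowerSeries.order_mul, PowerSeries.order_mul, PowerSeries.order_mul,
    PowerSeries.order_pow, PowerSeries.order_pow] at h1
  have h2 : (1 - PowerSeries.X : PowerSeries ℂ).order = 0 :=
    order_eq_zero_of_constantCoeff_ne (by simp)
  have h3 : (PowerSeries.C a : PowerSeries ℂ).order = 0 :=
    order_eq_zero_of_constantCoeff_ne (by simpa using ha)
  rw [h2, h3, order_dExp_eq_zero τ₀ (discriminant_ne_zero τ₀)] at h1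
  simpa using h1

theorem order_dExp_J_one (τ₀ : ℍ) (h4 : E₄ τ₀ ≠ 0) (h6 : E₆ τ₀ ≠ 0) :
    (dExp τ₀ (J - fun _ => J τ₀)).order = 1 := by
  have h1 := order_derivative_dExp_J τ₀
  rw [order_dExp_eq_zero τ₀ h4, order_dExp_eq_zero τ₀ h6] at h1
  have h2 : ((PowerSeries.derivative ℂ) (dExp τ₀ J)).order = ((0 : ℕ) : ℕ∞) := by simpa using h1
  rw [PowerSeries.order_eq_nat] at h2
  have h3 := h2.1
  rw [PowerSeries.coeff_derivative] at h3
  have h5 : (dExp τ₀ (J - fun _ => J τ₀)).order = ((1 : ℕ) : ℕ∞) := by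
    rw [PowerSeries.order_eq_nat, dExp_sub_const τ₀ mdiff_J]
    refine ⟨?_, fun i hi => ?_⟩
    · rw [map_sub, PowerSeries.coeff_C, if_neg one_ne_zero, sub_zero]
      intro h
      apply h3
      rw [h, zero_mul]
    · have hi0 : i = 0 := by omega
      subst hi0
      rw [map_sub, PowerSeries.coeff_zero_eq_constantCoeff_apply,
        PowerSeries.coeff_zero_eq_constantCoeff_apply, constantCoeff_dExp,
        PowerSeries.constantCoeff_C, sub_self]
  simpa using h5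

theorem E₆_ne_zero_of_E₄ {τ₀ : ℍ} (h4 : E₄ τ₀ = 0) : E₆ τ₀ ≠ 0 := by
  intro h6
  have h := discriminant_eq_E₄_cube_sub_E₆_sq τ₀
  rw [h4, h6] at h
  apply discriminant_ne_zero τ₀
  rw [h]
  norm_num

theorem order_dExp_J_three (τ₀ : ℍ) (h4 : E₄ τ₀ = 0) : (dExp τ₀ J).order = 3 := by
  have h6 := E₆_ne_zero_of_E₄ h4
  obtain ⟨e, he⟩ := order_dExp_ne_top τ₀ mdiff_E₄ E₄_ne
  have he1 : 1 ≤ e := by
    have := PowerSeries.one_le_order_iff_constCoeff_eq_zero (φ := dExp τ₀ E₄)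
    rw [constantCoeff_dExp, he] at this
    exact_mod_cast this.mpr h4
  have h1 : (dExp τ₀ J).order = (3 * e : ℕ) := by
    have h2 : dExp τ₀ J * dExp τ₀ ModularForm.discriminant = dExp τ₀ E₄ ^ 3 := by
      rw [← dExp_mul τ₀ mdiff_J mdiff_discriminant, ← dExp_pow τ₀ mdiff_E₄]
      congr 1
      funext τ
      simp only [Pi.mul_apply, Pi.pow_apply, J]
      exact div_mul_cancel₀ _ (discriminant_ne_zero τ)
    have h3 := congrArg PowerSeries.order h2
    rw [PowerSeries.order_mul, order_dExp_eq_zero τ₀ (discriminant_ne_zero τ₀), add_zero,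
      PowerSeries.order_pow, he] at h3
    rw [h3]
    simp
  have h5 := order_derivative_dExp_J τ₀
  rw [he, order_dExp_eq_zero τ₀ h6, add_zero,
    order_derivative (m := 3 * e - 1) (by rw [h1]; congr 1; omega)] at h5
  have h7 : 3 * e - 1 = 2 * e := by
    have : ((3 * e - 1 : ℕ) : ℕ∞) = ((2 * e : ℕ) : ℕ∞) := by rw [h5]; simp
    exact_mod_cast this
  have h8 : e = 1 := by omega
  rw [h1, h8]
  rfl

theorem order_dExp_J_two (τ₀ : ℍ) (h6 : E₆ τ₀ = 0) :
    (dExp τ₀ (J - fun _ => 1728)).order = 2 := by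
  have h4 : E₄ τ₀ ≠ 0 := fun h => E₆_ne_zero_of_E₄ h h6
  obtain ⟨e, he⟩ := order_dExp_ne_top τ₀ mdiff_E₆ E₆_ne
  have he1 : 1 ≤ e := by
    have := PowerSeries.one_le_order_iff_constCoeff_eq_zero (φ := dExp τ₀ E₆)
    rw [constantCoeff_dExp, he] at this
    exact_mod_cast this.mpr h6
  have h1 : (dExp τ₀ (J - fun _ => 1728)).order = (2 * e : ℕ) := by
    have h2 : dExp τ₀ (J - fun _ => 1728) * dExp τ₀ ModularForm.discriminant = dExp τ₀ E₆ ^ 2 := by
      rw [← dExp_mul τ₀ (mdiff_J.sub (mdiff_const _)) mdiff_discriminant,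
        ← dExp_pow τ₀ mdiff_E₆]
      congr 1
      funext τ
      simp only [Pi.mul_apply, Pi.pow_apply, Pi.sub_apply]
      rw [J_sub_1728]
      exact div_mul_cancel₀ _ (discriminant_ne_zero τ)
    have h3 := congrArg PowerSeries.order h2
    rw [PowerSeries.order_mul, order_dExp_eq_zero τ₀ (discriminant_ne_zero τ₀), add_zero,
      PowerSeries.order_pow, he] at h3
    rw [h3]
    simp
  have h5 := order_derivative_dExp_J τ₀
  have h9 : (PowerSeries.derivative ℂ) (dExp τ₀ (J - fun _ => 1728)) =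
      (PowerSeries.derivative ℂ) (dExp τ₀ J) := by
    rw [dExp_sub_const τ₀ mdiff_J, map_sub, PowerSeries.derivative_C, sub_zero]
  rw [he, order_dExp_eq_zero τ₀ h4, smul_zero, zero_add, ← h9,
    order_derivative (m := 2 * e - 1) (by rw [h1]; congr 1; omega)] at h5
  have h7 : 2 * e - 1 = e := by exact_mod_cast h5
  have h8 : e = 1 := by omega
  rw [h1, h8]
  rfl

theorem J_eq_zero_iff (τ₀ : ℍ) : J τ₀ = 0 ↔ E₄ τ₀ = 0 := by
  rw [J, div_eq_zero_iff, or_iff_left (discriminant_ne_zero τ₀)]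
  simp

theorem J_eq_1728_iff (τ₀ : ℍ) : J τ₀ = 1728 ↔ E₆ τ₀ = 0 := by
  rw [← sub_eq_zero, J_sub_1728, div_eq_zero_iff, or_iff_left (discriminant_ne_zero τ₀)]
  simp

end Fermat.Agent.ModFun
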