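import Mathlib
import Fermat.Agent.ModFun.CharPoly
import Fermat.Agent.ModFun.JOrder

/-!
The function field of `X₀(N)` generated by the expansions of `J(dτ)`, `d ∣ N`.
-/

set_option autoImplicit false

noncomputable section

namespace Fermat.Agent.ModFun

open UpperHalfPlane hiding I
open Complex Function Filter Topology ModularForm IntermediateField
open scoped Manifold MatrixGroups ModularForm

section General

variable {R : Type*} [CommRing R] (φ : R →+* ℂ) (s : ℍ → ℂ)

/-- the homomorphism sending a function to its expansion -/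
def expHom (hφ : Injective φ) {s : ℍ → ℂ} (hs : IsParam s) (M : Subring (ℍ → ℂ))
    (hM : ∀ f ∈ M, ∃ F : LaurentSeries R, HasExp φ s f F) : M →+* LaurentSeries R where
  toFun f := (hM f.1 f.2).choose
  map_one' := (hM _ (1 : M).2).choose_spec.unique hφ hs hasExp_one
  map_zero' := (hM _ (0 : M).2).choose_spec.unique hφ hs hasExp_zero
  map_add' f g := (hM _ (f + g).2).choose_spec.unique hφ hs
    ((hM _ f.2).choose_spec.add (hM _ g.2).choose_spec)
  map_mul' f g := (hM _ (f * g).2).choose_spec.unique hφ hs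
    ((hM _ f.2).choose_spec.mul (hM _ g.2).choose_spec)

theorem expHom_spec (hφ : Injective φ) {s : ℍ → ℂ} (hs : IsParam s) (M : Subring (ℍ → ℂ))
    (hM : ∀ f ∈ M, ∃ F : LaurentSeries R, HasExp φ s f F) (f : M) :
    HasExp φ s f (expHom φ hφ hs M hM f) := (hM f.1 f.2).choose_spec

end General

variable {K : Type*} [Field K] (ι : K →+* ℂ) (N : ℕ) [NeZero N]

/-- The algebra of expansions of holomorphic modular functions for `Γ₀(N)`. -/
def holAlg : Subalgebra K (LaurentSeries K) where
  carrier := {F | ∃ f : ℍ → ℂ, f ∈ modFun ι N ∧ IsInv N f ∧ HasExp ι (qN 1) f F}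
  mul_mem' := by
    rintro F G ⟨f, hf, hf', hF⟩ ⟨g, hg, hg', hG⟩
    refine ⟨f * g, mul_mem hf hg, fun γ hγ τ => ?_, hF.mul hG⟩
    simp only [Pi.mul_apply, hf' γ hγ, hg' γ hγ]
  add_mem' := by
    rintro F G ⟨f, hf, hf', hF⟩ ⟨g, hg, hg', hG⟩
    refine ⟨f + g, add_mem hf hg, fun γ hγ τ => ?_, hF.add hG⟩
    simp only [Pi.add_apply, hf' γ hγ, hg' γ hγ]
  algebraMap_mem' a := by
    refine ⟨fun _ => ι a, const_mem_modFun a, fun γ hγ τ => rfl, ?_⟩
    rw [ModularCurve.algebraMap_laurentSeries_eq_single]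
    exact HasExp.const a

theorem mem_holAlg {F : LaurentSeries K} : F ∈ holAlg ι N ↔
    ∃ f : ℍ → ℂ, f ∈ modFun ι N ∧ IsInv N f ∧ HasExp ι (qN 1) f F := Iff.rfl

/-- The function with a given expansion. -/
def ev : holAlg ι N →+* (ℍ → ℂ) where
  toFun F := F.2.choose
  map_one' := (1 : holAlg ι N).2.choose_spec.2.2.fun_unique (qN_ne_zero 1) hasExp_one
  map_zero' := (0 : holAlg ι N).2.choose_spec.2.2.fun_unique (qN_ne_zero 1) hasExp_zero
  map_add' F G := (F + G).2.choose_spec.2.2.fun_unique (qN_ne_zero 1)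
    (F.2.choose_spec.2.2.add G.2.choose_spec.2.2)
  map_mul' F G := (F * G).2.choose_spec.2.2.fun_unique (qN_ne_zero 1)
    (F.2.choose_spec.2.2.mul G.2.choose_spec.2.2)

theorem ev_mem (F : holAlg ι N) : ev ι N F ∈ modFun ι N := F.2.choose_spec.1

theorem ev_inv (F : holAlg ι N) : IsInv N (ev ι N F) := F.2.choose_spec.2.1

theorem ev_hasExp (F : holAlg ι N) : HasExp ι (qN 1) (ev ι N F) F := F.2.choose_spec.2.2

variable {ι N}

theorem ev_eq {F : holAlg ι N} {f : ℍ → ℂ} (h : HasExp ι (qN 1) f F) : ev ι N F = f :=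
  (ev_hasExp ι N F).fun_unique (qN_ne_zero 1) h

theorem ev_injective : Function.Injective (ev ι N) := by
  rw [injective_iff_map_eq_zero]
  intro F hF
  have h := ev_hasExp ι N F
  rw [hF] at h
  exact Subtype.ext (h.eq_zero ι.injective (isParam_qN 1))

theorem ev_algebraMap (a : K) : ev ι N (algebraMap K (holAlg ι N) a) = fun _ => ι a := by
  refine ev_eq ?_
  show HasExp ι (qN 1) (fun _ => ι a) (algebraMap K (LaurentSeries K) a)
  rw [ModularCurve.algebraMap_laurentSeries_eq_single]
  exact HasExp.const a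

variable (K N) in
/-- The generators of the function field. -/
def gens : Set (LaurentSeries K) :=
  {x | ∃ (d : ℕ) (_ : NeZero d), d ∣ N ∧ x = ModularCurve.qExpand K d (ModularCurve.jqModC K)}

theorem gens_subset_holAlg {ζ : Kˣ} (hζ : ι ζ = Complex.exp (2 * Real.pi * Complex.I / N)) :
    gens K N ⊆ holAlg ι N := by
  rintro x ⟨d, hd0, hd, rfl⟩
  exact ⟨Jd d, Jd_mem_modFun hd hζ, fun γ hγ τ => Jd_invariant hd hγ τ, hasExp_Jd ι⟩

theorem jqModC_mem_gens : ModularCurve.jqModC K ∈ gens K N :=
  ⟨1, inferInstance, one_dvd N, (ModularCurve.qExpand_one_apply _).symm⟩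

theorem finite_gens : (gens K N).Finite := by
  have h : gens K N ⊆ (fun d : ℕ => if h : d = 0 then 0 else
      haveI : NeZero d := ⟨h⟩
      ModularCurve.qExpand K d (ModularCurve.jqModC K)) '' (N.divisors : Set ℕ) := by
    rintro x ⟨d, hd0, hd, rfl⟩
    refine ⟨d, by simpa using ⟨hd, NeZero.ne N⟩, ?_⟩
    simp only [hd0.ne, dif_neg, not_false_eq_true]
  exact (N.divisors.finite_toSet.image _).subset h

/-- `A₀` is contained in the holomorphic functions -/
theorem adjoin_le_holAlg {ζ : Kˣ} (hζ : ι ζ = Complex.exp (2 * Real.pi * Complex.I / N)) :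
    Algebra.adjoin K (gens K N) ≤ holAlg ι N :=
  Algebra.adjoin_le (gens_subset_holAlg hζ)

/-- Every element of `holAlg` satisfies a monic polynomial of degree `[SL₂(ℤ) : Γ₀(N)]`. -/
theorem exists_aeval_eq_zero {ζ : Kˣ} (hζ : ι ζ = Complex.exp (2 * Real.pi * Complex.I / N))
    {F : LaurentSeries K} (hF : F ∈ holAlg ι N) :
    ∃ Q : Polynomial (Polynomial K), Q.Monic ∧ Q.natDegree = Fintype.card (XN N) ∧
      Q.eval₂ (Polynomial.aeval (R := K) (ModularCurve.jqModC K)).toRingHom F = 0 := by
  obtain ⟨f, hf, hinv, hexp⟩ := hF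
  obtain ⟨Q, hm, hn, hQ⟩ := exists_charpoly ι.injective hζ hf hinv
  refine ⟨Q, hm, hn, ?_⟩
  -- the expansion of `Q(J, f)`
  have h1 : HasExp ι (qN 1) (fun τ => (Q.map (Polynomial.eval₂RingHom ι (J τ))).eval (f τ))
      (Q.eval₂ (Polynomial.aeval (R := K) (ModularCurve.jqModC K)).toRingHom F) := by
    clear hQ hn hm
    induction Q using Polynomial.induction_on' with
    | add p q hp hq =>
      rw [Polynomial.eval₂_add]
      refine (hp.add hq).congr fun τ => ?_
      simp
    | monomial n a =>
      rw [Polynomial.eval₂_monomial]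
      have h2 : HasExp ι (qN 1) (fun τ => a.eval₂ ι (J τ))
          ((Polynomial.aeval (R := K) (ModularCurve.jqModC K)).toRingHom a) := by
        induction a using Polynomial.induction_on' with
        | add p q hp hq =>
          rw [map_add]
          refine (hp.add hq).congr fun τ => ?_
          simp
        | monomial m c =>
          have h3 := ((hasExp_J' ι).pow m).smul c
          have h4 : (Polynomial.aeval (R := K) (ModularCurve.jqModC K)).toRingHom
              (Polynomial.monomial m c) = HahnSeries.C c * ModularCurve.jqModC K ^ m := by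
            show Polynomial.aeval (ModularCurve.jqModC K) (Polynomial.monomial m c) = _
            rw [Polynomial.aeval_monomial, ModularCurve.algebraMap_laurentSeries_eq_single]
            rfl
          rw [h4]
          refine h3.congr fun τ => ?_
          simp
      refine (h2.mul (hexp.pow n)).congr fun τ => ?_
      simp
  refine HasExp.eq_zero ι.injective (isParam_qN 1) (h1.congr fun τ => ?_)
  rw [hQ τ, Polynomial.eval_prod]
  refine Finset.prod_eq_zero (Finset.mem_univ ((1 : SL(2, ℤ)) : XN N)) ?_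
  rw [conjHom_one hinv]
  simp

end Fermat.Agent.ModFun
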