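import Mathlib
import Fermat.Agent.ModFun.FnField
import Fermat.Agent.FunField.RiemannHurwitz

/-!
The embeddings of the function field of `X₀(N)` into Laurent series fields.
-/

set_option autoImplicit false

noncomputable section

namespace Fermat.Agent.ModFun

open UpperHalfPlane hiding I
open Complex Function Filter Topology ModularForm IntermediateField
open scoped Manifold MatrixGroups ModularForm IntermediateField.algebraAdjoinAdjoin

variable (K : Type*) [Field K] (N : ℕ) [NeZero N]

/-- The algebra generated by the expansions. -/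
abbrev A0 : Subalgebra K (LaurentSeries K) := Algebra.adjoin K (gens K N)

/-- The function field. -/
abbrev F0 : IntermediateField K (LaurentSeries K) := IntermediateField.adjoin K (gens K N)

/-- `j` as an element of `A₀` -/
def jA : A0 K N := ⟨ModularCurve.jqModC K, Algebra.subset_adjoin jqModC_mem_gens⟩

/-- `j` as an element of `F₀` -/
def jF : F0 K N := ⟨ModularCurve.jqModC K, subset_adjoin K _ jqModC_mem_gens⟩

theorem algebraMap_jA : algebraMap (A0 K N) (F0 K N) (jA K N) = jF K N := rfl

variable {K N} {ι : K →+* ℂ} {ζ : Kˣ}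

/-- The data of expansions in a parameter `s`. -/
structure ExpData (ι : K →+* ℂ) (N : ℕ) [NeZero N] (s : ℍ → ℂ) : Prop where
  isParam : IsParam s
  exists_exp : ∀ f ∈ modFun ι N, ∃ F : LaurentSeries ℂ, HasExp (RingHom.id ℂ) s f F
  eq_zero : ∀ f : ℍ → ℂ, MDiff f → HasExp (RingHom.id ℂ) s f 0 → f = 0

theorem expData_qN : ExpData ι N (qN N) where
  isParam := isParam_qN N
  exists_exp f hf := by
    obtain ⟨F, hF⟩ := hf.2 1
    refine ⟨ModularCurve.coeffMap ι F, ?_⟩
    refine (hF.congr fun τ => ?_).coeffMap ι (RingHom.id_comp ι)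
    rw [one_smul]
  eq_zero f _ h := h.fun_unique (qN_ne_zero N) hasExp_zero

theorem expData_sD (τ₀ : ℍ) : ExpData ι N (sD τ₀) where
  isParam := isParam_sD τ₀
  exists_exp f hf := ⟨_, hasExp_dExp τ₀ hf.1⟩
  eq_zero f hf h := by
    apply eq_zero_of_dExp_eq_zero τ₀ hf
    have h1 := h.unique Function.injective_id (isParam_sD τ₀) (hasExp_dExp τ₀ hf)
    rw [← map_zero (HahnSeries.ofPowerSeries ℤ ℂ)] at h1
    exact (HahnSeries.ofPowerSeries_injective h1).symm

section Data

variable {s : ℍ → ℂ} (D : ExpData ι N s)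
  (hζ : ι ζ = Complex.exp (2 * Real.pi * Complex.I / N))

/-- evaluation and conjugation by a coset -/
def conjEv (hζ : ι ζ = Complex.exp (2 * Real.pi * Complex.I / N)) (x : XN N) :
    A0 K N →+* modFun ι N :=
  ((conjHom x).comp ((ev ι N).comp (Subalgebra.inclusion (adjoin_le_holAlg hζ)).toRingHom)).codRestrict
    (modFun ι N) fun F => conjHom_mem_modFun (ev_mem ι N _) x

theorem conjEv_coe (x : XN N) (F : A0 K N) :
    (conjEv hζ x F : ℍ → ℂ) =
      conjHom x (ev ι N (Subalgebra.inclusion (adjoin_le_holAlg hζ) F)) := rfl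

/-- the embedding of `A₀` attached to a coset -/
def embA (D : ExpData ι N s) (hζ : ι ζ = Complex.exp (2 * Real.pi * Complex.I / N)) (x : XN N) :
    A0 K N →+* LaurentSeries ℂ :=
  (expHom (RingHom.id ℂ) Function.injective_id D.isParam (modFun ι N) D.exists_exp).comp
    (conjEv hζ x)

theorem embA_spec (x : XN N) (F : A0 K N) :
    HasExp (RingHom.id ℂ) s (conjHom x (ev ι N (Subalgebra.inclusion (adjoin_le_holAlg hζ) F)))
      (embA D hζ x F) :=
  expHom_spec (RingHom.id ℂ) Function.injective_id D.isParam (modFun ι N) D.exists_exp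
    (conjEv hζ x F)

theorem embA_eq {x : XN N} {F : A0 K N} {f : ℍ → ℂ} {G : LaurentSeries ℂ}
    (hf : HasExp ι (qN 1) f (F : LaurentSeries K))
    (hG : HasExp (RingHom.id ℂ) s (conjHom x f) G) : embA D hζ x F = G := by
  have h1 := embA_spec D hζ x F
  have h2 : ev ι N (Subalgebra.inclusion (adjoin_le_holAlg hζ) F) = f := ev_eq hf
  rw [h2] at h1
  exact h1.unique Function.injective_id D.isParam hG

theorem embA_injective (x : XN N) : Injective (embA D hζ x) := by
  rw [injective_iff_map_eq_zero]
  intro F hF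
  have h1 := embA_spec D hζ x F
  rw [hF] at h1
  have h2 := D.eq_zero _ (conjHom_mem_modFun (ev_mem ι N _) x).1 h1
  have h3 : ev ι N (Subalgebra.inclusion (adjoin_le_holAlg hζ) F) = 0 := by
    funext τ
    have := congrFun h2 ((Quotient.out x) • τ)
    rw [conjHom_apply, inv_smul_smul] at this
    exact this
  have h4 := ev_injective (h3.trans (map_zero (ev ι N)).symm)
  apply Subtype.ext
  exact congrArg (fun z : holAlg ι N => (z : LaurentSeries K)) h4

/-- the embedding of `F₀` attached to a coset -/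
def embF (D : ExpData ι N s) (hζ : ι ζ = Complex.exp (2 * Real.pi * Complex.I / N)) (x : XN N) :
    F0 K N →+* LaurentSeries ℂ :=
  IsFractionRing.lift (embA_injective D hζ x)

theorem embF_algebraMap (x : XN N) (F : A0 K N) :
    embF D hζ x (algebraMap (A0 K N) (F0 K N) F) = embA D hζ x F :=
  IsFractionRing.lift_algebraMap _ _

theorem embF_injective : Injective (embF D hζ) := by
  intro x y hxy
  have h1 : ∀ F : A0 K N, embA D hζ x F = embA D hζ y F := by
    intro F
    rw [← embF_algebraMap, hxy, embF_algebraMap]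
  -- apply to `J(Nτ)`
  let F : A0 K N := ⟨ModularCurve.qExpand K N (ModularCurve.jqModC K),
    Algebra.subset_adjoin ⟨N, inferInstance, dvd_rfl, rfl⟩⟩
  have h2 := embA_spec D hζ x F
  have h3 := embA_spec D hζ y F
  have h4 : ev ι N (Subalgebra.inclusion (adjoin_le_holAlg hζ) F) = Jd N := ev_eq (hasExp_Jd ι)
  rw [h4] at h2 h3
  rw [h1] at h2
  have h5 := h2.sub h3
  rw [sub_self] at h5
  have h6 := D.eq_zero _ ((conjHom_mem_modFun (Jd_mem_modFun dvd_rfl hζ) x).1.sub
    (conjHom_mem_modFun (Jd_mem_modFun dvd_rfl hζ) y).1) h5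
  have h7 := mul_inv_mem_of_Jd_eq (N := N) (g := (Quotient.out x)⁻¹) (h := (Quotient.out y)⁻¹)
    (fun τ => by
      have := congrFun h6 τ
      simp only [Pi.sub_apply, Pi.zero_apply, conjHom_apply] at this
      exact sub_eq_zero.mp this)
  rw [inv_inv] at h7
  have h8 := QuotientGroup.eq.mpr h7
  rw [QuotientGroup.out_eq', QuotientGroup.out_eq'] at h8
  exact h8

theorem embF_algebraMap_base (x : XN N) (a : K) :
    embF D hζ x (algebraMap K (F0 K N) a) = HahnSeries.C (ι a) := by
  have h1 : algebraMap K (F0 K N) a = algebraMap (A0 K N) (F0 K N) (algebraMap K (A0 K N) a) := rfl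
  rw [h1, embF_algebraMap]
  refine embA_eq D hζ (f := fun _ => ι a) ?_ ?_
  · show HasExp ι (qN 1) (fun _ => ι a) (algebraMap K (LaurentSeries K) a)
    rw [ModularCurve.algebraMap_laurentSeries_eq_single]
    exact HasExp.const a
  · exact HasExp.const (φ := RingHom.id ℂ) (ι a)

theorem conjHom_J (x : XN N) : conjHom x J = J := by
  funext τ
  rw [conjHom_apply, J_smul]

theorem embF_jF (x : XN N) {G : LaurentSeries ℂ} (hG : HasExp (RingHom.id ℂ) s J G) :
    embF D hζ x (jF K N) = G := by
  rw [← algebraMap_jA, embF_algebraMap]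
  refine embA_eq D hζ (f := J) (hasExp_J' ι) ?_
  rw [conjHom_J]
  exact hG

theorem embF_smul (h : SL(2, ℤ)) {u : ℂˣ} (hu : ∀ τ, s (h • τ) = u * s τ) (x : XN N)
    (F : F0 K N) : embF D hζ (h⁻¹ • x) F = twist u (embF D hζ x F) := by
  have h1 : embF D hζ (h⁻¹ • x) = (twist u).comp (embF D hζ x) := by
    refine IsLocalization.ringHom_ext (nonZeroDivisors (A0 K N)) ?_
    ext1 F
    simp only [RingHom.comp_apply]
    rw [embF_algebraMap, embF_algebraMap]
    have h2 := (embA_spec D hζ x F).twist (s' := s) u (fun τ => h • τ) hu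
    have h3 := h2.congr (g := conjHom (h⁻¹ • x)
      (ev ι N (Subalgebra.inclusion (adjoin_le_holAlg hζ) F)))
      (fun τ => conjHom_smul (ev_inv ι N _) h x τ)
    exact (embA_spec D hζ (h⁻¹ • x) F).unique Function.injective_id D.isParam h3
  rw [h1]
  rfl

end Data

end Fermat.Agent.ModFun
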