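import Mathlib
import Fermat.Agent.ModFun.FnField

/-!
Fields generated by expansions of holomorphic modular functions on `Γ₀(N)`, over an arbitrary
field of definition `K ⊆ ℂ`: degree over `K(j)` and generation by `j, j_N`.
-/

set_option autoImplicit false

noncomputable section

namespace Fermat.Agent.ModFun

open UpperHalfPlane hiding I
open Complex Function Filter Topology ModularForm IntermediateField
open scoped Manifold MatrixGroups ModularForm IntermediateField.algebraAdjoinAdjoin

variable {K : Type*} [Field K] (ι : K →+* ℂ) (N : ℕ) [NeZero N]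

/-- The unit `exp(2πi/N)` of `ℂ`. -/
def zetaC (N : ℕ) : ℂˣ := Units.mk0 (Complex.exp (2 * Real.pi * Complex.I / N)) (Complex.exp_ne_zero _)

theorem zetaC_spec : (RingHom.id ℂ) (zetaC N : ℂ) = Complex.exp (2 * Real.pi * Complex.I / N) := rfl

/-- The algebra of `K`-rational expansions of holomorphic modular functions for `Γ₀(N)`. -/
def holC : Subalgebra K (LaurentSeries K) where
  carrier := {F | ∃ f : ℍ → ℂ, f ∈ modFun (RingHom.id ℂ) N ∧ IsInv N f ∧ HasExp ι (qN 1) f F}
  mul_mem' := by
    rintro F G ⟨f, hf, hf', hF⟩ ⟨g, hg, hg', hG⟩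
    refine ⟨f * g, mul_mem hf hg, fun γ hγ τ => ?_, hF.mul hG⟩
    simp only [Pi.mul_apply, hf' γ hγ, hg' γ hγ]
  add_mem' := by
    rintro F G ⟨f, hf, hf', hF⟩ ⟨g, hg, hg', hG⟩
    refine ⟨f + g, add_mem hf hg, fun γ hγ τ => ?_, hF.add hG⟩
    simp only [Pi.add_apply, hf' γ hγ, hg' γ hγ]
  algebraMap_mem' a := by
    refine ⟨fun _ => ι a, const_mem_modFun (φ := RingHom.id ℂ) (ι a), fun γ hγ τ => rfl, ?_⟩
    rw [ModularCurve.algebraMap_laurentSeries_eq_single]
    exact HasExp.const a

/-- The function with a given expansion. -/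
def evC : holC ι N →+* (ℍ → ℂ) where
  toFun F := F.2.choose
  map_one' := (1 : holC ι N).2.choose_spec.2.2.fun_unique (qN_ne_zero 1) hasExp_one
  map_zero' := (0 : holC ι N).2.choose_spec.2.2.fun_unique (qN_ne_zero 1) hasExp_zero
  map_add' F G := (F + G).2.choose_spec.2.2.fun_unique (qN_ne_zero 1)
    (F.2.choose_spec.2.2.add G.2.choose_spec.2.2)
  map_mul' F G := (F * G).2.choose_spec.2.2.fun_unique (qN_ne_zero 1)
    (F.2.choose_spec.2.2.mul G.2.choose_spec.2.2)

theorem evC_mem (F : holC ι N) : evC ι N F ∈ modFun (RingHom.id ℂ) N := F.2.choose_spec.1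

theorem evC_inv (F : holC ι N) : IsInv N (evC ι N F) := F.2.choose_spec.2.1

theorem evC_hasExp (F : holC ι N) : HasExp ι (qN 1) (evC ι N F) F := F.2.choose_spec.2.2

variable {ι N}

theorem evC_eq {F : holC ι N} {f : ℍ → ℂ} (h : HasExp ι (qN 1) f F) : evC ι N F = f :=
  (evC_hasExp ι N F).fun_unique (qN_ne_zero 1) h

theorem evC_injective : Function.Injective (evC ι N) := by
  rw [injective_iff_map_eq_zero]
  intro F hF
  have h := evC_hasExp ι N F
  rw [hF] at h
  exact Subtype.ext (h.eq_zero ι.injective (isParam_qN 1))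

theorem qExpand_mem_holC {d : ℕ} [NeZero d] (hd : d ∣ N) :
    ModularCurve.qExpand K d (ModularCurve.jqModC K) ∈ holC ι N :=
  ⟨Jd d, Jd_mem_modFun hd (zetaC_spec N), fun _ hγ τ => Jd_invariant hd hγ τ, hasExp_Jd ι⟩

theorem gens_subset_holC : gens K N ⊆ holC ι N := by
  rintro x ⟨d, hd0, hd, rfl⟩
  exact qExpand_mem_holC hd

/-- A `K`-linear retraction of `ι : K → ℂ`. -/
theorem exists_retraction (ι : K →+* ℂ) : ∃ l : ℂ → K, (∀ x y, l (x + y) = l x + l y) ∧
    (∀ (x : ℂ) (a : K), l (x * ι a) = l x * a) ∧ l 1 = 1 := by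
  letI : Algebra K ℂ := ι.toAlgebra
  have hι : ∀ a, algebraMap K ℂ a = ι a := fun a => rfl
  obtain ⟨l, hl⟩ := LinearMap.exists_leftInverse_of_injective (Algebra.linearMap K ℂ)
    (LinearMap.ker_eq_bot.mpr ι.injective)
  refine ⟨l, fun x y => map_add l x y, fun x a => ?_, ?_⟩
  · rw [mul_comm x, ← hι, ← Algebra.smul_def, map_smul, smul_eq_mul, mul_comm]
  · have := congrArg (fun f : K →ₗ[K] K => f 1) hl
    simpa using this

/-- Every element of `holC` satisfies a monic polynomial of degree `[SL₂(ℤ) : Γ₀(N)]`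
over `K[j]`. -/
theorem exists_eval₂_eq_zero {F : LaurentSeries K} (hF : F ∈ holC ι N) :
    ∃ Q : Polynomial (Polynomial K), Q.Monic ∧ Q.natDegree = Fintype.card (XN N) ∧
      Q.eval₂ (Polynomial.aeval (R := K) (ModularCurve.jqModC K)).toRingHom F = 0 := by
  obtain ⟨f, hf, hinv, hexp⟩ := hF
  -- the expansion with complex coefficients
  have hexp' : HasExp (RingHom.id ℂ) (qN 1) f (ModularCurve.coeffMap ι F) :=
    hexp.coeffMap ι (RingHom.id_comp ι)
  have hζ : (RingHom.id ℂ) ((zetaC N : ℂˣ) : ℂ) = Complex.exp (2 * Real.pi * Complex.I / N) := rfl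
  obtain ⟨Q, hm, hn, hQ⟩ := exists_aeval_eq_zero (K := ℂ) (ι := RingHom.id ℂ) (ζ := zetaC N) hζ
    (F := ModularCurve.coeffMap ι F) ⟨f, hf, hinv, hexp'⟩
  obtain ⟨l, hl1, hl2, hl3⟩ := exists_retraction ι
  have hl0 : l 0 = 0 := by
    have := hl1 0 0
    simpa using this
  have hlsum : ∀ {α : Type} (s : Finset α) (g : α → ℂ), l (∑ i ∈ s, g i) = ∑ i ∈ s, l (g i) := by
    intro α s g
    classical
    induction s using Finset.induction_on with
    | empty => simpa using hl0
    | insert a s ha ih => rw [Finset.sum_insert ha, Finset.sum_insert ha, hl1, ih]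
  set n := Fintype.card (XN N) with hn'
  have hmap : ModularCurve.coeffMap ι (ModularCurve.jqModC K) = ModularCurve.jqModC ℂ :=
    coeffMap_jqModC ι
  -- the relation over `ℂ`
  have hrel : (ModularCurve.coeffMap ι F) ^ n + ∑ k ∈ Finset.range n,
      (∑ a ∈ Finset.range ((Q.coeff k).natDegree + 1),
        HahnSeries.C ((Q.coeff k).coeff a) * (ModularCurve.jqModC ℂ) ^ a) *
          (ModularCurve.coeffMap ι F) ^ k = 0 := by
    rw [hm.as_sum, hn] at hQ
    rw [Polynomial.eval₂_add, Polynomial.eval₂_pow, Polynomial.eval₂_X,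
      Polynomial.eval₂_finsetSum] at hQ
    rw [← hQ]
    congr 1
    refine Finset.sum_congr rfl fun k _ => ?_
    rw [Polynomial.eval₂_mul, Polynomial.eval₂_C, Polynomial.eval₂_pow, Polynomial.eval₂_X]
    congr 1
    show _ = Polynomial.aeval (ModularCurve.jqModC ℂ) (Q.coeff k)
    rw [Polynomial.aeval_eq_sum_range]
    refine Finset.sum_congr rfl fun a _ => ?_
    rw [Algebra.smul_def, ModularCurve.algebraMap_laurentSeries_eq_single]
    rfl
  -- the relation over `K`
  have hrelK : F ^ n + ∑ k ∈ Finset.range n,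
      (∑ a ∈ Finset.range ((Q.coeff k).natDegree + 1),
        HahnSeries.C (l ((Q.coeff k).coeff a)) * (ModularCurve.jqModC K) ^ a) * F ^ k = 0 := by
    ext m
    have h1 := congrArg (fun G : LaurentSeries ℂ => l (G.coeff m)) hrel
    simp only [HahnSeries.coeff_add, HahnSeries.coeff_sum, HahnSeries.coeff_zero, hl0, hl1,
      hlsum, Finset.sum_mul] at h1
    simp only [HahnSeries.coeff_add, HahnSeries.coeff_sum, HahnSeries.coeff_zero, Finset.sum_mul]
    rw [← h1]
    congr 1
    · rw [← map_pow, ModularCurve.coeffMap_coeff, ← one_mul (ι _), hl2, hl3, one_mul]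
    · refine Finset.sum_congr rfl fun k _ => Finset.sum_congr rfl fun a _ => ?_
      rw [← hmap, ← map_pow, ← map_pow, mul_assoc, mul_assoc, ← map_mul,
        HahnSeries.C_mul_eq_smul, HahnSeries.C_mul_eq_smul, HahnSeries.coeff_smul,
        HahnSeries.coeff_smul, smul_eq_mul, smul_eq_mul, ModularCurve.coeffMap_coeff, hl2]
  -- the polynomial
  let P : ℕ → Polynomial K := fun k => ∑ a ∈ Finset.range ((Q.coeff k).natDegree + 1),
    Polynomial.C (l ((Q.coeff k).coeff a)) * Polynomial.X ^ a
  let Q' : Polynomial (Polynomial K) := Polynomial.X ^ n +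
    ∑ k ∈ Finset.range n, Polynomial.C (P k) * Polynomial.X ^ k
  have hdeg : (∑ k ∈ Finset.range n, Polynomial.C (P k) * Polynomial.X ^ k :
      Polynomial (Polynomial K)).degree < n := by
    rw [Polynomial.degree_lt_iff_coeff_zero]
    intro m hm
    rw [Polynomial.finset_sum_coeff]
    refine Finset.sum_eq_zero fun k hk => ?_
    rw [Polynomial.coeff_C_mul_X_pow, if_neg]
    have := Finset.mem_range.mp hk
    omega
  refine ⟨Q', Polynomial.monic_X_pow_add hdeg, ?_, ?_⟩
  · exact Polynomial.natDegree_eq_of_degree_eq_some (by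
      rw [Polynomial.degree_add_eq_left_of_degree_lt (by rwa [Polynomial.degree_X_pow]),
        Polynomial.degree_X_pow])
  · rw [← hrelK, Polynomial.eval₂_add, Polynomial.eval₂_pow, Polynomial.eval₂_X,
      Polynomial.eval₂_finsetSum]
    congr 1
    refine Finset.sum_congr rfl fun k _ => ?_
    rw [Polynomial.eval₂_mul, Polynomial.eval₂_C, Polynomial.eval₂_pow, Polynomial.eval₂_X]
    congr 1
    show Polynomial.aeval (ModularCurve.jqModC K) (P k) = _
    rw [map_sum]
    refine Finset.sum_congr rfl fun a _ => ?_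
    rw [map_mul, map_pow, Polynomial.aeval_C, Polynomial.aeval_X,
      ModularCurve.algebraMap_laurentSeries_eq_single]
    rfl

end Fermat.Agent.ModFun
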