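import Mathlib
import Fermat.Agent.ModFun.Gen
import Fermat.Agent.ModFun.Embed

/-!
The degree over `K(j)` of a field generated by expansions of holomorphic modular functions on
`Γ₀(N)`, and generation by `j, j_N`.
-/

set_option autoImplicit false

noncomputable section

namespace Fermat.Agent.ModFun

open UpperHalfPlane hiding I
open Complex Function Filter Topology ModularForm IntermediateField
open scoped Manifold MatrixGroups ModularForm IntermediateField.algebraAdjoinAdjoin

variable {K : Type*} [Field K]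

/-- A finite set of expansions of holomorphic modular functions on `Γ₀(N)`, containing
`j` and `j_N`. -/
structure GenSet (ι : K →+* ℂ) (N : ℕ) [NeZero N] (S : Set (LaurentSeries K)) : Prop where
  finite : S.Finite
  subset : S ⊆ holC ι N
  j_mem : ModularCurve.jqModC K ∈ S
  jN_mem : ModularCurve.qExpand K N (ModularCurve.jqModC K) ∈ S

theorem genSet_gens (ι : K →+* ℂ) (N : ℕ) [NeZero N] : GenSet ι N (gens K N) where
  finite := finite_gens
  subset := gens_subset_holC
  j_mem := jqModC_mem_gens
  jN_mem := ⟨N, inferInstance, dvd_rfl, rfl⟩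

theorem GenSet.insert {ι : K →+* ℂ} {N : ℕ} [NeZero N] {S : Set (LaurentSeries K)}
    (G : GenSet ι N S) {F : LaurentSeries K} (hF : F ∈ holC ι N) : GenSet ι N (insert F S) where
  finite := G.finite.insert F
  subset := Set.insert_subset hF G.subset
  j_mem := Set.mem_insert_of_mem _ G.j_mem
  jN_mem := Set.mem_insert_of_mem _ G.jN_mem

variable {ι : K →+* ℂ} {N : ℕ} [NeZero N] {S : Set (LaurentSeries K)}

/-- `j` in the algebra -/
def GenSet.jA (G : GenSet ι N S) : Algebra.adjoin K S :=
  ⟨ModularCurve.jqModC K, Algebra.subset_adjoin G.j_mem⟩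

/-- `j_N` in the algebra -/
def GenSet.jNA (G : GenSet ι N S) : Algebra.adjoin K S :=
  ⟨ModularCurve.qExpand K N (ModularCurve.jqModC K), Algebra.subset_adjoin G.jN_mem⟩

/-- `j` in the field -/
def GenSet.jF (G : GenSet ι N S) : IntermediateField.adjoin K S :=
  ⟨ModularCurve.jqModC K, subset_adjoin K _ G.j_mem⟩

/-- `j_N` in the field -/
def GenSet.jNF (G : GenSet ι N S) : IntermediateField.adjoin K S :=
  ⟨ModularCurve.qExpand K N (ModularCurve.jqModC K), subset_adjoin K _ G.jN_mem⟩

theorem GenSet.algebraMap_jA (G : GenSet ι N S) :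
    algebraMap (Algebra.adjoin K S) (IntermediateField.adjoin K S) G.jA = G.jF := rfl

theorem GenSet.algebraMap_jNA (G : GenSet ι N S) :
    algebraMap (Algebra.adjoin K S) (IntermediateField.adjoin K S) G.jNA = G.jNF := rfl

section Data

variable {s : ℍ → ℂ} (D : ExpData (RingHom.id ℂ) N s)

theorem GenSet.adjoin_le (G : GenSet ι N S) : Algebra.adjoin K S ≤ holC ι N := Algebra.adjoin_le G.subset

/-- evaluation and conjugation by a coset -/
def GenSet.conjEv (G : GenSet ι N S) (x : XN N) :
    Algebra.adjoin K S →+* modFun (RingHom.id ℂ) N :=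
  ((conjHom x).comp ((evC ι N).comp (Subalgebra.inclusion G.adjoin_le).toRingHom)).codRestrict
    (modFun (RingHom.id ℂ) N) fun F => conjHom_mem_modFun (evC_mem ι N _) x

/-- the embedding of the algebra attached to a coset -/
def GenSet.embA (G : GenSet ι N S) (D : ExpData (RingHom.id ℂ) N s) (x : XN N) :
    Algebra.adjoin K S →+* LaurentSeries ℂ :=
  (expHom (RingHom.id ℂ) Function.injective_id D.isParam (modFun (RingHom.id ℂ) N)
    D.exists_exp).comp (G.conjEv x)

theorem GenSet.embA_spec (G : GenSet ι N S) (x : XN N) (F : Algebra.adjoin K S) :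
    HasExp (RingHom.id ℂ) s (conjHom x (evC ι N (Subalgebra.inclusion G.adjoin_le F)))
      (G.embA D x F) :=
  expHom_spec (RingHom.id ℂ) Function.injective_id D.isParam (modFun (RingHom.id ℂ) N)
    D.exists_exp (G.conjEv x F)

theorem GenSet.embA_eq (G : GenSet ι N S) {x : XN N} {F : Algebra.adjoin K S} {f : ℍ → ℂ} {H : LaurentSeries ℂ}
    (hf : HasExp ι (qN 1) f (F : LaurentSeries K))
    (hH : HasExp (RingHom.id ℂ) s (conjHom x f) H) : G.embA D x F = H := by
  have h1 := G.embA_spec D x F
  have h2 : evC ι N (Subalgebra.inclusion G.adjoin_le F) = f := evC_eq hf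
  rw [h2] at h1
  exact h1.unique Function.injective_id D.isParam hH

theorem GenSet.embA_injective (G : GenSet ι N S) (x : XN N) : Injective (G.embA D x) := by
  rw [injective_iff_map_eq_zero]
  intro F hF
  have h1 := G.embA_spec D x F
  rw [hF] at h1
  have h2 := D.eq_zero _ (conjHom_mem_modFun (evC_mem ι N _) x).1 h1
  have h3 : evC ι N (Subalgebra.inclusion G.adjoin_le F) = 0 := by
    funext τ
    have := congrFun h2 ((Quotient.out x) • τ)
    rw [conjHom_apply, inv_smul_smul] at this
    exact this
  have h4 := evC_injective (h3.trans (map_zero (evC ι N)).symm)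
  apply Subtype.ext
  exact congrArg (fun z : holC ι N => (z : LaurentSeries K)) h4

/-- the embedding of the field attached to a coset -/
def GenSet.embF (G : GenSet ι N S) (D : ExpData (RingHom.id ℂ) N s) (x : XN N) :
    IntermediateField.adjoin K S →+* LaurentSeries ℂ :=
  IsFractionRing.lift (G.embA_injective D x)

theorem GenSet.embF_algebraMap (G : GenSet ι N S) (x : XN N) (F : Algebra.adjoin K S) :
    G.embF D x (algebraMap _ (IntermediateField.adjoin K S) F) = G.embA D x F :=
  IsFractionRing.lift_algebraMap _ _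

theorem GenSet.embF_jN_injective (G : GenSet ι N S) : Injective (fun x => G.embF D x G.jNF) := by
  intro x y hxy
  simp only [← G.algebraMap_jNA, G.embF_algebraMap] at hxy
  have h2 := G.embA_spec D x G.jNA
  have h3 := G.embA_spec D y G.jNA
  have h4 : evC ι N (Subalgebra.inclusion G.adjoin_le G.jNA) = Jd N := evC_eq (hasExp_Jd ι)
  rw [h4] at h2 h3
  rw [hxy] at h2
  have h5 := h2.sub h3
  rw [sub_self] at h5
  have h6 := D.eq_zero _
    ((conjHom_mem_modFun (Jd_mem_modFun dvd_rfl (zetaC_spec N)) x).1.sub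
    (conjHom_mem_modFun (Jd_mem_modFun dvd_rfl (zetaC_spec N)) y).1) h5
  have h7 := mul_inv_mem_of_Jd_eq (N := N) (g := (Quotient.out x)⁻¹) (h := (Quotient.out y)⁻¹)
    (fun τ => by
      have := congrFun h6 τ
      simp only [Pi.sub_apply, Pi.zero_apply, conjHom_apply] at this
      exact sub_eq_zero.mp this)
  rw [inv_inv] at h7
  have h8 := QuotientGroup.eq.mpr h7
  rw [QuotientGroup.out_eq', QuotientGroup.out_eq'] at h8
  exact h8

theorem GenSet.embF_base (G : GenSet ι N S) (x : XN N) (a : K) :
    G.embF D x (algebraMap K (IntermediateField.adjoin K S) a) = HahnSeries.C (ι a) := by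
  have h1 : algebraMap K (IntermediateField.adjoin K S) a =
      algebraMap _ (IntermediateField.adjoin K S) (algebraMap K (Algebra.adjoin K S) a) := rfl
  rw [h1, G.embF_algebraMap]
  refine G.embA_eq D (f := fun _ => ι a) ?_ ?_
  · show HasExp ι (qN 1) (fun _ => ι a) (algebraMap K (LaurentSeries K) a)
    rw [ModularCurve.algebraMap_laurentSeries_eq_single]
    exact HasExp.const a
  · exact HasExp.const (φ := RingHom.id ℂ) (ι a)

theorem GenSet.embF_jF (G : GenSet ι N S) (x : XN N) {H : LaurentSeries ℂ} (hH : HasExp (RingHom.id ℂ) s J H) :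
    G.embF D x G.jF = H := by
  rw [← G.algebraMap_jA, G.embF_algebraMap]
  refine G.embA_eq D (f := J) (hasExp_J' ι) ?_
  rw [conjHom_J]
  exact hH

theorem J_mem_modFun : J ∈ modFun (RingHom.id ℂ) N := by
  have := Jd_mem_modFun (N := N) (d := 1) (one_dvd N) (zetaC_spec N)
  have h2 : Jd 1 = J := by
    funext τ
    rw [Jd]
    congr 1
    apply UpperHalfPlane.ext
    rw [coe_tri]
    simp
  rwa [h2] at this

theorem GenSet.embF_aeval (G : GenSet ι N S) (x y : XN N) (p : Polynomial K) :
    G.embF D x (Polynomial.aeval G.jF p) = G.embF D y (Polynomial.aeval G.jF p) := by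
  obtain ⟨H, hH⟩ := D.exists_exp J J_mem_modFun
  have h3 : (G.embF D x).comp (algebraMap K (IntermediateField.adjoin K S)) =
      (G.embF D y).comp (algebraMap K (IntermediateField.adjoin K S)) := by
    ext1 a
    simp only [RingHom.comp_apply]
    rw [G.embF_base, G.embF_base]
  rw [Polynomial.aeval_def, Polynomial.hom_eval₂, Polynomial.hom_eval₂, h3, G.embF_jF D x hH,
    G.embF_jF D y hH]

theorem GenSet.embF_adjoin (G : GenSet ι N S) (x y : XN N) (r : K⟮G.jF⟯) :
    G.embF D x (r : IntermediateField.adjoin K S) =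
      G.embF D y (r : IntermediateField.adjoin K S) := by
  obtain ⟨p, q, hpq⟩ := (IntermediateField.mem_adjoin_simple_iff K _).mp r.2
  rw [hpq, map_div₀, map_div₀, G.embF_aeval D x y, G.embF_aeval D x y]

end Data

/-- Elements of the algebra satisfy monic polynomials of degree `n` over `K(j)`. -/
theorem GenSet.exists_monic (G : GenSet ι N S) (F : Algebra.adjoin K S) :
    ∃ Q : Polynomial K⟮G.jF⟯, Q.Monic ∧ Q.natDegree = Fintype.card (XN N) ∧
      Polynomial.aeval (algebraMap _ (IntermediateField.adjoin K S) F) Q = 0 := by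
  obtain ⟨Q, hm, hn, hQ⟩ := exists_eval₂_eq_zero (G.adjoin_le F.2)
  let u : Polynomial K →+* K⟮G.jF⟯ :=
    (Polynomial.aeval (R := K) (AdjoinSimple.gen K G.jF)).toRingHom
  refine ⟨Q.map u, hm.map u, by rw [hm.natDegree_map, hn], ?_⟩
  apply Subtype.ext
  rw [Polynomial.aeval_def, Polynomial.eval₂_map]
  have h1 := Polynomial.hom_eval₂ Q ((algebraMap K⟮G.jF⟯ (IntermediateField.adjoin K S)).comp u)
    (algebraMap (IntermediateField.adjoin K S) (LaurentSeries K))
    (algebraMap _ (IntermediateField.adjoin K S) F)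
  have h2 : (algebraMap (IntermediateField.adjoin K S) (LaurentSeries K)).comp
      ((algebraMap K⟮G.jF⟯ (IntermediateField.adjoin K S)).comp u) =
      (Polynomial.aeval (R := K) (ModularCurve.jqModC K)).toRingHom := by
    apply Polynomial.ringHom_ext
    · intro a
      simp only [RingHom.comp_apply, u, AlgHom.toRingHom_eq_coe, RingHom.coe_coe,
        Polynomial.aeval_C]
      rfl
    · simp only [RingHom.comp_apply, u, AlgHom.toRingHom_eq_coe, RingHom.coe_coe,
        Polynomial.aeval_X]
      rfl
  rw [h2] at h1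
  exact h1.trans hQ

theorem GenSet.isIntegral (G : GenSet ι N S) (F : Algebra.adjoin K S) :
    IsIntegral K⟮G.jF⟯ (algebraMap _ (IntermediateField.adjoin K S) F) := by
  obtain ⟨Q, hm, -, hQ⟩ := G.exists_monic F
  exact ⟨Q, hm, hQ⟩

/-- the generators as elements of the field -/
def GenSet.gensF (_G : GenSet ι N S) : Set (IntermediateField.adjoin K S) :=
  {x | (x : LaurentSeries K) ∈ S}

theorem GenSet.mem_algebra_adjoin_gensF (G : GenSet ι N S) (F : Algebra.adjoin K S) :
    algebraMap _ (IntermediateField.adjoin K S) F ∈ Algebra.adjoin K⟮G.jF⟯ G.gensF := by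
  have h : ∀ (x : LaurentSeries K), x ∈ Algebra.adjoin K S →
      ∃ y : IntermediateField.adjoin K S, (y : LaurentSeries K) = x ∧
      y ∈ Algebra.adjoin K⟮G.jF⟯ G.gensF := by
    intro x hxA
    induction hxA using Algebra.adjoin_induction with
    | mem x hx =>
      exact ⟨⟨x, subset_adjoin K _ hx⟩, rfl, Algebra.subset_adjoin hx⟩
    | algebraMap r =>
      refine ⟨algebraMap K⟮G.jF⟯ (IntermediateField.adjoin K S) (algebraMap K K⟮G.jF⟯ r), ?_,
        Subalgebra.algebraMap_mem _ _⟩
      rw [← IsScalarTower.algebraMap_apply K K⟮G.jF⟯ (IntermediateField.adjoin K S)]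
      rfl
    | add x y hx hy h1 h2 =>
      obtain ⟨x', hx1, hx2⟩ := h1
      obtain ⟨y', hy1, hy2⟩ := h2
      refine ⟨x' + y', ?_, add_mem hx2 hy2⟩
      rw [IntermediateField.coe_add, hx1, hy1]
    | mul x y hx hy h1 h2 =>
      obtain ⟨x', hx1, hx2⟩ := h1
      obtain ⟨y', hy1, hy2⟩ := h2
      refine ⟨x' * y', ?_, mul_mem hx2 hy2⟩
      rw [IntermediateField.coe_mul, hx1, hy1]
  obtain ⟨y, hy1, hy2⟩ := h F F.2
  have h3 : algebraMap _ (IntermediateField.adjoin K S) F = y := Subtype.ext hy1.symm
  rw [h3]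
  exact hy2

theorem GenSet.adjoin_gensF (G : GenSet ι N S) : IntermediateField.adjoin K⟮G.jF⟯ G.gensF = ⊤ := by
  rw [eq_top_iff]
  intro x _
  obtain ⟨a, b, hb, rfl⟩ := IsFractionRing.div_surjective (A := Algebra.adjoin K S) x
  exact div_mem (IntermediateField.algebra_adjoin_le_adjoin _ _ (G.mem_algebra_adjoin_gensF a))
    (IntermediateField.algebra_adjoin_le_adjoin _ _ (G.mem_algebra_adjoin_gensF b))

theorem GenSet.finiteDimensional (G : GenSet ι N S) :
    FiniteDimensional K⟮G.jF⟯ (IntermediateField.adjoin K S) := by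
  have hfin : G.gensF.Finite := G.finite.preimage Subtype.val_injective.injOn
  have h1 : FiniteDimensional K⟮G.jF⟯ (IntermediateField.adjoin K⟮G.jF⟯ G.gensF) := by
    have : Finite G.gensF := hfin
    refine IntermediateField.finiteDimensional_adjoin fun x hx => ?_
    have h2 := G.isIntegral ⟨(x : LaurentSeries K), Algebra.subset_adjoin hx⟩
    exact h2
  rw [G.adjoin_gensF] at h1
  exact (IntermediateField.topEquiv (F := K⟮G.jF⟯)
    (E := IntermediateField.adjoin K S)).toLinearEquiv.finiteDimensional

theorem GenSet.algebraMap_aeval_jA (G : GenSet ι N S) (p : Polynomial K) :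
    algebraMap _ (IntermediateField.adjoin K S) (Polynomial.aeval G.jA p) =
      Polynomial.aeval G.jF p := by
  rw [← Polynomial.aeval_algebraMap_apply]
  rfl

theorem GenSet.exists_mul_mem (G : GenSet ι N S) (x : IntermediateField.adjoin K S) :
    ∃ p : Polynomial K, Polynomial.aeval G.jF p ≠ 0 ∧
      ∃ a : Algebra.adjoin K S, Polynomial.aeval G.jF p * x =
        algebraMap _ (IntermediateField.adjoin K S) a := by
  haveI := G.finiteDimensional
  have hx : x ∈ Algebra.adjoin K⟮G.jF⟯ G.gensF := by
    rw [← IntermediateField.adjoin_toSubalgebra_of_isAlgebraic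
      (fun x _ => (Algebra.IsIntegral.isIntegral (R := K⟮G.jF⟯) x).isAlgebraic), G.adjoin_gensF]
    trivial
  induction hx using Algebra.adjoin_induction with
  | mem x hx =>
    refine ⟨1, by simp, ⟨(x : LaurentSeries K), Algebra.subset_adjoin hx⟩, ?_⟩
    rw [map_one, one_mul]
    rfl
  | algebraMap r =>
    obtain ⟨p, q, hpq⟩ := (IntermediateField.mem_adjoin_simple_iff K _).mp r.2
    by_cases hq : Polynomial.aeval G.jF q = 0
    · refine ⟨1, by simp, 0, ?_⟩
      rw [hq, div_zero] at hpq
      rw [map_one, one_mul, map_zero]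
      exact hpq
    · refine ⟨q, hq, Polynomial.aeval G.jA p, ?_⟩
      rw [G.algebraMap_aeval_jA]
      have h1 : algebraMap K⟮G.jF⟯ (IntermediateField.adjoin K S) r =
        (r : IntermediateField.adjoin K S) := rfl
      rw [h1, hpq]
      field_simp
  | add x y hx hy h1 h2 =>
    obtain ⟨p, hp, a, ha⟩ := h1
    obtain ⟨q, hq, b, hb⟩ := h2
    refine ⟨p * q, by rw [map_mul]; exact mul_ne_zero hp hq,
      Polynomial.aeval G.jA q * a + Polynomial.aeval G.jA p * b, ?_⟩
    rw [map_add, map_mul, map_mul, map_mul, G.algebraMap_aeval_jA, G.algebraMap_aeval_jA, ← ha,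
      ← hb]
    ring
  | mul x y hx hy h1 h2 =>
    obtain ⟨p, hp, a, ha⟩ := h1
    obtain ⟨q, hq, b, hb⟩ := h2
    refine ⟨p * q, by rw [map_mul]; exact mul_ne_zero hp hq, a * b, ?_⟩
    rw [map_mul, map_mul, ← ha, ← hb]
    ring

theorem GenSet.finrank_le (G : GenSet ι N S) :
    Module.finrank K⟮G.jF⟯ (IntermediateField.adjoin K S) ≤ Fintype.card (XN N) := by
  haveI : CharZero K := (ι.charZero_iff ι.injective).mpr inferInstance
  haveI := G.finiteDimensional
  obtain ⟨θ, hθ⟩ := Field.exists_primitive_element K⟮G.jF⟯ (IntermediateField.adjoin K S)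
  obtain ⟨p, hp, a, ha⟩ := G.exists_mul_mem θ
  set a' : IntermediateField.adjoin K S := algebraMap _ (IntermediateField.adjoin K S) a with ha'
  have h1 : IntermediateField.adjoin K⟮G.jF⟯ {a'} = ⊤ := by
    rw [eq_top_iff, ← hθ, IntermediateField.adjoin_simple_le_iff]
    have h2 : θ = a' / Polynomial.aeval G.jF p := by
      rw [← ha]
      field_simp
    rw [h2]
    refine div_mem (IntermediateField.mem_adjoin_simple_self _ _) ?_
    have h3 : Polynomial.aeval G.jF p =
        algebraMap K⟮G.jF⟯ (IntermediateField.adjoin K S)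
          (Polynomial.aeval (AdjoinSimple.gen K G.jF) p) := by
      rw [← Polynomial.aeval_algebraMap_apply]
      rfl
    rw [h3]
    exact IntermediateField.algebraMap_mem _ _
  have h2 := (Field.primitive_element_iff_minpoly_natDegree_eq K⟮G.jF⟯ a').mp h1
  rw [← h2]
  obtain ⟨Q, hm, hn, hQ⟩ := G.exists_monic a
  rw [← hn]
  exact Polynomial.natDegree_le_of_dvd (minpoly.dvd _ _ hQ) hm.ne_zero

/-- The minimal polynomial of `j_N` over `K(j)` has degree at least `n`. -/
theorem GenSet.le_natDegree_minpoly (G : GenSet ι N S) :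
    Fintype.card (XN N) ≤ (minpoly K⟮G.jF⟯ G.jNF).natDegree := by
  classical
  haveI := G.finiteDimensional
  have D : ExpData (RingHom.id ℂ) N (qN N) := expData_qN
  let x₀ : XN N := ((1 : SL(2, ℤ)) : XN N)
  set P := minpoly K⟮G.jF⟯ G.jNF with hP
  have hint : IsIntegral K⟮G.jF⟯ G.jNF := Algebra.IsIntegral.isIntegral _
  have hP0 : P ≠ 0 := minpoly.ne_zero hint
  let u : K⟮G.jF⟯ →+* LaurentSeries ℂ :=
    (G.embF D x₀).comp (algebraMap K⟮G.jF⟯ (IntermediateField.adjoin K S))
  have hroot : ∀ x : XN N, (P.map u).IsRoot (G.embF D x G.jNF) := by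
    intro x
    have h1 : u = (G.embF D x).comp (algebraMap K⟮G.jF⟯ (IntermediateField.adjoin K S)) := by
      ext1 r
      exact G.embF_adjoin D x₀ x r
    rw [Polynomial.IsRoot.def, Polynomial.eval_map, h1, ← Polynomial.hom_eval₂]
    have h2 := minpoly.aeval K⟮G.jF⟯ G.jNF
    rw [Polynomial.aeval_def] at h2
    rw [h2, map_zero]
  have hmap0 : P.map u ≠ 0 := (Polynomial.map_ne_zero_iff u.injective).mpr hP0
  have h3 : Finset.univ.image (fun x : XN N => G.embF D x G.jNF) ⊆ (P.map u).roots.toFinset := by
    intro y hy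
    obtain ⟨x, -, rfl⟩ := Finset.mem_image.mp hy
    rw [Multiset.mem_toFinset, Polynomial.mem_roots hmap0]
    exact hroot x
  have h4 := Finset.card_le_card h3
  rw [Finset.card_image_of_injective _ (G.embF_jN_injective D), Finset.card_univ] at h4
  calc Fintype.card (XN N) ≤ (P.map u).roots.toFinset.card := h4
    _ ≤ (P.map u).roots.card := Multiset.toFinset_card_le _
    _ ≤ (P.map u).natDegree := Polynomial.card_roots' _
    _ = P.natDegree := Polynomial.natDegree_map _

theorem GenSet.finrank_eq (G : GenSet ι N S) :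
    Module.finrank K⟮G.jF⟯ (IntermediateField.adjoin K S) = Fintype.card (XN N) := by
  haveI := G.finiteDimensional
  exact le_antisymm G.finrank_le (G.le_natDegree_minpoly.trans (minpoly.natDegree_le _))

/-- The field is generated by `j` and `j_N`. -/
theorem GenSet.adjoin_jNF_eq_top (G : GenSet ι N S) : IntermediateField.adjoin K⟮G.jF⟯ {G.jNF} = ⊤ := by
  haveI : CharZero K := (ι.charZero_iff ι.injective).mpr inferInstance
  haveI := G.finiteDimensional
  rw [Field.primitive_element_iff_minpoly_natDegree_eq]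
  refine le_antisymm (minpoly.natDegree_le _) ?_
  rw [G.finrank_eq]
  exact G.le_natDegree_minpoly

theorem mem_adjoin_of_mem_holC {F : LaurentSeries K} (hF : F ∈ holC ι N) :
    F ∈ IntermediateField.adjoin K
      {ModularCurve.jqModC K, ModularCurve.qExpand K N (ModularCurve.jqModC K)} := by
  have G : GenSet ι N (insert F (gens K N)) := (genSet_gens ι N).insert hF
  have h1 : (⟨F, subset_adjoin K _ (Set.mem_insert _ _)⟩ :
      IntermediateField.adjoin K (insert F (gens K N))) ∈
      IntermediateField.adjoin K⟮G.jF⟯ {G.jNF} := by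
    rw [G.adjoin_jNF_eq_top]
    trivial
  have h2 : (IntermediateField.adjoin K⟮G.jF⟯ {G.jNF}).restrictScalars K ≤
      IntermediateField.adjoin K {G.jF, G.jNF} := by
    rw [IntermediateField.adjoin_simple_adjoin_simple]
  have h3 := h2 h1
  have h4 : (⟨F, subset_adjoin K _ (Set.mem_insert _ _)⟩ :
      IntermediateField.adjoin K (insert F (gens K N))).val ∈
      (IntermediateField.adjoin K {G.jF, G.jNF}).map
        (IntermediateField.adjoin K (insert F (gens K N))).val := ⟨_, h3, rfl⟩
  rw [IntermediateField.adjoin_map, Set.image_pair] at h4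
  exact h4

end Fermat.Agent.ModFun
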