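import Mathlib
import Fermat.Agent.ModFun.CharPoly

/-!
Nonvanishing functions with an expansion whose leading coefficient is a unit.
-/

set_option autoImplicit false

noncomputable section

namespace Fermat.Agent.ModFun

open UpperHalfPlane hiding I
open Complex Function Filter Topology ModularForm
open scoped Manifold MatrixGroups ModularForm

section LeadU

variable {R : Type*} [CommRing R]

/-- The series has leading term of degree `m`, with unit coefficient. -/
def LeadU (F : LaurentSeries R) (m : ℤ) : Prop := (∀ k < m, F.coeff k = 0) ∧ IsUnit (F.coeff m)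

theorem leadU_iff {F : LaurentSeries R} {m : ℤ} : LeadU F m ↔ ∃ P : PowerSeries R, IsUnit P ∧
    F = HahnSeries.single m 1 * HahnSeries.ofPowerSeries ℤ R P := by
  constructor
  · rintro ⟨h1, h2⟩
    refine ⟨PowerSeries.mk fun n => F.coeff (m + n), ?_, ?_⟩
    · rw [PowerSeries.isUnit_iff_constantCoeff, ← PowerSeries.coeff_zero_eq_constantCoeff_apply,
        PowerSeries.coeff_mk]
      simpa using h2
    · ext k
      have h3 := HahnSeries.coeff_single_mul (r := (1 : R)) (x := HahnSeries.ofPowerSeries ℤ R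
        (PowerSeries.mk fun n => F.coeff (m + n))) (a := k) (b := m)
      rw [h3, one_mul]
      by_cases hk : k < m
      · rw [h1 k hk, ModularCurve.ofPowerSeries_coeff_of_neg _ (by omega)]
      · have hk' : ((k - m).toNat : ℤ) = k - m := Int.toNat_of_nonneg (by omega)
        rw [← hk', HahnSeries.ofPowerSeries_apply_coeff, PowerSeries.coeff_mk]
        congr 1
        omega
  · rintro ⟨P, hP, rfl⟩
    have h3 := fun k => HahnSeries.coeff_single_mul (r := (1 : R)) (x := HahnSeries.ofPowerSeries ℤ R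
        P) (a := k) (b := m)
    refine ⟨fun k hk => ?_, ?_⟩
    · rw [h3, ModularCurve.ofPowerSeries_coeff_of_neg _ (by omega), mul_zero]
    · rw [h3, one_mul, sub_self, show (0 : ℤ) = ((0 : ℕ) : ℤ) from rfl,
        HahnSeries.ofPowerSeries_apply_coeff, PowerSeries.coeff_zero_eq_constantCoeff_apply]
      exact PowerSeries.isUnit_iff_constantCoeff.mp hP

theorem LeadU.mul {F G : LaurentSeries R} {m n : ℤ} (hF : LeadU F m) (hG : LeadU G n) :
    LeadU (F * G) (m + n) := by
  rw [leadU_iff] at hF hG ⊢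
  obtain ⟨P, hP, rfl⟩ := hF
  obtain ⟨Q, hQ, rfl⟩ := hG
  refine ⟨P * Q, hP.mul hQ, ?_⟩
  rw [map_mul, ← one_mul (1 : R), ← HahnSeries.single_mul_single, one_mul]
  ring

theorem LeadU.inv {F G : LaurentSeries R} {m : ℤ} (hF : LeadU F m) (h : F * G = 1) :
    LeadU G (-m) := by
  rw [leadU_iff] at hF ⊢
  obtain ⟨P, hP, rfl⟩ := hF
  obtain ⟨P, rfl⟩ := hP
  refine ⟨((P⁻¹ : (PowerSeries R)ˣ) : PowerSeries R), Units.isUnit _, ?_⟩
  have h1 : (HahnSeries.single m (1 : R) * HahnSeries.ofPowerSeries ℤ R (P : PowerSeries R)) *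
      (HahnSeries.single (-m) 1 *
        HahnSeries.ofPowerSeries ℤ R ((P⁻¹ : (PowerSeries R)ˣ) : PowerSeries R)) = 1 := by
    calc _ = (HahnSeries.single m (1 : R) * HahnSeries.single (-m) 1) *
        (HahnSeries.ofPowerSeries ℤ R (P : PowerSeries R) *
          HahnSeries.ofPowerSeries ℤ R ((P⁻¹ : (PowerSeries R)ˣ) : PowerSeries R)) := by ring
      _ = 1 := by
        rw [HahnSeries.single_mul_single, ← map_mul, Units.mul_inv, map_one]
        simp
  exact left_inv_eq_right_inv (by rw [mul_comm]; exact h) h1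

theorem LeadU.C {a : R} (ha : IsUnit a) : LeadU (HahnSeries.C a : LaurentSeries R) 0 := by
  refine ⟨fun k hk => ?_, ?_⟩
  · rw [HahnSeries.C_apply, HahnSeries.coeff_single_of_ne hk.ne]
  · rw [HahnSeries.C_apply, HahnSeries.coeff_single_same]
    exact ha

theorem LeadU.coeffMap {S : Type*} [CommRing S] (u : R →+* S) {F : LaurentSeries R} {m : ℤ}
    (hF : LeadU F m) : LeadU (ModularCurve.coeffMap u F) m := by
  refine ⟨fun k hk => ?_, ?_⟩
  · rw [ModularCurve.coeffMap_coeff, hF.1 k hk, map_zero]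
  · rw [ModularCurve.coeffMap_coeff]
    exact hF.2.map u

theorem LeadU.qExpand {F : LaurentSeries R} {m : ℤ} (hF : LeadU F m) (d : ℕ) [NeZero d] :
    LeadU (ModularCurve.qExpand R d F) (d * m) := by
  have hd : (0 : ℤ) < d := by exact_mod_cast Nat.pos_of_ne_zero (NeZero.ne d)
  refine ⟨fun k hk => ?_, ?_⟩
  · by_cases hk' : (d : ℤ) ∣ k
    · obtain ⟨r, rfl⟩ := hk'
      rw [ModularCurve.qExpand_coeff_mul, hF.1 r (by
        by_contra h
        push Not at h
        nlinarith)]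
    · exact ModularCurve.qExpand_coeff_of_not_dvd _ _ hk'
  · rw [ModularCurve.qExpand_coeff_mul]
    exact hF.2

theorem LeadU.twist {F : LaurentSeries R} {m : ℤ} (hF : LeadU F m) (u : Rˣ) :
    LeadU (Fermat.Agent.ModFun.twist u F) m := by
  refine ⟨fun k hk => ?_, ?_⟩
  · rw [twist_coeff, hF.1 k hk, mul_zero]
  · rw [twist_coeff]
    exact (Units.isUnit _).mul hF.2

theorem LeadU.ne_zero [Nontrivial R] {F : LaurentSeries R} {m : ℤ} (hF : LeadU F m) : F ≠ 0 := by
  rintro rfl
  have := hF.2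
  rw [HahnSeries.coeff_zero] at this
  exact not_isUnit_zero this

theorem LeadU.order_eq [Nontrivial R] {F : LaurentSeries R} {m : ℤ} (hF : LeadU F m) :
    F.order = m := by
  refine le_antisymm ?_ ?_
  · exact HahnSeries.order_le_of_coeff_ne_zero hF.2.ne_zero
  · by_contra h
    push Not at h
    have := hF.1 _ h
    exact HahnSeries.coeff_order_eq_zero.not.2 hF.ne_zero this

end LeadU

variable {R : Type*} [CommRing R] {φ : R →+* ℂ} {s : ℍ → ℂ} {f g : ℍ → ℂ} {m n : ℤ}

/-- The function and its inverse have expansions; the leading coefficient is a unit, in degree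
`m`. -/
def UExp (φ : R →+* ℂ) (s : ℍ → ℂ) (f : ℍ → ℂ) (m : ℤ) : Prop :=
  ∃ F G : LaurentSeries R, HasExp φ s f F ∧ HasExp φ s f⁻¹ G ∧ F * G = 1 ∧ LeadU F m

theorem UExp.congr (hf : UExp φ s f m) (h : ∀ τ, f τ = g τ) : UExp φ s g m := by
  rwa [← funext h]

theorem UExp.mul (hf : UExp φ s f m) (hg : UExp φ s g n) : UExp φ s (f * g) (m + n) := by
  obtain ⟨F, F', h1, h2, h3, h4⟩ := hf
  obtain ⟨G, G', k1, k2, k3, k4⟩ := hg
  refine ⟨F * G, F' * G', h1.mul k1, ?_, ?_, h4.mul k4⟩
  · rw [mul_inv]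
    exact h2.mul k2
  · calc F * G * (F' * G') = (F * F') * (G * G') := by ring
      _ = 1 := by rw [h3, k3, one_mul]

theorem UExp.inv (hf : UExp φ s f m) : UExp φ s f⁻¹ (-m) := by
  obtain ⟨F, F', h1, h2, h3, h4⟩ := hf
  refine ⟨F', F, h2, ?_, by rw [mul_comm]; exact h3, h4.inv h3⟩
  rw [inv_inv]
  exact h1

theorem uexp_one : UExp φ s 1 0 := by
  refine ⟨1, 1, hasExp_one, ?_, one_mul 1, ?_⟩
  · rw [inv_one]
    exact hasExp_one
  · have := LeadU.C (R := R) isUnit_one
    rwa [map_one] at this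

theorem uexp_const {a : R} (ha : IsUnit a) : UExp φ s (fun _ => φ a) 0 := by
  obtain ⟨u, rfl⟩ := ha
  refine ⟨HahnSeries.C (u : R), HahnSeries.C ((u⁻¹ : Rˣ) : R), HasExp.const _, ?_, ?_,
    LeadU.C u.isUnit⟩
  · refine (HasExp.const ((u⁻¹ : Rˣ) : R)).congr fun τ => ?_
    rw [Pi.inv_apply]
    refine eq_inv_of_mul_eq_one_left ?_
    rw [← map_mul, Units.inv_mul, map_one]
  · rw [← map_mul, Units.mul_inv, map_one]

theorem UExp.pow (hf : UExp φ s f m) (k : ℕ) : UExp φ s (f ^ k) (k * m) := by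
  induction k with
  | zero => simpa using uexp_one
  | succ k ih =>
    rw [pow_succ]
    have := ih.mul hf
    rwa [show ((k : ℤ) * m + m) = ((k + 1 : ℕ) : ℤ) * m by push_cast; ring] at this

theorem UExp.zpow (hf : UExp φ s f m) (k : ℤ) : UExp φ s (f ^ k) (k * m) := by
  obtain ⟨n, rfl | rfl⟩ := k.eq_nat_or_neg
  · rw [zpow_natCast]
    exact hf.pow n
  · rw [zpow_neg, zpow_natCast]
    have := (hf.pow n).inv
    rwa [show -((n : ℤ) * m) = -(n : ℤ) * m by ring] at this

theorem UExp.prod {ι : Type*} (t : Finset ι) {f : ι → ℍ → ℂ} {m : ι → ℤ}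
    (h : ∀ i ∈ t, UExp φ s (f i) (m i)) : UExp φ s (∏ i ∈ t, f i) (∑ i ∈ t, m i) := by
  classical
  induction t using Finset.induction_on with
  | empty => simpa using uexp_one
  | insert a t ha ih =>
    rw [Finset.prod_insert ha, Finset.sum_insert ha]
    exact (h a (Finset.mem_insert_self _ _)).mul
      (ih fun i hi => h i (Finset.mem_insert_of_mem hi))

theorem UExp.twist {s' : ℍ → ℂ} (u : Rˣ) (α : ℍ → ℍ) (hα : ∀ τ, s (α τ) = φ u * s' τ)
    (hf : UExp φ s f m) : UExp φ s' (fun τ => f (α τ)) m := by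
  obtain ⟨F, F', h1, h2, h3, h4⟩ := hf
  refine ⟨Fermat.Agent.ModFun.twist u F, Fermat.Agent.ModFun.twist u F', h1.twist u α hα,
    (h2.twist u α hα).congr fun τ => rfl, ?_, h4.twist u⟩
  rw [← map_mul, h3, map_one]

theorem UExp.qExpand {s' : ℍ → ℂ} (d : ℕ) [NeZero d] (α : ℍ → ℍ)
    (hα : ∀ τ, s (α τ) = s' τ ^ d) (hf : UExp φ s f m) :
    UExp φ s' (fun τ => f (α τ)) (d * m) := by
  obtain ⟨F, F', h1, h2, h3, h4⟩ := hf
  refine ⟨ModularCurve.qExpand R d F, ModularCurve.qExpand R d F', h1.qExpand d α hα,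
    (h2.qExpand d α hα).congr fun τ => rfl, ?_, h4.qExpand d⟩
  rw [← map_mul, h3, map_one]

theorem UExp.coeffMap {S : Type*} [CommRing S] {ψ : S →+* ℂ} (u : R →+* S) (h : ψ.comp u = φ)
    (hf : UExp φ s f m) : UExp ψ s f m := by
  obtain ⟨F, F', h1, h2, h3, h4⟩ := hf
  refine ⟨ModularCurve.coeffMap u F, ModularCurve.coeffMap u F', h1.coeffMap u h,
    h2.coeffMap u h, ?_, h4.coeffMap u⟩
  rw [← map_mul, h3, map_one]

/-- the expansion of `1/Δ` -/
def dInvSeries : LaurentSeries ℤ :=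
  HahnSeries.single (-1 : ℤ) 1 * HahnSeries.ofPowerSeries ℤ ℤ ModularCurve.dedekindEtaUnitInv

theorem dSeries_mul_dInvSeries : dSeries * dInvSeries = 1 := by
  have h1 : (HahnSeries.single (1 : ℤ) (1 : ℤ) : LaurentSeries ℤ) *
      HahnSeries.single (-1 : ℤ) 1 = 1 := by
    rw [HahnSeries.single_mul_single]
    simp
  have h2 : (HahnSeries.ofPowerSeries ℤ ℤ ModularCurve.dedekindEtaUnit) *
      (HahnSeries.ofPowerSeries ℤ ℤ ModularCurve.dedekindEtaUnitInv) = 1 := by
    rw [← map_mul, ModularCurve.dedekindEtaUnit_mul_inv, map_one]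
  calc dSeries * dInvSeries = ((HahnSeries.single (1 : ℤ) (1 : ℤ) : LaurentSeries ℤ) *
      HahnSeries.single (-1 : ℤ) 1) * ((HahnSeries.ofPowerSeries ℤ ℤ ModularCurve.dedekindEtaUnit) *
      (HahnSeries.ofPowerSeries ℤ ℤ ModularCurve.dedekindEtaUnitInv)) := by
        rw [dSeries, dInvSeries]; ring
    _ = 1 := by rw [h1, h2, one_mul]

theorem leadU_dSeries : LeadU dSeries 1 := by
  rw [leadU_iff]
  refine ⟨ModularCurve.dedekindEtaUnit, ?_, rfl⟩
  exact IsUnit.of_mul_eq_one _ ModularCurve.dedekindEtaUnit_mul_inv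

theorem hasExp_discriminant_inv : HasExp (Int.castRingHom ℂ) (qN 1)
    (ModularForm.discriminant : ℍ → ℂ)⁻¹ dInvSeries := by
  have hmd : MDiff ((ModularForm.discriminant : ℍ → ℂ)⁻¹) := by
    have h1 := (mdiff_const 1).div mdiff_discriminant discriminant_ne_zero
    have h2 : ((ModularForm.discriminant : ℍ → ℂ)⁻¹) =
        (fun _ => 1) / (ModularForm.discriminant : ℍ → ℂ) := by
      funext τ
      simp
    rw [h2]
    exact h1
  have hper : ∀ τ : ℍ, (ModularForm.discriminant : ℍ → ℂ)⁻¹ (((1 : ℕ) : ℝ) +ᵥ τ) =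
      (ModularForm.discriminant : ℍ → ℂ)⁻¹ τ := by
    intro τ
    rw [Nat.cast_one, ← modular_T_smul, Pi.inv_apply, Pi.inv_apply, discriminant_smul]
    have : denom ModularGroup.T τ = 1 := by
      rw [ModularGroup.denom_apply]
      simp [ModularGroup.T]
    rw [this]
    simp
  have hb : IsBoundedAtImInfty (fun τ => qN 1 τ ^ 1 * (ModularForm.discriminant : ℍ → ℂ)⁻¹ τ) := by
    have h2 : (fun τ : ℍ => qN 1 τ) =O[atImInfty] ModularForm.discriminant := by
      refine Asymptotics.IsBigO.trans ?_ exp_isBigO_discriminant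
      refine Asymptotics.isBigO_of_le _ fun τ => ?_
      rw [qN_apply, Nat.cast_one, Periodic.norm_qParam]
      rw [Real.norm_of_nonneg (Real.exp_nonneg _)]
      simp
    have h3 : IsBoundedAtImInfty (fun τ : ℍ => qN 1 τ / ModularForm.discriminant τ) :=
      (Asymptotics.div_isBoundedUnder_of_isBigO h2).isBigO_one ℝ
    refine h3.congr_left fun τ => ?_
    rw [pow_one, Pi.inv_apply, div_eq_mul_inv]
  obtain ⟨F, hF⟩ := exists_hasExp (N := 1) hmd hper 1 hb
  have hφ : (RingHom.id ℂ).comp (Int.castRingHom ℂ) = Int.castRingHom ℂ := RingHom.id_comp _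
  have h1 := hF.mul (hasExp_discriminant.coeffMap (Int.castRingHom ℂ) hφ)
  have h3 : ((ModularForm.discriminant : ℍ → ℂ)⁻¹ * ModularForm.discriminant : ℍ → ℂ) = 1 := by
    funext τ
    simp only [Pi.mul_apply, Pi.inv_apply, Pi.one_apply]
    exact inv_mul_cancel₀ (discriminant_ne_zero τ)
  rw [h3] at h1
  have h4 := h1.unique Function.injective_id (isParam_qN 1) hasExp_one
  have h5 : F = ModularCurve.coeffMap (Int.castRingHom ℂ) dInvSeries := by
    refine left_inv_eq_right_inv h4 ?_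
    rw [← map_mul, dSeries_mul_dInvSeries, map_one]
  rw [h5] at hF
  exact (hasExp_coeffMap_iff (Int.castRingHom ℂ) hφ).1 hF

theorem uexp_discriminant_int : UExp (Int.castRingHom ℂ) (qN 1) ModularForm.discriminant 1 :=
  ⟨dSeries, dInvSeries, hasExp_discriminant, hasExp_discriminant_inv, dSeries_mul_dInvSeries,
    leadU_dSeries⟩

theorem uexp_discriminant (φ : R →+* ℂ) : UExp φ (qN 1) ModularForm.discriminant 1 :=
  uexp_discriminant_int.coeffMap (Int.castRingHom R) (RingHom.ext_int _ _)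

end Fermat.Agent.ModFun
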