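import Mathlib
import Fermat.Agent.ModFun.UExp

/-!
The modular unit `V = ∏ (Δ(dτ)/Δ(τ))^(μ(N/d) d)`, with negative orders at all cosets but one.
-/

set_option autoImplicit false

noncomputable section

namespace Fermat.Agent.ModFun

open UpperHalfPlane hiding I
open Complex Function Filter Topology ModularForm
open scoped Manifold MatrixGroups ModularForm

/-- `Δ(dτ)/Δ(τ)` -/
def ud (d : ℕ) [NeZero d] : ℍ → ℂ := fun τ =>
  ModularForm.discriminant (tri d 0 1 τ) / ModularForm.discriminant τ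

theorem ud_ne_zero (d : ℕ) [NeZero d] (τ : ℍ) : ud d τ ≠ 0 :=
  div_ne_zero (discriminant_ne_zero _) (discriminant_ne_zero _)

theorem mdiff_ud (d : ℕ) [NeZero d] : MDiff (ud d) :=
  (mdiff_tri d 0 1 mdiff_discriminant).div mdiff_discriminant discriminant_ne_zero

theorem denom_eq (γ : SL(2, ℤ)) (τ : ℍ) : denom γ τ = (γ 1 0 : ℂ) * τ + γ 1 1 :=
  ModularGroup.denom_apply γ τ

theorem ud_smul {d : ℕ} [NeZero d] {γ γ' : SL(2, ℤ)} {a d' : ℕ} [NeZero a] [NeZero d'] {b : ℤ}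
    (h1 : γ' 0 0 * a = d * γ 0 0) (h2 : γ' 0 0 * b + γ' 0 1 * d' = d * γ 0 1)
    (h3 : γ' 1 0 * a = γ 1 0) (h4 : γ' 1 0 * b + γ' 1 1 * d' = γ 1 1) (τ : ℍ) :
    ud d (γ • τ) = ((d' : ℂ) ^ 12)⁻¹ *
      (ModularForm.discriminant (tri a b d' τ) / ModularForm.discriminant τ) := by
  have hd' : (d' : ℂ) ≠ 0 := by exact_mod_cast NeZero.ne d'
  have e1 := denom_SL_ne_zero γ τ
  have h3' : (γ' 1 0 : ℂ) * a = γ 1 0 := by exact_mod_cast h3
  have h4' : (γ' 1 0 : ℂ) * b + γ' 1 1 * d' = γ 1 1 := by exact_mod_cast h4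
  have e3 : denom γ' (tri a b d' τ) = ((γ 1 0 : ℂ) * τ + γ 1 1) / d' := by
    rw [denom_eq, coe_tri, ← h3', ← h4']
    field_simp
    ring
  rw [ud, tri_smul h1 h2 h3 h4, discriminant_smul, discriminant_smul, e3, denom_eq]
  have h5 := discriminant_ne_zero τ
  rw [show (12 : ℤ) = ((12 : ℕ) : ℤ) from rfl, zpow_natCast, zpow_natCast]
  field_simp

theorem ud_invariant {N d : ℕ} [NeZero d] (hd : d ∣ N) {γ : SL(2, ℤ)}
    (hγ : γ ∈ CongruenceSubgroup.Gamma0 N) (τ : ℍ) : ud d (γ • τ) = ud d τ := by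
  rw [CongruenceSubgroup.Gamma0_mem, ZMod.intCast_zmod_eq_zero_iff_dvd] at hγ
  have hd' : (d : ℤ) ∣ γ 1 0 := (Int.natCast_dvd_natCast.mpr hd).trans hγ
  obtain ⟨r, hr⟩ := hd'
  have hdet := γ.det_coe
  rw [Matrix.det_fin_two] at hdet
  let γ' : SL(2, ℤ) := ⟨!![γ 0 0, d * γ 0 1; r, γ 1 1], by
    rw [Matrix.det_fin_two_of]
    rw [hr] at hdet
    linear_combination hdet⟩
  have h := ud_smul (d := d) (γ := γ) (γ' := γ') (a := d) (d' := 1) (b := 0)
    (by simp [γ']; ring) (by simp [γ']) (by simp [γ', hr]; ring) (by simp [γ']) τ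
  rw [h, ud]
  simp

theorem qN_one_tri_one (d : ℕ) [NeZero d] (τ : ℍ) : qN 1 (tri d 0 1 τ) = qN 1 τ ^ d := by
  rw [qN_apply, qN_apply, Function.Periodic.qParam, Function.Periodic.qParam,
    ← Complex.exp_nat_mul, coe_tri]
  congr 1
  push_cast
  ring

section

variable {R : Type*} [CommRing R] {φ : R →+* ℂ}

theorem uexp_ud (φ : R →+* ℂ) (d : ℕ) [NeZero d] : ∃ m, UExp φ (qN 1) (ud d) m := by
  have h1 := (uexp_discriminant φ).qExpand (s' := qN 1) d (fun τ => tri d 0 1 τ)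
    (fun τ => qN_one_tri_one d τ)
  refine ⟨_, (h1.mul (uexp_discriminant φ).inv).congr fun τ => ?_⟩
  simp only [Pi.mul_apply, Pi.inv_apply, ud, div_eq_mul_inv]

theorem uexp_ud_smul {N : ℕ} [NeZero N] (hNu : IsUnit (N : R)) {ζ : Rˣ}
    (hζ : φ ζ = Complex.exp (2 * Real.pi * Complex.I / N)) {d e : ℕ} [NeZero d]
    (hde : d * e = N) (γ : SL(2, ℤ)) :
    UExp φ (qN N) (fun τ => ud d (γ • τ)) (e * ((Int.gcd d (γ 1 0) : ℕ) : ℤ) ^ 2 - N) := by
  obtain ⟨γ', a, d', b, ha, had, h1, h2, h3, h4⟩ := exists_hermite d γ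
  haveI : NeZero a := ⟨ha.ne'⟩
  haveI : NeZero d' := ⟨by rintro rfl; exact NeZero.ne d (by rw [← had, mul_zero])⟩
  haveI : NeZero e := ⟨by rintro rfl; exact NeZero.ne N (by rw [← hde, mul_zero])⟩
  have hN : a * d' * e = N := by rw [had, hde]
  -- `a` is the gcd
  have hgcd : Int.gcd d (γ 1 0) = a := by
    have hdet := γ'.det_coe
    rw [Matrix.det_fin_two] at hdet
    have ha0 : (a : ℤ) ≠ 0 := by exact_mod_cast ha.ne'
    have h00 : γ' 0 0 = d' * γ 0 0 := by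
      have : (a : ℤ) * d' = d := by exact_mod_cast had
      refine mul_right_cancel₀ ha0 ?_
      rw [h1, ← this]
      ring
    have hcop : IsCoprime (d' : ℤ) (γ' 1 0) := by
      refine ⟨γ 0 0 * γ' 1 1, -γ' 0 1, ?_⟩
      rw [h00] at hdet
      linear_combination hdet
    have had' : (d : ℤ) = a * d' := by exact_mod_cast had.symm
    rw [had', ← h3, mul_comm (γ' 1 0), Int.gcd_mul_left, Int.isCoprime_iff_gcd_eq_one.mp hcop,
      Int.natAbs_natCast, mul_one]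
  rw [hgcd]
  have hd'u : IsUnit (((d' : R) ^ 12)) := by
    refine IsUnit.pow _ ?_
    rw [← hN] at hNu
    push_cast at hNu
    exact isUnit_of_mul_isUnit_right (isUnit_of_mul_isUnit_left hNu)
  haveI hne : NeZero (a * a * e) := ⟨mul_ne_zero (mul_ne_zero (NeZero.ne a) (NeZero.ne a))
      (NeZero.ne e)⟩
  have k1 : UExp φ (fun τ => qN N τ ^ (a * a * e))
      (fun τ => ModularForm.discriminant (tri a b d' τ)) 1 := by
    refine (uexp_discriminant φ).twist (s' := fun τ => qN N τ ^ (a * a * e))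
      (ζ ^ ((a : ℤ) * e * b)) (fun τ => tri a b d' τ) ?_
    intro τ
    rw [map_units_zpow, hζ]
    exact qN_one_tri hN b τ
  have k2 := k1.qExpand (s' := qN N) (a * a * e) (fun τ => τ) (fun τ => rfl)
  have k3 : UExp φ (qN N) ModularForm.discriminant (N * 1) := by
    refine (uexp_discriminant φ).qExpand (s' := qN N) N (fun τ => τ) fun τ => ?_
    have hN : (N : ℂ) ≠ 0 := by exact_mod_cast NeZero.ne N
    rw [qN_apply, qN_apply, Function.Periodic.qParam, Function.Periodic.qParam,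
      ← Complex.exp_nat_mul]
    congr 1
    push_cast
    field_simp
  have k4 := ((uexp_const (φ := φ) (s := qN N) hd'u).inv.mul k2).mul k3.inv
  have k5 : (-0 + ((a * a * e : ℕ) : ℤ) * 1 + -((N : ℤ) * 1)) = e * (a : ℤ) ^ 2 - N := by
    push_cast
    ring
  rw [k5] at k4
  refine k4.congr fun τ => ?_
  rw [ud_smul h1 h2 h3 h4 τ]
  simp only [Pi.mul_apply, Pi.inv_apply, map_pow, map_natCast, div_eq_mul_inv]
  ring

end

/-- nonvanishing for `0`-tolerant indexing -/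
def ud' (d : ℕ) : ℍ → ℂ := if h : d = 0 then 1 else haveI : NeZero d := ⟨h⟩; ud d

theorem ud'_eq (d : ℕ) [h : NeZero d] : ud' d = ud d := by
  rw [ud', dif_neg h.ne]

/-- the exponent of the modular unit -/
def expo (N d : ℕ) : ℤ := ArithmeticFunction.moebius (N / d) * d

/-- The modular unit. -/
def Vfun (N : ℕ) : ℍ → ℂ := ∏ d ∈ N.divisors, ud' d ^ expo N d

theorem mdiff_inv {f : ℍ → ℂ} (hf : MDiff f) (h : ∀ τ, f τ ≠ 0) : MDiff (f⁻¹) := by
  have h1 := (mdiff_const 1).div hf h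
  have h2 : f⁻¹ = (fun _ => 1) / f := by
    funext τ
    simp
  rw [h2]
  exact h1

theorem mdiff_zpow {f : ℍ → ℂ} (hf : MDiff f) (h : ∀ τ, f τ ≠ 0) (k : ℤ) : MDiff (f ^ k) := by
  obtain ⟨n, rfl | rfl⟩ := k.eq_nat_or_neg
  · rw [zpow_natCast]
    exact hf.pow n
  · rw [zpow_neg, zpow_natCast]
    exact mdiff_inv (hf.pow n) fun τ => pow_ne_zero _ (h τ)

theorem mdiff_prod {ι : Type*} (t : Finset ι) {f : ι → ℍ → ℂ} (h : ∀ i ∈ t, MDiff (f i)) :
    MDiff (∏ i ∈ t, f i) := by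
  classical
  induction t using Finset.induction_on with
  | empty =>
    rw [Finset.prod_empty]
    exact mdiff_const 1
  | insert a t ha ih =>
    rw [Finset.prod_insert ha]
    exact (h a (Finset.mem_insert_self _ _)).mul (ih fun i hi => h i (Finset.mem_insert_of_mem hi))

theorem ud'_ne_zero (d : ℕ) (τ : ℍ) : ud' d τ ≠ 0 := by
  unfold ud'
  split_ifs with h
  · simp
  · haveI : NeZero d := ⟨h⟩
    exact ud_ne_zero d τ

theorem mdiff_ud' (d : ℕ) : MDiff (ud' d) := by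
  unfold ud'
  split_ifs with h
  · exact mdiff_const 1
  · haveI : NeZero d := ⟨h⟩
    exact mdiff_ud d

theorem mdiff_Vfun (N : ℕ) : MDiff (Vfun N) :=
  mdiff_prod _ fun d _ => mdiff_zpow (mdiff_ud' d) (ud'_ne_zero d) _

theorem Vfun_apply (N : ℕ) (τ : ℍ) : Vfun N τ = ∏ d ∈ N.divisors, ud' d τ ^ expo N d := by
  rw [Vfun, Finset.prod_apply]
  rfl

theorem Vfun_ne_zero (N : ℕ) (τ : ℍ) : Vfun N τ ≠ 0 := by
  rw [Vfun_apply]
  exact Finset.prod_ne_zero_iff.mpr fun d _ => zpow_ne_zero _ (ud'_ne_zero d τ)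

theorem Vfun_isInv (N : ℕ) : IsInv N (Vfun N) := by
  intro γ hγ τ
  rw [Vfun_apply, Vfun_apply]
  refine Finset.prod_congr rfl fun d hd => ?_
  have hd' := Nat.mem_divisors.mp hd
  haveI : NeZero d := ⟨fun h => by
    rw [h, zero_dvd_iff] at hd'
    exact hd'.2 hd'.1⟩
  rw [ud'_eq, ud_invariant hd'.1 hγ]

theorem Vfun_inv_isInv (N : ℕ) : IsInv N (Vfun N)⁻¹ := by
  intro γ hγ τ
  rw [Pi.inv_apply, Pi.inv_apply, Vfun_isInv N γ hγ]

section Moebius

open ArithmeticFunction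

/-- Jordan's totient -/
def jord (n : ℕ) : ℤ := ∑ x ∈ n.divisorsAntidiagonal, moebius x.1 * ((x.2 : ℤ) ^ 2)

theorem sum_jord (n : ℕ) (hn : 0 < n) : ∑ i ∈ n.divisors, jord i = (n : ℤ) ^ 2 :=
  (ArithmeticFunction.sum_eq_iff_sum_mul_moebius_eq (R := ℤ) (f := jord)
    (g := fun n => (n : ℤ) ^ 2)).mpr (fun n _ => rfl) n hn

theorem sum_moebius_gcd_sq (c : ℤ) (n : ℕ) (hn : 0 < n) :
    ∑ x ∈ n.divisorsAntidiagonal, moebius x.1 * ((Int.gcd x.2 c : ℕ) : ℤ) ^ 2 =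
      if (n : ℤ) ∣ c then jord n else 0 := by
  refine (ArithmeticFunction.sum_eq_iff_sum_mul_moebius_eq (R := ℤ)
    (f := fun n : ℕ => if (n : ℤ) ∣ c then jord n else 0)
    (g := fun n : ℕ => ((Int.gcd n c : ℕ) : ℤ) ^ 2)).mp ?_ n hn
  intro m hm
  have hg : 0 < Int.gcd m c := Int.gcd_pos_of_ne_zero_left _ (by exact_mod_cast hm.ne')
  rw [← sum_jord _ hg, ← Finset.sum_filter]
  refine Finset.sum_congr ?_ fun _ _ => rfl
  ext i
  rw [Finset.mem_filter, Nat.mem_divisors, Nat.mem_divisors]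
  constructor
  · rintro ⟨⟨h1, -⟩, h3⟩
    refine ⟨?_, hg.ne'⟩
    have := Int.dvd_gcd (Int.natCast_dvd_natCast.mpr h1) h3
    exact_mod_cast this
  · rintro ⟨h1, -⟩
    have h2 : (i : ℤ) ∣ (Int.gcd m c : ℕ) := Int.natCast_dvd_natCast.mpr h1
    exact ⟨⟨Int.natCast_dvd_natCast.mp (h2.trans (Int.gcd_dvd_left _ _)), hm.ne'⟩,
      h2.trans (Int.gcd_dvd_right _ _)⟩

theorem sum_moebius_mul (n : ℕ) (hn : 0 < n) :
    ∑ x ∈ n.divisorsAntidiagonal, moebius x.1 * (x.2 : ℤ) = (Nat.totient n : ℤ) := by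
  refine (ArithmeticFunction.sum_eq_iff_sum_mul_moebius_eq (R := ℤ)
    (f := fun n : ℕ => (Nat.totient n : ℤ)) (g := fun n : ℕ => (n : ℤ))).mp ?_ n hn
  intro m _
  have := Nat.sum_totient m
  exact_mod_cast this

/-- The order of the modular unit at a coset. -/
theorem sum_expo (N : ℕ) (hN : 0 < N) (c : ℤ) :
    ∑ d ∈ N.divisors, expo N d * (((N / d : ℕ) : ℤ) * ((Int.gcd d c : ℕ) : ℤ) ^ 2 - N) =
      N * ((if (N : ℤ) ∣ c then jord N else 0) - Nat.totient N) := by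
  rw [← sum_moebius_gcd_sq c N hN, ← sum_moebius_mul N hN, ← Finset.sum_sub_distrib,
    Finset.mul_sum, Nat.sum_divisorsAntidiagonal' (n := N)
      (f := fun i j => (N : ℤ) * (moebius i * ((Int.gcd j c : ℕ) : ℤ) ^ 2 - moebius i * (j : ℤ)))]
  refine Finset.sum_congr rfl fun d hd => ?_
  have hd' := Nat.mem_divisors.mp hd
  have h1 : (d : ℤ) * ((N / d : ℕ) : ℤ) = N := by
    exact_mod_cast Nat.mul_div_cancel' hd'.1
  rw [expo]
  linear_combination (moebius (N / d) * ((Int.gcd d c : ℕ) : ℤ) ^ 2) * h1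

end Moebius

section

variable {R : Type*} [CommRing R] {φ : R →+* ℂ}

theorem uexp_Vfun (φ : R →+* ℂ) (N : ℕ) : ∃ m, UExp φ (qN 1) (Vfun N) m := by
  have h : ∀ d ∈ N.divisors, ∃ m, UExp φ (qN 1) (ud' d ^ expo N d) m := by
    intro d hd
    have hd' := Nat.mem_divisors.mp hd
    haveI : NeZero d := ⟨fun h => by
      rw [h, zero_dvd_iff] at hd'
      exact hd'.2 hd'.1⟩
    obtain ⟨m, hm⟩ := uexp_ud φ d
    rw [ud'_eq]
    exact ⟨_, hm.zpow _⟩
  choose! m hm using h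
  exact ⟨_, UExp.prod N.divisors hm⟩

/-- Expansion of the modular unit at a coset. -/
theorem uexp_Vfun_smul {N : ℕ} [NeZero N] (hNu : IsUnit (N : R)) {ζ : Rˣ}
    (hζ : φ ζ = Complex.exp (2 * Real.pi * Complex.I / N)) (γ : SL(2, ℤ)) :
    UExp φ (qN N) (fun τ => Vfun N (γ • τ))
      (N * ((if (N : ℤ) ∣ γ 1 0 then jord N else 0) - Nat.totient N)) := by
  have h := UExp.prod (φ := φ) (s := qN N) N.divisors (f := fun d => (fun τ => ud' d (γ • τ)) ^ expo N d)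
    (m := fun d => expo N d *
      (((N / d : ℕ) : ℤ) * ((Int.gcd d (γ 1 0) : ℕ) : ℤ) ^ 2 - N)) (by
    intro d hd
    have hd' := Nat.mem_divisors.mp hd
    haveI : NeZero d := ⟨fun h => by
      rw [h, zero_dvd_iff] at hd'
      exact hd'.2 hd'.1⟩
    rw [ud'_eq]
    exact (uexp_ud_smul hNu hζ (Nat.mul_div_cancel' hd'.1) γ).zpow _)
  rw [sum_expo N (Nat.pos_of_ne_zero (NeZero.ne N))] at h
  refine h.congr fun τ => ?_
  rw [Vfun_apply, Finset.prod_apply]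
  rfl

theorem Vfun_mem_modFun {N : ℕ} [NeZero N] (hNu : IsUnit (N : R)) {ζ : Rˣ}
    (hζ : φ ζ = Complex.exp (2 * Real.pi * Complex.I / N)) : Vfun N ∈ modFun φ N := by
  refine ⟨mdiff_Vfun N, fun γ => ?_⟩
  obtain ⟨F, G, h1, -⟩ := uexp_Vfun_smul hNu hζ γ
  exact ⟨F, h1⟩

theorem Vfun_inv_mem_modFun {N : ℕ} [NeZero N] (hNu : IsUnit (N : R)) {ζ : Rˣ}
    (hζ : φ ζ = Complex.exp (2 * Real.pi * Complex.I / N)) : (Vfun N)⁻¹ ∈ modFun φ N := by
  refine ⟨mdiff_inv (mdiff_Vfun N) (Vfun_ne_zero N), fun γ => ?_⟩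
  obtain ⟨F, G, -, h1, -⟩ := uexp_Vfun_smul hNu hζ γ
  exact ⟨G, h1⟩

end

end Fermat.Agent.ModFun
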