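import Mathlib
import Fermat.Agent.ModFun.MUnit
import Fermat.Agent.ModFun.FnField

/-!
The characteristic polynomial of the modular unit `V`, formally.
-/

set_option autoImplicit false

noncomputable section

namespace Fermat.Agent.ModFun

open UpperHalfPlane hiding I
open Complex Function Filter Topology ModularForm
open scoped Manifold MatrixGroups ModularForm

section

variable {R : Type*} [CommRing R]

theorem coeff_eval₂_jq (P : Polynomial R) {m : ℤ} (hm : m ≤ -(P.natDegree : ℤ)) :
    (P.eval₂ HahnSeries.C (ModularCurve.jqModC R)).coeff m =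
      if m = -(P.natDegree : ℤ) then P.leadingCoeff else 0 := by
  rw [Polynomial.eval₂_eq_sum_range, HahnSeries.coeff_sum, Finset.sum_range_succ,
    Finset.sum_eq_zero, zero_add]
  · rw [HahnSeries.C_mul_eq_smul, HahnSeries.coeff_smul, smul_eq_mul]
    split_ifs with h
    · subst h
      rw [coeff_jqModC_pow_self', mul_one, Polynomial.leadingCoeff]
    · rw [coeff_jqModC_pow_of_lt' (lt_of_le_of_ne hm h), mul_zero]
  · intro i hi
    have hi' := Finset.mem_range.mp hi
    rw [HahnSeries.C_mul_eq_smul, HahnSeries.coeff_smul, smul_eq_mul,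
      coeff_jqModC_pow_of_lt' (by omega), mul_zero]

theorem eval₂_jq_injective :
    Injective (Polynomial.eval₂RingHom (HahnSeries.C : R →+* LaurentSeries R)
      (ModularCurve.jqModC R)) := by
  rw [injective_iff_map_eq_zero]
  intro P hP
  by_contra h
  have h1 := coeff_eval₂_jq P le_rfl
  rw [if_pos rfl, ← Polynomial.coe_eval₂RingHom, hP, HahnSeries.coeff_zero] at h1
  exact h (Polynomial.leadingCoeff_eq_zero.mp h1.symm)

variable {φ : R →+* ℂ}

theorem hasExp_eval₂_J (P : Polynomial R) :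
    HasExp φ (qN 1) (fun τ => P.eval₂ φ (J τ)) (P.eval₂ HahnSeries.C (ModularCurve.jqModC R)) := by
  induction P using Polynomial.induction_on' with
  | add p q hp hq =>
    rw [Polynomial.eval₂_add]
    refine (hp.add hq).congr fun τ => ?_
    simp
  | monomial m c =>
    rw [Polynomial.eval₂_monomial]
    refine (((hasExp_J' φ).pow m).smul c).congr fun τ => ?_
    simp

theorem eq_of_eval₂_J (hφ : Injective φ) {P Q : Polynomial R}
    (h : ∀ τ, P.eval₂ φ (J τ) = Q.eval₂ φ (J τ)) : P = Q := by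
  apply eval₂_jq_injective
  exact ((hasExp_eval₂_J P).congr h).unique hφ (isParam_qN 1) (hasExp_eval₂_J Q)

variable {N : ℕ} [NeZero N]

theorem J_mem_modFun' {ζ : Rˣ} (hζ : φ ζ = Complex.exp (2 * Real.pi * Complex.I / N)) :
    J ∈ modFun φ N := by
  have := Jd_mem_modFun (N := N) (d := 1) (one_dvd N) hζ
  have h2 : Jd 1 = J := by
    funext τ
    rw [Jd]
    congr 1
    apply UpperHalfPlane.ext
    rw [coe_tri]
    simp
  rwa [h2] at this

/-- constants -/
def constHom (φ : R →+* ℂ) (N : ℕ) : R →+* modFun φ N where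
  toFun a := ⟨fun _ => φ a, const_mem_modFun a⟩
  map_one' := by
    apply Subtype.ext
    funext τ
    exact map_one φ
  map_zero' := by
    apply Subtype.ext
    funext τ
    exact map_zero φ
  map_add' a b := by
    apply Subtype.ext
    funext τ
    exact map_add φ a b
  map_mul' a b := by
    apply Subtype.ext
    funext τ
    exact map_mul φ a b

/-- The `ℤ`-expansion of the modular unit. -/
def vSeries (N : ℕ) : LaurentSeries ℤ :=
  (uexp_Vfun (Int.castRingHom ℂ) N).choose_spec.choose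

/-- The `ℤ`-expansion of the inverse of the modular unit. -/
def vInvSeries (N : ℕ) : LaurentSeries ℤ :=
  (uexp_Vfun (Int.castRingHom ℂ) N).choose_spec.choose_spec.choose

theorem hasExp_Vfun (N : ℕ) : HasExp (Int.castRingHom ℂ) (qN 1) (Vfun N) (vSeries N) :=
  (uexp_Vfun (Int.castRingHom ℂ) N).choose_spec.choose_spec.choose_spec.1

theorem hasExp_Vfun_inv (N : ℕ) : HasExp (Int.castRingHom ℂ) (qN 1) (Vfun N)⁻¹ (vInvSeries N) :=
  (uexp_Vfun (Int.castRingHom ℂ) N).choose_spec.choose_spec.choose_spec.2.1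

theorem vSeries_mul_vInvSeries (N : ℕ) : vSeries N * vInvSeries N = 1 :=
  (uexp_Vfun (Int.castRingHom ℂ) N).choose_spec.choose_spec.choose_spec.2.2.1

theorem exists_leadU_vSeries (N : ℕ) : ∃ m, LeadU (vSeries N) m :=
  ⟨_, (uexp_Vfun (Int.castRingHom ℂ) N).choose_spec.choose_spec.choose_spec.2.2.2⟩

theorem hasExp_Vfun' (φ : R →+* ℂ) (N : ℕ) :
    HasExp φ (qN 1) (Vfun N) (ModularCurve.coeffMap (Int.castRingHom R) (vSeries N)) :=
  (hasExp_Vfun N).coeffMap (Int.castRingHom R) (RingHom.ext_int _ _)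

theorem hasExp_Vfun_inv' (φ : R →+* ℂ) (N : ℕ) :
    HasExp φ (qN 1) (Vfun N)⁻¹ (ModularCurve.coeffMap (Int.castRingHom R) (vInvSeries N)) :=
  (hasExp_Vfun_inv N).coeffMap (Int.castRingHom R) (RingHom.ext_int _ _)

theorem exists_Vpoly (hφ : Injective φ) (hNu : IsUnit (N : R)) {ζ : Rˣ}
    (hζ : φ ζ = Complex.exp (2 * Real.pi * Complex.I / N)) :
    ∃ (Q : Polynomial (Polynomial R)) (W : XN N → LaurentSeries R),
      Q.Monic ∧ IsUnit (Q.coeff 0) ∧
      Q.map (Polynomial.eval₂RingHom (HahnSeries.C : R →+* LaurentSeries R)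
        (ModularCurve.qExpand R N (ModularCurve.jqModC R))) =
        ∏ x, (Polynomial.X - Polynomial.C (W x)) ∧
      W ((1 : SL(2, ℤ)) : XN N) =
        ModularCurve.qExpand R N (ModularCurve.coeffMap (Int.castRingHom R) (vSeries N)) ∧
      (∀ x, ∃ m, LeadU (W x) m) ∧
      ∀ x ≠ ((1 : SL(2, ℤ)) : XN N), LeadU (W x) (-(N * Nat.totient N : ℕ)) := by
  classical
  obtain ⟨Q, hm, hn, hQ⟩ := exists_charpoly hφ hζ (Vfun_mem_modFun hNu hζ) (Vfun_isInv N)
  obtain ⟨Q', hm', hn', hQ'⟩ := exists_charpoly hφ hζ (Vfun_inv_mem_modFun hNu hζ)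
    (Vfun_inv_isInv N)
  have hM : ∀ f ∈ modFun φ N, ∃ F : LaurentSeries R, HasExp φ (qN N) f F := by
    intro f hf
    obtain ⟨F, hF⟩ := hf.2 1
    exact ⟨F, hF.congr fun τ => by rw [one_smul]⟩
  let E := expHom φ hφ (isParam_qN N) (modFun φ N) hM
  have hE : ∀ f : modFun φ N, HasExp φ (qN N) f (E f) :=
    expHom_spec φ hφ (isParam_qN N) (modFun φ N) hM
  let Vx : XN N → modFun φ N := fun x =>
    ⟨conjHom x (Vfun N), conjHom_mem_modFun (Vfun_mem_modFun hNu hζ) x⟩
  let W : XN N → LaurentSeries R := fun x => E (Vx x)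
  let θ : Polynomial R →+* modFun φ N :=
    Polynomial.eval₂RingHom (constHom φ N) ⟨J, J_mem_modFun' hζ⟩
  have hθ : ∀ (P : Polynomial R) (τ : ℍ), ((θ P : modFun φ N) : ℍ → ℂ) τ = P.eval₂ φ (J τ) := by
    intro P τ
    have h1 : ((Pi.evalRingHom (fun _ : ℍ => ℂ) τ).comp ((modFun φ N).subtype.comp θ)) =
        Polynomial.eval₂RingHom φ (J τ) := by
      apply Polynomial.ringHom_ext
      · intro a
        simp only [RingHom.comp_apply, θ, Polynomial.coe_eval₂RingHom, Polynomial.eval₂_C]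
        rfl
      · simp only [RingHom.comp_apply, θ, Polynomial.coe_eval₂RingHom, Polynomial.eval₂_X]
        rfl
    exact congrArg (fun f : Polynomial R →+* ℂ => f P) h1
  have hQθ : Q.map θ = ∏ x, (Polynomial.X - Polynomial.C (Vx x)) := by
    ext k τ
    have h1 := congrArg (fun p : Polynomial ℂ => p.coeff k) (hQ τ)
    simp only [Polynomial.coeff_map, Polynomial.coe_eval₂RingHom] at h1
    rw [Polynomial.coeff_map, hθ, h1]
    have h2 : (∏ x : XN N, (Polynomial.X - Polynomial.C (conjHom x (Vfun N) τ)) : Polynomial ℂ) =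
        (∏ x, (Polynomial.X - Polynomial.C (Vx x))).map
          ((Pi.evalRingHom (fun _ : ℍ => ℂ) τ).comp (modFun φ N).subtype) := by
      rw [Polynomial.map_prod]
      refine Finset.prod_congr rfl fun x _ => ?_
      rw [Polynomial.map_sub, Polynomial.map_X, Polynomial.map_C]
      rfl
    rw [h2, Polynomial.coeff_map]
    rfl
  have hEθ : E.comp θ = Polynomial.eval₂RingHom (HahnSeries.C : R →+* LaurentSeries R)
        (ModularCurve.qExpand R N (ModularCurve.jqModC R)) := by
    apply Polynomial.ringHom_ext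
    · intro a
      simp only [RingHom.comp_apply, θ, Polynomial.coe_eval₂RingHom, Polynomial.eval₂_C]
      exact (hE (constHom φ N a)).unique hφ (isParam_qN N) (HasExp.const a)
    · simp only [RingHom.comp_apply, θ, Polynomial.coe_eval₂RingHom, Polynomial.eval₂_X]
      exact (hE ⟨J, J_mem_modFun' hζ⟩).unique hφ (isParam_qN N) ((hasExp_J' φ).level N)
  have hWexp : ∀ g : SL(2, ℤ), HasExp φ (qN N) (fun τ => Vfun N (g⁻¹ • τ)) (W (g : XN N)) := by
    intro g
    exact (hE (Vx g)).congr fun τ => conjHom_mk (Vfun_isInv N) g τ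
  have hlead : ∀ g : SL(2, ℤ), LeadU (W (g : XN N))
      (N * ((if (N : ℤ) ∣ g⁻¹ 1 0 then jord N else 0) - Nat.totient N)) := by
    intro g
    obtain ⟨F, G, h1, -, -, h4⟩ := uexp_Vfun_smul hNu hζ g⁻¹
    rwa [(hWexp g).unique hφ (isParam_qN N) h1]
  refine ⟨Q, W, hm, ?_, ?_, ?_, ?_, ?_⟩
  · refine IsUnit.of_mul_eq_one (Q'.coeff 0) ?_
    apply eq_of_eval₂_J hφ
    intro τ
    have h1 := congrArg (fun p : Polynomial ℂ => p.eval 0) (hQ τ)
    have h2 := congrArg (fun p : Polynomial ℂ => p.eval 0) (hQ' τ)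
    simp only [← Polynomial.coeff_zero_eq_eval_zero, Polynomial.coeff_map,
      Polynomial.coe_eval₂RingHom] at h1 h2
    rw [Polynomial.eval₂_mul, h1, h2, Polynomial.eval₂_one, Polynomial.coeff_zero_eq_eval_zero,
      Polynomial.coeff_zero_eq_eval_zero, Polynomial.eval_prod, Polynomial.eval_prod,
      ← Finset.prod_mul_distrib]
    refine Finset.prod_eq_one fun x _ => ?_
    simp only [Polynomial.eval_sub, Polynomial.eval_X, Polynomial.eval_C, zero_sub, neg_mul_neg,
      conjHom_apply, Pi.inv_apply]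
    exact mul_inv_cancel₀ (Vfun_ne_zero N _)
  · rw [← hEθ, ← Polynomial.map_map, hQθ, Polynomial.map_prod]
    refine Finset.prod_congr rfl fun x _ => ?_
    rw [Polynomial.map_sub, Polynomial.map_X, Polynomial.map_C]
  · have h1 := hWexp 1
    simp only [inv_one, one_smul] at h1
    exact h1.unique hφ (isParam_qN N) ((hasExp_Vfun' φ N).level N)
  · intro x
    obtain ⟨g, rfl⟩ := QuotientGroup.mk_surjective x
    exact ⟨_, hlead g⟩
  · intro x hx
    obtain ⟨g, rfl⟩ := QuotientGroup.mk_surjective x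
    have h1 := hlead g
    rw [if_neg, zero_sub] at h1
    · rwa [show (N : ℤ) * -(Nat.totient N : ℤ) = -((N * Nat.totient N : ℕ) : ℤ) by
        push_cast; ring] at h1
    · intro hdvd
      apply hx
      refine QuotientGroup.eq.mpr ?_
      rw [mul_one, CongruenceSubgroup.Gamma0_mem, ZMod.intCast_zmod_eq_zero_iff_dvd]
      exact hdvd

end

end Fermat.Agent.ModFun
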