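import Mathlib
import Fermat.Agent.ModFun.VPoly

/-!
The degree of the modular unit over the `j`-line, over arbitrary residue fields.
-/

set_option autoImplicit false

noncomputable section

namespace Fermat.Agent.ModFun

open UpperHalfPlane hiding I
open Complex Function Filter Topology ModularForm
open scoped Manifold MatrixGroups ModularForm

section Pure

variable {κ : Type*} [Field κ]

theorem order_prod_multiset (S : Multiset (LaurentSeries κ)) (hS : ∀ x ∈ S, x ≠ 0) :
    S.prod ≠ 0 ∧ S.prod.order = (S.map HahnSeries.order).sum := by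
  induction S using Multiset.induction_on with
  | empty => simp
  | cons a S ih =>
    obtain ⟨h1, h2⟩ := ih fun x hx => hS x (Multiset.mem_cons_of_mem hx)
    have h3 := hS a (Multiset.mem_cons_self a S)
    rw [Multiset.prod_cons, Multiset.map_cons, Multiset.sum_cons]
    exact ⟨mul_ne_zero h3 h1, by rw [HahnSeries.order_mul h3 h1, h2]⟩

theorem order_coeff_zero {P : Polynomial (LaurentSeries κ)} (hP : P.Monic) (hs : P.Splits)
    (h0 : ∀ x ∈ P.roots, x ≠ 0) :
    (P.coeff 0).order = (P.roots.map HahnSeries.order).sum := by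
  rw [hs.coeff_zero_eq_prod_roots_of_monic hP]
  obtain ⟨h1, h2⟩ := order_prod_multiset P.roots h0
  rw [← h2]
  rcases neg_one_pow_eq_or (LaurentSeries κ) P.natDegree with h | h
  · rw [h, one_mul]
  · rw [h, neg_one_mul, HahnSeries.order_neg]

theorem natDegree_eq_card {A : Type*} [CommRing A] {ι : Type*} [Fintype ι]
    (f : A →+* LaurentSeries κ) (hf : ∀ a, IsUnit a → (f a).order = 0) {m Q : Polynomial A}
    (hm : m.Monic) (hmQ : m ∣ Q) (hQ0 : IsUnit (Q.coeff 0))
    (W : ι → LaurentSeries κ) (hQ : Q.map f = ∏ x, (Polynomial.X - Polynomial.C (W x))) (i₀ : ι)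
    (hroot : (m.map f).IsRoot (W i₀)) {s : ℤ} (hs : 0 < s) (hW : ∀ i, W i ≠ 0)
    (hord : ∀ i ≠ i₀, (W i).order = -s) : m.natDegree = Fintype.card ι := by
  classical
  haveI : Nontrivial A := by
    by_contra h
    rw [not_nontrivial_iff_subsingleton] at h
    have h1 := congrArg f (Subsingleton.elim (1 : A) 0)
    rw [map_one, map_zero] at h1
    exact one_ne_zero h1
  set T : Multiset (LaurentSeries κ) := Finset.univ.val.map W with hT
  have hprod : (∏ x, (Polynomial.X - Polynomial.C (W x)) : Polynomial (LaurentSeries κ)) =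
      (T.map fun a => Polynomial.X - Polynomial.C a).prod := by
    rw [hT, Multiset.map_map]
    rfl
  have hQm : (Q.map f).Monic := by
    rw [hQ]
    exact Polynomial.monic_prod_of_monic _ _ fun x _ => Polynomial.monic_X_sub_C _
  have hQr : (Q.map f).roots = T := by
    rw [hQ, hprod, Polynomial.roots_multiset_prod_X_sub_C]
  have hQs : (Q.map f).Splits := by
    rw [Polynomial.splits_iff_card_roots, hQr, hQ, Polynomial.natDegree_finsetProd_X_sub_C_eq_card,
      hT, Multiset.card_map]
    rfl
  have hmQ' : m.map f ∣ Q.map f := Polynomial.map_dvd f hmQ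
  have hms : (m.map f).Splits := hQs.of_dvd hQm.ne_zero hmQ'
  have hmm : (m.map f).Monic := hm.map f
  have hle : (m.map f).roots ≤ T := hQr ▸ Polynomial.roots.le_of_dvd hQm.ne_zero hmQ'
  have hT0 : ∀ x ∈ T, x ≠ 0 := by
    intro x hx
    obtain ⟨i, -, rfl⟩ := Multiset.mem_map.mp hx
    exact hW i
  have h1 := order_coeff_zero hQm hQs (by rw [hQr]; exact hT0)
  have h2 := order_coeff_zero hmm hms fun x hx => hT0 x (Multiset.mem_of_le hle hx)
  rw [Polynomial.coeff_map, hf _ hQ0, hQr] at h1
  have hm0 : IsUnit (m.coeff 0) := by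
    obtain ⟨c, hc⟩ := hmQ
    rw [hc, Polynomial.mul_coeff_zero] at hQ0
    exact isUnit_of_mul_isUnit_left hQ0
  rw [Polynomial.coeff_map, hf _ hm0] at h2
  -- remove the distinguished root
  have hTc : T = W i₀ ::ₘ (Finset.univ.erase i₀).val.map W := by
    have h3 : (Finset.univ : Finset ι).val = i₀ ::ₘ (Finset.univ.erase i₀).val := by
      rw [← Finset.insert_val_of_notMem (Finset.notMem_erase i₀ _),
        Finset.insert_erase (Finset.mem_univ i₀)]
    rw [hT, h3, Multiset.map_cons]
  have hmem : W i₀ ∈ (m.map f).roots := (Polynomial.mem_roots hmm.ne_zero).mpr hroot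
  obtain ⟨S, hS⟩ := Multiset.exists_cons_of_mem hmem
  have hSle : S ≤ (Finset.univ.erase i₀).val.map W := by
    rw [hS, hTc] at hle
    exact Multiset.cons_le_cons_iff _ |>.mp hle
  have hconst : ∀ U : Multiset (LaurentSeries κ), U ≤ (Finset.univ.erase i₀).val.map W →
      (U.map HahnSeries.order).sum = -(U.card * s) := by
    intro U hU
    have h4 : ∀ x ∈ U, x.order = -s := by
      intro x hx
      obtain ⟨i, hi, rfl⟩ := Multiset.mem_map.mp (Multiset.mem_of_le hU hx)
      exact hord i (Finset.ne_of_mem_erase hi)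
    rw [Multiset.map_congr rfl h4, Multiset.map_const', Multiset.sum_replicate, nsmul_eq_mul]
    ring
  rw [hTc, Multiset.map_cons, Multiset.sum_cons, hconst _ le_rfl] at h1
  rw [hS, Multiset.map_cons, Multiset.sum_cons, hconst _ hSle] at h2
  have h5 : (S.card : ℤ) = ((Finset.univ.erase i₀).val.map W).card := by
    have h6 : ((S.card : ℤ) - ((Finset.univ.erase i₀).val.map W).card) * s = 0 := by
      linear_combination h2 - h1
    rcases mul_eq_zero.mp h6 with h7 | h7
    · exact sub_eq_zero.mp h7
    · exact absurd h7 hs.ne'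
  have h6 : S.card = ((Finset.univ.erase i₀).val.map W).card := by exact_mod_cast h5
  rw [← hm.natDegree_map f, ← Polynomial.splits_iff_card_roots.mp hms, hS, Multiset.card_cons, h6,
    Multiset.card_map, ← Multiset.card_cons i₀,
    ← Finset.insert_val_of_notMem (Finset.notMem_erase i₀ _),
    Finset.insert_erase (Finset.mem_univ i₀)]
  rfl

end Pure

section PolyEquiv

variable {R S : Type*} [CommRing R] [CommRing S] [Algebra R S]

/-- The algebra generated by a transcendental element is a polynomial ring. -/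
def polyEquivAdjoin (t : S) (ht : Injective (Polynomial.aeval t : Polynomial R →ₐ[R] S)) :
    Polynomial R ≃ₐ[R] Algebra.adjoin R {t} :=
  (AlgEquiv.ofInjective _ ht).trans
    (Subalgebra.equivOfEq _ _ (Algebra.adjoin_singleton_eq_range_aeval R t).symm)

theorem coe_polyEquivAdjoin (t : S) (ht : Injective (Polynomial.aeval t : Polynomial R →ₐ[R] S))
    (p : Polynomial R) : (polyEquivAdjoin t ht p : S) = Polynomial.aeval t p := rfl

end PolyEquiv

theorem aeval_jq {κ : Type*} [Field κ] (P : Polynomial κ) :
    Polynomial.aeval (ModularCurve.jqModC κ) P =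
      P.eval₂ HahnSeries.C (ModularCurve.jqModC κ) := by
  rw [Polynomial.aeval_def]
  congr 1
  ext1 a
  rw [ModularCurve.algebraMap_laurentSeries_eq_single]
  rfl

theorem aeval_jq_injective (κ : Type*) [Field κ] :
    Injective (Polynomial.aeval (ModularCurve.jqModC κ) : Polynomial κ →ₐ[κ] LaurentSeries κ) := by
  intro P Q h
  rw [aeval_jq, aeval_jq] at h
  exact eval₂_jq_injective h

/-- `V` over a ring -/
def vS (R : Type*) [CommRing R] (N : ℕ) : LaurentSeries R :=
  ModularCurve.coeffMap (Int.castRingHom R) (vSeries N)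

theorem coeffMap_vS {R S : Type*} [CommRing R] [CommRing S] (f : R →+* S) (N : ℕ) :
    ModularCurve.coeffMap f (vS R N) = vS S N := by
  ext n
  simp only [vS, ModularCurve.coeffMap_coeff]
  exact RingHom.congr_fun (RingHom.ext_int (f.comp (Int.castRingHom R)) (Int.castRingHom S)) _

theorem coeffMap_qExpand {R S : Type*} [CommRing R] [CommRing S] (f : R →+* S) (d : ℕ) [NeZero d]
    (F : LaurentSeries R) : ModularCurve.coeffMap f (ModularCurve.qExpand R d F) =
      ModularCurve.qExpand S d (ModularCurve.coeffMap f F) := by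
  ext n
  rw [ModularCurve.coeffMap_coeff]
  by_cases h : (d : ℤ) ∣ n
  · obtain ⟨m, rfl⟩ := h
    rw [ModularCurve.qExpand_coeff_mul, ModularCurve.qExpand_coeff_mul,
      ModularCurve.coeffMap_coeff]
  · rw [ModularCurve.qExpand_coeff_of_not_dvd _ _ h, ModularCurve.qExpand_coeff_of_not_dvd _ _ h,
      map_zero]

section Main

variable {R : Type*} [CommRing R] {φ : R →+* ℂ} {N : ℕ} [NeZero N] {κ : Type*} [Field κ]

theorem minpoly_vS (hφ : Injective φ) (hNu : IsUnit (N : R)) {ζ : Rˣ}
    (hζ : φ ζ = Complex.exp (2 * Real.pi * Complex.I / N)) (ρ : R →+* κ) :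
    IsIntegral (Algebra.adjoin κ {ModularCurve.jqModC κ}) (vS κ N) ∧
    (minpoly (Algebra.adjoin κ {ModularCurve.jqModC κ}) (vS κ N)).natDegree =
      Fintype.card (XN N) := by
  obtain ⟨Q, W, hQm, hQu, hQ, hW1, hW, hWo⟩ := exists_Vpoly hφ hNu hζ
  set A := Algebra.adjoin κ {ModularCurve.jqModC κ} with hA
  let e : Polynomial κ ≃ₐ[κ] A := polyEquivAdjoin _ (aeval_jq_injective κ)
  let π : Polynomial R →+* A := (e : Polynomial κ →+* A).comp (Polynomial.mapRingHom ρ)
  let f : A →+* LaurentSeries κ := (ModularCurve.qExpand κ N).comp A.val.toRingHom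
  haveI : IsIntegrallyClosed A := IsIntegrallyClosed.of_equiv e.toRingEquiv
  have hmap : (Q.map π).map f =
      ∏ x, (Polynomial.X - Polynomial.C (ModularCurve.coeffMap ρ (W x))) := by
    have h1 := congrArg (Polynomial.map (ModularCurve.coeffMap ρ)) hQ
    rw [Polynomial.map_prod, Polynomial.map_map] at h1
    rw [Polynomial.map_map]
    have h2 : f.comp π = (ModularCurve.coeffMap ρ).comp
        (Polynomial.eval₂RingHom (HahnSeries.C : R →+* LaurentSeries R)
          (ModularCurve.qExpand R N (ModularCurve.jqModC R))) := by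
      apply Polynomial.ringHom_ext
      · intro a
        simp only [RingHom.comp_apply, Polynomial.coe_eval₂RingHom, Polynomial.eval₂_C, f, π,
          Polynomial.coe_mapRingHom, Polynomial.map_C]
        show ModularCurve.qExpand κ N (Polynomial.aeval (ModularCurve.jqModC κ)
          (Polynomial.C (ρ a))) = _
        rw [Polynomial.aeval_C, ModularCurve.algebraMap_laurentSeries_eq_single]
        ext n
        rw [ModularCurve.coeffMap_coeff]
        by_cases h : (N : ℤ) ∣ n
        · obtain ⟨m, rfl⟩ := h
          rw [ModularCurve.qExpand_coeff_mul, HahnSeries.C_apply]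
          by_cases hm : m = 0
          · subst hm
            simp
          · rw [HahnSeries.coeff_single_of_ne hm, HahnSeries.coeff_single_of_ne
              (mul_ne_zero (by exact_mod_cast NeZero.ne N) hm), map_zero]
        · rw [ModularCurve.qExpand_coeff_of_not_dvd _ _ h, HahnSeries.C_apply,
            HahnSeries.coeff_single_of_ne (by rintro rfl; exact h (dvd_zero _)), map_zero]
      · simp only [RingHom.comp_apply, Polynomial.coe_eval₂RingHom, Polynomial.eval₂_X, f, π,
          Polynomial.coe_mapRingHom, Polynomial.map_X]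
        show ModularCurve.qExpand κ N (Polynomial.aeval (ModularCurve.jqModC κ) Polynomial.X) = _
        rw [Polynomial.aeval_X, coeffMap_qExpand, coeffMap_jqModC]
    rw [h2, h1]
    refine Finset.prod_congr rfl fun x _ => ?_
    rw [Polynomial.map_sub, Polynomial.map_X, Polynomial.map_C]
  have hqinj : Injective (ModularCurve.qExpand κ N) := (ModularCurve.qExpand κ N).injective
  have hW1' : ModularCurve.coeffMap ρ (W ((1 : SL(2, ℤ)) : XN N)) =
      ModularCurve.qExpand κ N (vS κ N) := by
    rw [hW1, coeffMap_qExpand]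
    congr 1
    exact coeffMap_vS ρ N
  -- integrality
  have hroot : Polynomial.aeval (vS κ N) (Q.map π) = 0 := by
    apply hqinj
    rw [map_zero]
    have h1 : (ModularCurve.qExpand κ N) (Polynomial.aeval (vS κ N) (Q.map π)) =
        ((Q.map π).map f).eval (ModularCurve.qExpand κ N (vS κ N)) := by
      rw [Polynomial.aeval_def, Polynomial.hom_eval₂, Polynomial.eval_map]
      rfl
    rw [h1, hmap, ← hW1', Polynomial.eval_prod]
    refine Finset.prod_eq_zero (Finset.mem_univ ((1 : SL(2, ℤ)) : XN N)) ?_
    simp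
  have hint : IsIntegral A (vS κ N) := ⟨Q.map π, hQm.map π, hroot⟩
  refine ⟨hint, ?_⟩
  have hNpos : 0 < N := Nat.pos_of_ne_zero (NeZero.ne N)
  refine natDegree_eq_card (κ := κ) (s := ((N * Nat.totient N : ℕ) : ℤ)) f ?_
    (minpoly.monic hint) (minpoly.isIntegrallyClosed_dvd hint hroot) ?_
    (fun x => ModularCurve.coeffMap ρ (W x)) hmap ((1 : SL(2, ℤ)) : XN N) ?_ ?_ ?_ ?_
  · intro a ha
    obtain ⟨p, rfl⟩ := e.surjective a
    have hp : IsUnit p := by
      have := ha.map e.symm
      rwa [AlgEquiv.symm_apply_apply] at this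
    obtain ⟨c, hc, rfl⟩ := Polynomial.isUnit_iff.mp hp
    have h1 : f (e (Polynomial.C c)) = HahnSeries.C c := by
      show ModularCurve.qExpand κ N (Polynomial.aeval (ModularCurve.jqModC κ)
          (Polynomial.C c)) = _
      rw [Polynomial.aeval_C, ModularCurve.algebraMap_laurentSeries_eq_single]
      ext n
      by_cases h : (N : ℤ) ∣ n
      · obtain ⟨m, rfl⟩ := h
        rw [ModularCurve.qExpand_coeff_mul, HahnSeries.C_apply]
        by_cases hm : m = 0
        · subst hm
          simp
        · rw [HahnSeries.coeff_single_of_ne hm, HahnSeries.coeff_single_of_ne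
            (mul_ne_zero (by exact_mod_cast NeZero.ne N) hm)]
      · rw [ModularCurve.qExpand_coeff_of_not_dvd _ _ h, HahnSeries.C_apply,
          HahnSeries.coeff_single_of_ne (by rintro rfl; exact h (dvd_zero _))]
    rw [h1, HahnSeries.C_apply]
    exact HahnSeries.order_single hc.ne_zero
  · rw [Polynomial.coeff_map]
    exact hQu.map π
  · rw [Polynomial.IsRoot.def, hW1']
    have h1 : ((minpoly A (vS κ N)).map f).eval (ModularCurve.qExpand κ N (vS κ N)) =
        (ModularCurve.qExpand κ N) (Polynomial.aeval (vS κ N) (minpoly A (vS κ N))) := by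
      rw [Polynomial.aeval_def, Polynomial.hom_eval₂, Polynomial.eval_map]
      rfl
    rw [h1, minpoly.aeval, map_zero]
  · exact_mod_cast Nat.mul_pos hNpos (Nat.totient_pos.mpr hNpos)
  · intro x
    obtain ⟨m, hm⟩ := hW x
    exact (hm.coeffMap ρ).ne_zero
  · intro x hx
    exact ((hWo x hx).coeffMap ρ).order_eq

/-- The powers `1, V, …, V^(n-1)` are linearly independent over `k(j)`. -/
theorem vS_indep (hφ : Injective φ) (hNu : IsUnit (N : R)) {ζ : Rˣ}
    (hζ : φ ζ = Complex.exp (2 * Real.pi * Complex.I / N)) (ρ : R →+* κ)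
    {k : Type*} [Field k] (i : k →+* κ) (p : Polynomial (Polynomial k))
    (hp : p.natDegree < Fintype.card (XN N))
    (h0 : p.eval₂ (Polynomial.eval₂RingHom (HahnSeries.C : k →+* LaurentSeries k)
      (ModularCurve.jqModC k)) (vS k N) = 0) : p = 0 := by
  obtain ⟨hint, hdeg⟩ := minpoly_vS hφ hNu hζ ρ
  set A := Algebra.adjoin κ {ModularCurve.jqModC κ} with hA
  let e : Polynomial κ ≃ₐ[κ] A := polyEquivAdjoin _ (aeval_jq_injective κ)
  haveI : IsIntegrallyClosed A := IsIntegrallyClosed.of_equiv e.toRingEquiv
  let π : Polynomial k →+* A := (e : Polynomial κ →+* A).comp (Polynomial.mapRingHom i)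
  have hπ : Injective π := e.injective.comp (Polynomial.map_injective i i.injective)
  by_contra hne
  have hroot : Polynomial.aeval (vS κ N) (p.map π) = 0 := by
    have h1 := congrArg (ModularCurve.coeffMap i) h0
    rw [map_zero, Polynomial.hom_eval₂, coeffMap_vS] at h1
    rw [Polynomial.aeval_def, Polynomial.eval₂_map, ← h1]
    congr 1
    apply Polynomial.ringHom_ext
    · intro a
      simp only [RingHom.comp_apply, Polynomial.coe_eval₂RingHom, Polynomial.eval₂_C, π,
        Polynomial.coe_mapRingHom, Polynomial.map_C]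
      show Polynomial.aeval (ModularCurve.jqModC κ) (Polynomial.C (i a)) = _
      rw [Polynomial.aeval_C, ModularCurve.algebraMap_laurentSeries_eq_single]
      ext n
      rw [ModularCurve.coeffMap_coeff, HahnSeries.C_apply]
      by_cases hn : n = 0
      · subst hn; simp
      · rw [HahnSeries.coeff_single_of_ne hn, HahnSeries.coeff_single_of_ne hn, map_zero]
    · simp only [RingHom.comp_apply, Polynomial.coe_eval₂RingHom, Polynomial.eval₂_X, π,
        Polynomial.coe_mapRingHom, Polynomial.map_X]
      show Polynomial.aeval (ModularCurve.jqModC κ) Polynomial.X = _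
      rw [Polynomial.aeval_X, coeffMap_jqModC]
  have hdvd := minpoly.isIntegrallyClosed_dvd hint hroot
  have hne' : p.map π ≠ 0 := (Polynomial.map_ne_zero_iff hπ).mpr hne
  have h2 := Polynomial.natDegree_le_of_dvd hdvd hne'
  rw [hdeg, Polynomial.natDegree_map_eq_of_injective hπ] at h2
  omega

end Main

end Fermat.Agent.ModFun
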