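import Mathlib
import Fermat.Agent.ModFun.JOrder
import Fermat.Agent.ModFun.Level

/-!
The elliptic points `i` and `ρ`, rotations.
-/

set_option autoImplicit false

noncomputable section

namespace Fermat.Agent.ModFun

open UpperHalfPlane hiding I
open Complex Function Filter Topology ModularForm
open scoped Manifold MatrixGroups ModularForm

/-- The action of a stabilizer in the disk coordinate. -/
theorem sD_smul {h : SL(2, ℤ)} {τ₀ : ℍ} (hfix : h • τ₀ = τ₀) (τ : ℍ) :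
    sD τ₀ (h • τ) = (((h 0 0 : ℂ) - h 1 0 * τ₀) /
      ((h 0 0 : ℂ) - h 1 0 * (starRingEnd ℂ) (τ₀ : ℂ))) * sD τ₀ τ := by
  have hdet := h.det_coe
  rw [Matrix.det_fin_two] at hdet
  have hdet' : (h 0 0 : ℂ) * h 1 1 - h 0 1 * h 1 0 = 1 := by exact_mod_cast hdet
  have h1 : (h 0 0 : ℂ) * τ₀ + h 0 1 = τ₀ * (h 1 0 * τ₀ + h 1 1) := by
    have := congrArg UpperHalfPlane.coe hfix
    rw [coe_smul_SL, div_eq_iff (denom_SL_ne_zero h τ₀)] at this
    exact this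
  have h2 : (h 0 0 : ℂ) * (starRingEnd ℂ) (τ₀ : ℂ) + h 0 1 =
      (starRingEnd ℂ) (τ₀ : ℂ) * (h 1 0 * (starRingEnd ℂ) (τ₀ : ℂ) + h 1 1) := by
    have := congrArg (starRingEnd ℂ) h1
    simpa using this
  have h3 : ((h 0 0 : ℂ) - h 1 0 * τ₀) * (h 1 0 * τ₀ + h 1 1) = 1 := by
    linear_combination hdet' + (h 1 0 : ℂ) * h1
  have h4 : (h 0 0 : ℂ) - h 1 0 * (starRingEnd ℂ) (τ₀ : ℂ) ≠ 0 := by
    intro h0
    have h5 := congrArg (starRingEnd ℂ) h0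
    simp only [map_sub, map_mul, Complex.conj_conj, map_zero, map_intCast] at h5
    rw [h5, zero_mul] at h3
    exact zero_ne_one h3
  have h6 := denom_SL_ne_zero h τ
  have h7 := sub_conj_ne_zero τ₀ τ
  have h8 := sub_conj_ne_zero τ₀ (h • τ)
  rw [coe_smul_SL] at h8
  rw [sD, sD, coe_smul_SL]
  have e1 : ((h 0 0 : ℂ) * τ + h 0 1) / (h 1 0 * τ + h 1 1) - τ₀ =
      ((h 0 0 : ℂ) - h 1 0 * τ₀) * (τ - τ₀) / (h 1 0 * τ + h 1 1) := by
    rw [eq_div_iff h6, sub_mul, div_mul_cancel₀ _ h6]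
    linear_combination h1
  have e2 : ((h 0 0 : ℂ) * τ + h 0 1) / (h 1 0 * τ + h 1 1) - (starRingEnd ℂ) (τ₀ : ℂ) =
      ((h 0 0 : ℂ) - h 1 0 * (starRingEnd ℂ) (τ₀ : ℂ)) * (τ - (starRingEnd ℂ) (τ₀ : ℂ)) /
        (h 1 0 * τ + h 1 1) := by
    rw [eq_div_iff h6, sub_mul, div_mul_cancel₀ _ h6]
    linear_combination h2
  rw [e1, e2]
  field_simp

/-- the point `ρ = exp(2πi/3)` -/
def ρ : ℍ := ⟨-1 / 2 + (Real.sqrt 3 / 2 : ℝ) * Complex.I, by
  simp⟩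

theorem ρ_sq : (ρ : ℂ) ^ 2 + ρ + 1 = 0 := by
  have h : ((Real.sqrt 3 : ℝ) : ℂ) ^ 2 = 3 := by
    rw [← Complex.ofReal_pow, Real.sq_sqrt (by norm_num)]
    norm_num
  show (-1 / 2 + ((Real.sqrt 3 / 2 : ℝ) : ℂ) * Complex.I) ^ 2 +
    (-1 / 2 + ((Real.sqrt 3 / 2 : ℝ) : ℂ) * Complex.I) + 1 = 0
  push_cast
  linear_combination (1 / 4 * Complex.I ^ 2) * h + 3 / 4 * Complex.I_sq

theorem ρ_conj : (starRingEnd ℂ) (ρ : ℂ) = -1 - ρ := by
  show (starRingEnd ℂ) (-1 / 2 + ((Real.sqrt 3 / 2 : ℝ) : ℂ) * Complex.I) =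
    -1 - (-1 / 2 + ((Real.sqrt 3 / 2 : ℝ) : ℂ) * Complex.I)
  simp only [map_add, map_mul, Complex.conj_ofReal, Complex.conj_I, map_div₀, map_neg, map_one,
    map_ofNat]
  ring

theorem ST_entries : (ModularGroup.S * ModularGroup.T) 0 0 = 0 ∧
    (ModularGroup.S * ModularGroup.T) 0 1 = -1 ∧ (ModularGroup.S * ModularGroup.T) 1 0 = 1 ∧
    (ModularGroup.S * ModularGroup.T) 1 1 = 1 := by
  refine ⟨?_, ?_, ?_, ?_⟩ <;>
  simp [ModularGroup.coe_S, ModularGroup.coe_T, Matrix.SpecialLinearGroup.coe_mul,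
    Matrix.mul_apply, Fin.sum_univ_two]

theorem S_entries : ModularGroup.S 0 0 = 0 ∧
    ModularGroup.S 0 1 = -1 ∧ ModularGroup.S 1 0 = 1 ∧
    ModularGroup.S 1 1 = 0 := by
  refine ⟨?_, ?_, ?_, ?_⟩ <;> simp [ModularGroup.coe_S]

theorem ST_smul_ρ : (ModularGroup.S * ModularGroup.T) • ρ = ρ := by
  apply UpperHalfPlane.ext
  obtain ⟨h1, h2, h3, h4⟩ := ST_entries
  have h5 := denom_SL_ne_zero (ModularGroup.S * ModularGroup.T) ρ
  rw [coe_smul_SL, div_eq_iff h5, h1, h2, h3, h4]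
  push_cast
  linear_combination -ρ_sq

theorem S_smul_I : ModularGroup.S • UpperHalfPlane.I = UpperHalfPlane.I := by
  apply UpperHalfPlane.ext
  obtain ⟨h1, h2, h3, h4⟩ := S_entries
  have h5 := denom_SL_ne_zero ModularGroup.S UpperHalfPlane.I
  rw [coe_smul_SL, div_eq_iff h5, h1, h2, h3, h4, UpperHalfPlane.coe_I]
  push_cast
  linear_combination -Complex.I_sq

theorem E₄_ρ : E₄ ρ = 0 := by
  have h := smul_of_SL E₄ (ModularGroup.S * ModularGroup.T) ρ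
  rw [ST_smul_ρ, ModularGroup.denom_apply] at h
  obtain ⟨h1, h2, h3, h4⟩ := ST_entries
  rw [h3, h4] at h
  have h5 : (((1 : ℤ) : ℂ) * ρ + ((1 : ℤ) : ℂ)) ^ (4 : ℤ) = (ρ : ℂ) ^ 2 := by
    rw [show (4 : ℤ) = ((4 : ℕ) : ℤ) from rfl, zpow_natCast]
    push_cast
    linear_combination ((ρ : ℂ) ^ 2 + 3 * ρ + 1) * ρ_sq
  rw [h5] at h
  have h6 : (1 - (ρ : ℂ) ^ 2) * E₄ ρ = 0 := by linear_combination h
  rcases mul_eq_zero.mp h6 with h7 | h7
  · exfalso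
    have h8 : (ρ : ℂ) + 2 = 0 := by linear_combination h7 + ρ_sq
    have h9 := congrArg Complex.im h8
    have h10 := ρ.im_pos
    simp at h9
    linarith
  · exact h7

theorem E₆_I : E₆ UpperHalfPlane.I = 0 := by
  have h := smul_of_SL E₆ ModularGroup.S UpperHalfPlane.I
  rw [S_smul_I, ModularGroup.denom_S, UpperHalfPlane.coe_I] at h
  have h5 : Complex.I ^ (6 : ℤ) = -1 := by
    rw [show (6 : ℤ) = ((6 : ℕ) : ℤ) from rfl, zpow_natCast]
    have := Complex.I_sq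
    calc Complex.I ^ 6 = (Complex.I ^ 2) ^ 3 := by ring
      _ = -1 := by rw [this]; norm_num
  rw [h5] at h
  have h6 : 2 * E₆ UpperHalfPlane.I = 0 := by linear_combination h
  simpa using h6

/-- the rotation at `i` -/
theorem sD_S (τ : ℍ) : sD UpperHalfPlane.I (ModularGroup.S • τ) = ((-1 : ℂˣ) : ℂ) *
    sD UpperHalfPlane.I τ := by
  rw [sD_smul S_smul_I]
  obtain ⟨h1, h2, h3, h4⟩ := S_entries
  rw [h1, h3, UpperHalfPlane.coe_I]
  have := Complex.I_ne_zero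
  push_cast
  congr 1
  simp [Complex.conj_I]

theorem isPrimitiveRoot_S : IsPrimitiveRoot ((-1 : ℂˣ) : ℂ) 2 := by
  simpa using IsPrimitiveRoot.neg_one 0 (by norm_num) |> fun h : IsPrimitiveRoot (-1 : ℂ) 2 => h

theorem ρ_ne_zero : (ρ : ℂ) ≠ 0 := by
  intro h
  have := ρ_sq
  rw [h] at this
  norm_num at this

theorem exists_rotation_ρ : ∃ u : ℂˣ, IsPrimitiveRoot (u : ℂ) 3 ∧
    ∀ τ, sD ρ ((ModularGroup.S * ModularGroup.T) • τ) = (u : ℂ) * sD ρ τ := by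
  have hρ := ρ_sq
  have h0 := ρ_ne_zero
  have h3 : (ρ : ℂ) ^ 3 = 1 := by linear_combination ((ρ : ℂ) - 1) * hρ
  have hu : (ρ : ℂ) ^ 2 ≠ 0 := pow_ne_zero _ h0
  refine ⟨Units.mk0 ((ρ : ℂ) ^ 2) hu, ?_, ?_⟩
  · rw [Units.val_mk0]
    refine IsPrimitiveRoot.iff_def _ _ |>.mpr ⟨?_, ?_⟩
    · calc ((ρ : ℂ) ^ 2) ^ 3 = ((ρ : ℂ) ^ 3) ^ 2 := by ring
        _ = 1 := by rw [h3, one_pow]
    · intro l hl
      have h4 : (ρ : ℂ) ^ 2 ≠ 1 := by
        intro h7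
        have h8 : (ρ : ℂ) + 2 = 0 := by linear_combination hρ - h7
        have h9 := congrArg Complex.im h8
        have h10 := ρ.im_pos
        simp at h9
        linarith
      have h5 : orderOf ((ρ : ℂ) ^ 2) = 3 := by
        haveI : Fact (Nat.Prime 3) := ⟨by norm_num⟩
        refine orderOf_eq_prime ?_ h4
        calc ((ρ : ℂ) ^ 2) ^ 3 = ((ρ : ℂ) ^ 3) ^ 2 := by ring
          _ = 1 := by rw [h3, one_pow]
      rw [← h5]
      exact orderOf_dvd_of_pow_eq_one hl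
  · intro τ
    rw [sD_smul ST_smul_ρ, Units.val_mk0]
    obtain ⟨h1, h2, h3', h4⟩ := ST_entries
    rw [h1, h3', ρ_conj]
    congr 1
    have h5 : (-1 - (ρ : ℂ)) = (ρ : ℂ) ^ 2 := by linear_combination -hρ
    push_cast
    rw [h5, zero_sub, zero_sub, one_mul, one_mul, neg_div_neg_eq, div_eq_iff hu]
    linear_combination -(ρ : ℂ) * h3

end Fermat.Agent.ModFun
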