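import Mathlib
import Fermat.Agent.ModFun.Embed

/-!
The degree of the function field of `X₀(N)` over the field of rational functions in `j`.
-/

set_option autoImplicit false

noncomputable section

namespace Fermat.Agent.ModFun

open UpperHalfPlane hiding I
open Complex Function Filter Topology ModularForm IntermediateField
open scoped Manifold MatrixGroups ModularForm IntermediateField.algebraAdjoinAdjoin

variable {K : Type*} [Field K] {N : ℕ} [NeZero N] {ι : K →+* ℂ} {ζ : Kˣ}

theorem transcendental_jF [IsAlgClosed K] : Transcendental K (jF K N) := by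
  intro h
  obtain ⟨c, hc⟩ := Fermat.Agent.FunField.mem_range_of_isAlgebraic h
  have h1 : algebraMap K (LaurentSeries K) c = ModularCurve.jqModC K :=
    congrArg (fun z : F0 K N => (z : LaurentSeries K)) hc
  rw [ModularCurve.algebraMap_laurentSeries_eq_single] at h1
  have h2 := congrArg (fun G : LaurentSeries K => G.coeff (-1)) h1
  simp only [HahnSeries.coeff_single_of_ne (show (-1 : ℤ) ≠ 0 by norm_num)] at h2
  have h3 := coeff_jqModC_pow_self' (R := K) 1
  rw [pow_one, Nat.cast_one] at h3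
  rw [h3] at h2
  exact zero_ne_one h2

/-- Elements of `A₀` satisfy monic polynomials of degree `n` over `K(j)`. -/
theorem exists_monic_of_A0 (hζ : ι ζ = Complex.exp (2 * Real.pi * Complex.I / N)) (F : A0 K N) :
    ∃ Q : Polynomial K⟮jF K N⟯, Q.Monic ∧ Q.natDegree = Fintype.card (XN N) ∧
      Polynomial.aeval (algebraMap (A0 K N) (F0 K N) F) Q = 0 := by
  obtain ⟨Q, hm, hn, hQ⟩ := exists_aeval_eq_zero hζ (adjoin_le_holAlg hζ F.2)
  let u : Polynomial K →+* K⟮jF K N⟯ :=
    (Polynomial.aeval (R := K) (AdjoinSimple.gen K (jF K N))).toRingHom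
  refine ⟨Q.map u, hm.map u, by rw [hm.natDegree_map, hn], ?_⟩
  apply Subtype.ext
  rw [Polynomial.aeval_def, Polynomial.eval₂_map]
  have h1 := Polynomial.hom_eval₂ Q ((algebraMap K⟮jF K N⟯ (F0 K N)).comp u)
    (algebraMap (F0 K N) (LaurentSeries K)) (algebraMap (A0 K N) (F0 K N) F)
  have h2 : (algebraMap (F0 K N) (LaurentSeries K)).comp ((algebraMap K⟮jF K N⟯ (F0 K N)).comp u) =
      (Polynomial.aeval (R := K) (ModularCurve.jqModC K)).toRingHom := by
    apply Polynomial.ringHom_ext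
    · intro a
      simp only [RingHom.comp_apply, u, AlgHom.toRingHom_eq_coe, RingHom.coe_coe,
        Polynomial.aeval_C]
      rfl
    · simp only [RingHom.comp_apply, u, AlgHom.toRingHom_eq_coe, RingHom.coe_coe,
        Polynomial.aeval_X]
      rfl
  rw [h2] at h1
  exact h1.trans hQ

theorem isIntegral_A0 (hζ : ι ζ = Complex.exp (2 * Real.pi * Complex.I / N)) (F : A0 K N) :
    IsIntegral K⟮jF K N⟯ (algebraMap (A0 K N) (F0 K N) F) := by
  obtain ⟨Q, hm, -, hQ⟩ := exists_monic_of_A0 hζ F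
  exact ⟨Q, hm, hQ⟩

variable (K N) in
/-- the generators as elements of `F₀` -/
def gensF : Set (F0 K N) := {x | (x : LaurentSeries K) ∈ gens K N}

theorem mem_algebra_adjoin_gensF (F : A0 K N) :
    algebraMap (A0 K N) (F0 K N) F ∈ Algebra.adjoin K⟮jF K N⟯ (gensF K N) := by
  have h : ∀ (x : LaurentSeries K), x ∈ A0 K N → ∃ y : F0 K N, (y : LaurentSeries K) = x ∧
      y ∈ Algebra.adjoin K⟮jF K N⟯ (gensF K N) := by
    intro x hxA
    induction hxA using Algebra.adjoin_induction with
    | mem x hx =>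
      exact ⟨⟨x, subset_adjoin K _ hx⟩, rfl, Algebra.subset_adjoin hx⟩
    | algebraMap r =>
      refine ⟨algebraMap K⟮jF K N⟯ (F0 K N) (algebraMap K K⟮jF K N⟯ r), ?_,
        Subalgebra.algebraMap_mem _ _⟩
      rw [← IsScalarTower.algebraMap_apply K K⟮jF K N⟯ (F0 K N)]
      rfl
    | add x y hx hy h1 h2 =>
      obtain ⟨x', hx1, hx2⟩ := h1
      obtain ⟨y', hy1, hy2⟩ := h2
      refine ⟨x' + y', ?_, add_mem hx2 hy2⟩
      rw [IntermediateField.coe_add, hx1, hy1]
    | mul x y hx hy h1 h2 =>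
      obtain ⟨x', hx1, hx2⟩ := h1
      obtain ⟨y', hy1, hy2⟩ := h2
      refine ⟨x' * y', ?_, mul_mem hx2 hy2⟩
      rw [IntermediateField.coe_mul, hx1, hy1]
  obtain ⟨y, hy1, hy2⟩ := h F F.2
  have h3 : algebraMap (A0 K N) (F0 K N) F = y := Subtype.ext hy1.symm
  rw [h3]
  exact hy2

theorem adjoin_gensF : IntermediateField.adjoin K⟮jF K N⟯ (gensF K N) = ⊤ := by
  rw [eq_top_iff]
  intro x _
  obtain ⟨a, b, hb, rfl⟩ := IsFractionRing.div_surjective (A := A0 K N) x
  exact div_mem (IntermediateField.algebra_adjoin_le_adjoin _ _ (mem_algebra_adjoin_gensF a))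
    (IntermediateField.algebra_adjoin_le_adjoin _ _ (mem_algebra_adjoin_gensF b))

theorem finiteDimensional_F0 (hζ : ι ζ = Complex.exp (2 * Real.pi * Complex.I / N)) :
    FiniteDimensional K⟮jF K N⟯ (F0 K N) := by
  have hfin : (gensF K N).Finite :=
    (finite_gens (K := K) (N := N)).preimage Subtype.val_injective.injOn
  have h1 : FiniteDimensional K⟮jF K N⟯ (IntermediateField.adjoin K⟮jF K N⟯ (gensF K N)) := by
    have : Finite (gensF K N) := hfin
    refine IntermediateField.finiteDimensional_adjoin fun x hx => ?_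
    have h2 := isIntegral_A0 hζ ⟨(x : LaurentSeries K), Algebra.subset_adjoin hx⟩
    exact h2
  rw [adjoin_gensF] at h1
  exact (IntermediateField.topEquiv (F := K⟮jF K N⟯) (E := F0 K N)).toLinearEquiv.finiteDimensional

theorem algebraMap_aeval_jA (p : Polynomial K) :
    algebraMap (A0 K N) (F0 K N) (Polynomial.aeval (jA K N) p) = Polynomial.aeval (jF K N) p := by
  rw [← Polynomial.aeval_algebraMap_apply]
  rfl

theorem exists_mul_mem_A0 (hζ : ι ζ = Complex.exp (2 * Real.pi * Complex.I / N)) (x : F0 K N) :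
    ∃ p : Polynomial K, Polynomial.aeval (jF K N) p ≠ 0 ∧
      ∃ a : A0 K N, Polynomial.aeval (jF K N) p * x = algebraMap (A0 K N) (F0 K N) a := by
  haveI := finiteDimensional_F0 hζ
  have hx : x ∈ Algebra.adjoin K⟮jF K N⟯ (gensF K N) := by
    rw [← IntermediateField.adjoin_toSubalgebra_of_isAlgebraic
      (fun x _ => (Algebra.IsIntegral.isIntegral (R := K⟮jF K N⟯) x).isAlgebraic), adjoin_gensF]
    trivial
  induction hx using Algebra.adjoin_induction with
  | mem x hx =>
    refine ⟨1, by simp, ⟨(x : LaurentSeries K), Algebra.subset_adjoin hx⟩, ?_⟩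
    rw [map_one, one_mul]
    rfl
  | algebraMap r =>
    obtain ⟨p, q, hpq⟩ := (IntermediateField.mem_adjoin_simple_iff K _).mp r.2
    by_cases hq : Polynomial.aeval (jF K N) q = 0
    · refine ⟨1, by simp, 0, ?_⟩
      rw [hq, div_zero] at hpq
      rw [map_one, one_mul, map_zero]
      exact hpq
    · refine ⟨q, hq, Polynomial.aeval (jA K N) p, ?_⟩
      rw [algebraMap_aeval_jA]
      have h1 : algebraMap K⟮jF K N⟯ (F0 K N) r = (r : F0 K N) := rfl
      rw [h1, hpq]
      field_simp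
  | add x y hx hy h1 h2 =>
    obtain ⟨p, hp, a, ha⟩ := h1
    obtain ⟨q, hq, b, hb⟩ := h2
    refine ⟨p * q, by rw [map_mul]; exact mul_ne_zero hp hq,
      Polynomial.aeval (jA K N) q * a + Polynomial.aeval (jA K N) p * b, ?_⟩
    rw [map_add, map_mul, map_mul, map_mul, algebraMap_aeval_jA, algebraMap_aeval_jA, ← ha, ← hb]
    ring
  | mul x y hx hy h1 h2 =>
    obtain ⟨p, hp, a, ha⟩ := h1
    obtain ⟨q, hq, b, hb⟩ := h2
    refine ⟨p * q, by rw [map_mul]; exact mul_ne_zero hp hq, a * b, ?_⟩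
    rw [map_mul, map_mul, ← ha, ← hb]
    ring

theorem finrank_le (hζ : ι ζ = Complex.exp (2 * Real.pi * Complex.I / N)) [CharZero K] :
    Module.finrank K⟮jF K N⟯ (F0 K N) ≤ Fintype.card (XN N) := by
  haveI := finiteDimensional_F0 hζ
  obtain ⟨θ, hθ⟩ := Field.exists_primitive_element K⟮jF K N⟯ (F0 K N)
  obtain ⟨p, hp, a, ha⟩ := exists_mul_mem_A0 hζ θ
  set a' : F0 K N := algebraMap (A0 K N) (F0 K N) a with ha'
  have h1 : IntermediateField.adjoin K⟮jF K N⟯ {a'} = ⊤ := by
    rw [eq_top_iff, ← hθ, IntermediateField.adjoin_simple_le_iff]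
    have h2 : θ = a' / Polynomial.aeval (jF K N) p := by
      rw [← ha]
      field_simp
    rw [h2]
    refine div_mem (IntermediateField.mem_adjoin_simple_self _ _) ?_
    have h3 : Polynomial.aeval (jF K N) p =
        algebraMap K⟮jF K N⟯ (F0 K N) (Polynomial.aeval (AdjoinSimple.gen K (jF K N)) p) := by
      rw [← Polynomial.aeval_algebraMap_apply]
      rfl
    rw [h3]
    exact IntermediateField.algebraMap_mem _ _
  have h2 := (Field.primitive_element_iff_minpoly_natDegree_eq K⟮jF K N⟯ a').mp h1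
  rw [← h2]
  obtain ⟨Q, hm, hn, hQ⟩ := exists_monic_of_A0 hζ a
  rw [← hn]
  exact Polynomial.natDegree_le_of_dvd (minpoly.dvd _ _ hQ) hm.ne_zero

theorem embF_aeval {s : ℍ → ℂ} (D : ExpData ι N s)
    (hζ : ι ζ = Complex.exp (2 * Real.pi * Complex.I / N)) (x y : XN N) (p : Polynomial K) :
    embF D hζ x (Polynomial.aeval (jF K N) p) = embF D hζ y (Polynomial.aeval (jF K N) p) := by
  obtain ⟨G, hG⟩ := D.exists_exp J (by
    have := Jd_mem_modFun (N := N) (d := 1) (one_dvd N) hζ
    have h2 : Jd 1 = J := by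
      funext τ
      rw [Jd]
      congr 1
      apply UpperHalfPlane.ext
      rw [coe_tri]
      simp
    rwa [h2] at this)
  have h3 : (embF D hζ x).comp (algebraMap K (F0 K N)) =
      (embF D hζ y).comp (algebraMap K (F0 K N)) := by
    ext1 a
    simp only [RingHom.comp_apply]
    rw [embF_algebraMap_base, embF_algebraMap_base]
  rw [Polynomial.aeval_def, Polynomial.hom_eval₂, Polynomial.hom_eval₂, h3, embF_jF D hζ x hG,
    embF_jF D hζ y hG]

theorem embF_adjoin {s : ℍ → ℂ} (D : ExpData ι N s)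
    (hζ : ι ζ = Complex.exp (2 * Real.pi * Complex.I / N)) (x y : XN N) (r : K⟮jF K N⟯) :
    embF D hζ x (r : F0 K N) = embF D hζ y (r : F0 K N) := by
  obtain ⟨p, q, hpq⟩ := (IntermediateField.mem_adjoin_simple_iff K _).mp r.2
  rw [hpq, map_div₀, map_div₀, embF_aeval D hζ x y, embF_aeval D hζ x y]

theorem le_finrank (hζ : ι ζ = Complex.exp (2 * Real.pi * Complex.I / N)) :
    Fintype.card (XN N) ≤ Module.finrank K⟮jF K N⟯ (F0 K N) := by
  haveI := finiteDimensional_F0 hζ
  have D : ExpData ι N (qN N) := expData_qN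
  let x₀ : XN N := ((1 : SL(2, ℤ)) : XN N)
  letI : Algebra K⟮jF K N⟯ (LaurentSeries ℂ) :=
    ((embF D hζ x₀).comp (algebraMap K⟮jF K N⟯ (F0 K N))).toAlgebra
  let ψ : XN N → (F0 K N →ₐ[K⟮jF K N⟯] LaurentSeries ℂ) := fun x =>
    { embF D hζ x with
      commutes' := fun r => embF_adjoin D hζ x x₀ r }
  have hψ : Injective ψ := by
    intro x y hxy
    apply embF_injective D hζ
    ext1 F
    exact congrArg (fun f : F0 K N →ₐ[K⟮jF K N⟯] LaurentSeries ℂ => f F) hxy
  have h1 := card_algHom_le_finrank K⟮jF K N⟯ (F0 K N) (LaurentSeries ℂ)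
  have h2 := Nat.card_le_card_of_injective ψ hψ
  rw [Nat.card_eq_fintype_card] at h2
  exact h2.trans h1

theorem finrank_eq (hζ : ι ζ = Complex.exp (2 * Real.pi * Complex.I / N)) [CharZero K] :
    Module.finrank K⟮jF K N⟯ (F0 K N) = Fintype.card (XN N) :=
  le_antisymm (finrank_le hζ) (le_finrank hζ)

end Fermat.Agent.ModFun
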