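import Mathlib
import Fermat.Agent.ModFun.Degree
import Fermat.Agent.Gamma0Comb.Genus

/-!
Counting the places of the function field of `X₀(N)` above a point of the `j`-line.
-/

set_option autoImplicit false

noncomputable section

namespace Fermat.Agent.ModFun

open UpperHalfPlane hiding I
open Complex Function Filter Topology ModularForm IntermediateField AlgebraicCurve
open scoped Manifold MatrixGroups ModularForm IntermediateField.algebraAdjoinAdjoin
open Fermat.Agent.Gamma0Comb (rep cyc)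

variable {K : Type*} [Field K] [IsAlgClosed K] [CharZero K] {N : ℕ} [NeZero N] {ι : K →+* ℂ}
  {ζ : Kˣ}

theorem exists_places {s : ℍ → ℂ} (D : ExpData ι N s)
    (hζ : ι ζ = Complex.exp (2 * Real.pi * Complex.I / N)) (h : SL(2, ℤ)) (u : ℂˣ)
    (hu : ∀ τ, s (h • τ) = u * s τ) {m : ℕ} (hm : 0 < m) (hprim : IsPrimitiveRoot (u : ℂ) m)
    {t : F0 K N} (ht : Transcendental K t) (htL : K⟮t⟯ = K⟮jF K N⟯)
    {G : LaurentSeries ℂ} (hG : ∀ x, embF D hζ x t = G) (hG0 : G.order = m) :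
    ∃ p : XN N → Place K (F0 K N), (∀ x, 0 < (p x).ord t) ∧
      (∀ v : Place K (F0 K N), 0 < v.ord t → ∃ x, p x = v) ∧
      (∀ x y, p x = p y ↔ (rep N h⁻¹).SameCycle x y) ∧
      ∀ v : Place K (F0 K N), 0 < v.ord t → (Nat.card {x // p x = v} : ℤ) = v.ord t := by
  classical
  haveI : FiniteDimensional K⟮t⟯ (F0 K N) := by
    rw [htL]
    exact finiteDimensional_F0 hζ
  haveI : Algebra.IsSeparable K⟮t⟯ (F0 K N) := inferInstance
  have hX : Fintype.card (XN N) = Module.finrank K⟮t⟯ (F0 K N) := by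
    rw [htL]
    exact (finrank_eq hζ).symm
  refine Fermat.Agent.FunField.exists_place_map_orbit ht hX (embF D hζ) (embF_injective D hζ)
    (fun a => HahnSeries.C (ι a)) (fun x a => embF_algebraMap_base D hζ x a) (fun a => ?_) G hG hm
    hG0 hprim (rep N h⁻¹) (fun x f k => ?_)
  · by_cases ha : ι a = 0
    · rw [ha, map_zero, HahnSeries.orderTop_zero]
      exact le_top
    · rw [HahnSeries.C_apply, HahnSeries.orderTop_single ha]
      rfl
  · have h1 := embF_smul D hζ h hu x f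
    have h2 : rep N h⁻¹ x = h⁻¹ • x := rfl
    rw [h2, h1, twist_coeff, Units.val_zpow_eq_zpow_val]

theorem natCard_eq_cyc {s : ℍ → ℂ} (D : ExpData ι N s)
    (hζ : ι ζ = Complex.exp (2 * Real.pi * Complex.I / N)) (h : SL(2, ℤ)) (u : ℂˣ)
    (hu : ∀ τ, s (h • τ) = u * s τ) {m : ℕ} (hm : 0 < m) (hprim : IsPrimitiveRoot (u : ℂ) m)
    {t : F0 K N} (ht : Transcendental K t) (htL : K⟮t⟯ = K⟮jF K N⟯)
    {G : LaurentSeries ℂ} (hG : ∀ x, embF D hζ x t = G) (hG0 : G.order = m) :
    Nat.card {v : Place K (F0 K N) // 0 < v.ord t} = cyc (rep N h) := by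
  obtain ⟨p, h1, h2, h3, h4⟩ := exists_places D hζ h u hu hm hprim ht htL hG hG0
  have h5 : ∀ x y, p x = p y ↔ (rep N h).SameCycle x y := by
    intro x y
    rw [h3, map_inv, Equiv.Perm.sameCycle_inv]
  symm
  refine Nat.card_congr (Equiv.ofBijective (fun q : Quotient (Equiv.Perm.SameCycle.setoid (rep N h)) =>
    (Quotient.lift (fun x => (⟨p x, h1 x⟩ : {v : Place K (F0 K N) // 0 < v.ord t}))
      (fun x y hxy => Subtype.ext ((h5 x y).mpr hxy)) q)) ⟨?_, ?_⟩)
  · intro q q' hqq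
    induction q using Quotient.inductionOn with
    | _ x =>
    induction q' using Quotient.inductionOn with
    | _ y =>
    have h6 : p x = p y := congrArg Subtype.val hqq
    exact Quotient.sound ((h5 x y).mp h6)
  · rintro ⟨v, hv⟩
    obtain ⟨x, rfl⟩ := h2 v hv
    exact ⟨Quotient.mk _ x, rfl⟩

/-- order one when there is no stabilizer -/
theorem ord_eq_one {s : ℍ → ℂ} (D : ExpData ι N s)
    (hζ : ι ζ = Complex.exp (2 * Real.pi * Complex.I / N))
    {t : F0 K N} (ht : Transcendental K t) (htL : K⟮t⟯ = K⟮jF K N⟯)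
    {G : LaurentSeries ℂ} (hG : ∀ x, embF D hζ x t = G) (hG0 : G.order = 1)
    (v : Place K (F0 K N)) (hv : 0 < v.ord t) : v.ord t = 1 := by
  obtain ⟨p, h1, h2, h3, h4⟩ := exists_places D hζ 1 1 (fun τ => by simp) one_pos
    (by simp) ht htL hG (by simpa using hG0)
  rw [← h4 v hv]
  obtain ⟨x, hx⟩ := h2 v hv
  have h5 : Nat.card {y // p y = v} = 1 := by
    rw [Nat.card_eq_one_iff_unique]
    refine ⟨⟨fun a b => ?_⟩, ⟨⟨x, hx⟩⟩⟩
    have h6 := (h3 a.1 b.1).mp (a.2.trans b.2.symm)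
    rw [inv_one, map_one, Equiv.Perm.sameCycle_one] at h6
    exact Subtype.ext h6
  rw [h5]
  rfl

end Fermat.Agent.ModFun
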