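import Mathlib
import Fermat.Agent.ModFun.PlacesCount
import Fermat.Agent.ModFun.Elliptic
import Fermat.Prelude.Def_AlgebraicCurve_CanonicalDivisor

/-!
The genus of `X₀(N)`.
-/

set_option autoImplicit false

noncomputable section

namespace Fermat.Agent.ModFun

open UpperHalfPlane hiding I
open Complex Function Filter Topology ModularForm IntermediateField AlgebraicCurve
open scoped Manifold MatrixGroups ModularForm IntermediateField.algebraAdjoinAdjoin
open Fermat.Agent.Gamma0Comb (rep cyc)

theorem order_eq_of_coeff {R : Type*} [CommRing R] {F : LaurentSeries R} {n : ℤ}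
    (h : F.coeff n ≠ 0) (h0 : ∀ m < n, F.coeff m = 0) : F.order = n := by
  refine le_antisymm (HahnSeries.order_le_of_coeff_ne_zero h) ?_
  by_contra hlt
  push Not at hlt
  have hF : F ≠ 0 := by
    rintro rfl
    exact h rfl
  exact HahnSeries.coeff_order_eq_zero.not.2 hF (h0 _ hlt)

theorem order_ofPowerSeries {P : PowerSeries ℂ} {n : ℕ} (h : P.order = n) :
    (HahnSeries.ofPowerSeries ℤ ℂ P).order = n := by
  rw [PowerSeries.order_eq_nat] at h
  refine order_eq_of_coeff ?_ ?_
  · rw [HahnSeries.ofPowerSeries_apply_coeff]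
    exact h.1
  · intro m hm
    rcases lt_or_ge m 0 with h1 | h1
    · exact ModularCurve.ofPowerSeries_coeff_of_neg _ h1
    · lift m to ℕ using h1
      rw [HahnSeries.ofPowerSeries_apply_coeff]
      exact h.2 m (by exact_mod_cast hm)

variable {K : Type*} [Field K] [IsAlgClosed K] [CharZero K] {N : ℕ} [NeZero N] {ι : K →+* ℂ}
  {ζ : Kˣ}

theorem transcendental_inv {F : Type*} [Field F] [Algebra K F] {x : F} (hx : Transcendental K x) :
    Transcendental K x⁻¹ := by
  intro h
  apply hx
  have := h.inv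
  rwa [inv_inv] at this

theorem embF_jF_sub (hζ : ι ζ = Complex.exp (2 * Real.pi * Complex.I / N)) (τ₀ : ℍ) {c : K}
    (x : XN N) : embF (expData_sD τ₀) hζ x (jF K N - algebraMap K (F0 K N) c) =
      HahnSeries.ofPowerSeries ℤ ℂ (dExp τ₀ (J - fun _ => ι c)) := by
  rw [map_sub, embF_algebraMap_base, embF_jF (expData_sD τ₀) hζ x (hasExp_dExp τ₀ mdiff_J),
    dExp_sub_const τ₀ mdiff_J, map_sub, HahnSeries.ofPowerSeries_C]

/-- unramified outside `0, 1728` -/
theorem ord_eq_one_of_ne (hζ : ι ζ = Complex.exp (2 * Real.pi * Complex.I / N)) {c : K}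
    (hc0 : c ≠ 0) (hc1 : c ≠ 1728) (v : Place K (F0 K N))
    (hv : 0 < v.ord (jF K N - algebraMap K (F0 K N) c)) :
    v.ord (jF K N - algebraMap K (F0 K N) c) = 1 := by
  obtain ⟨τ₀, hτ₀⟩ := J_surjective (ι c)
  have h4 : E₄ τ₀ ≠ 0 := by
    intro h
    rw [← J_eq_zero_iff, hτ₀] at h
    exact hc0 (ι.injective (by rw [h, map_zero]))
  have h6 : E₆ τ₀ ≠ 0 := by
    intro h
    rw [← J_eq_1728_iff, hτ₀] at h
    exact hc1 (ι.injective (by rw [h]; exact (map_ofNat ι 1728).symm))
  refine ord_eq_one (expData_sD τ₀) hζ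
    (Fermat.Agent.FunField.transcendental_sub transcendental_jF c)
    (Fermat.Agent.FunField.adjoin_sub_eq _ c) (fun x => embF_jF_sub hζ τ₀ x) ?_ v hv
  have h1 := order_dExp_J_one τ₀ h4 h6
  rw [hτ₀] at h1
  exact order_ofPowerSeries (n := 1) (by simpa using h1)

theorem natCard_places_zero (hζ : ι ζ = Complex.exp (2 * Real.pi * Complex.I / N)) :
    Nat.card {v : Place K (F0 K N) // 0 < v.ord (jF K N - algebraMap K (F0 K N) 0)} =
      cyc (rep N (ModularGroup.S * ModularGroup.T)) := by
  obtain ⟨u, hu1, hu2⟩ := exists_rotation_ρ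
  refine natCard_eq_cyc (expData_sD ρ) hζ (ModularGroup.S * ModularGroup.T) u hu2
    (m := 3) (by norm_num) hu1
    (Fermat.Agent.FunField.transcendental_sub transcendental_jF 0)
    (Fermat.Agent.FunField.adjoin_sub_eq _ 0) (fun x => embF_jF_sub hζ ρ x) ?_
  refine order_ofPowerSeries (n := 3) ?_
  have h1 := order_dExp_J_three ρ E₄_ρ
  have h2 : (J - fun _ => ι 0) = J := by
    funext τ
    simp
  rw [h2, h1]
  rfl

theorem natCard_places_1728 (hζ : ι ζ = Complex.exp (2 * Real.pi * Complex.I / N)) :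
    Nat.card {v : Place K (F0 K N) // 0 < v.ord (jF K N - algebraMap K (F0 K N) 1728)} =
      cyc (rep N ModularGroup.S) := by
  refine natCard_eq_cyc (expData_sD UpperHalfPlane.I) hζ ModularGroup.S (-1) sD_S
    (m := 2) (by norm_num) isPrimitiveRoot_S
    (Fermat.Agent.FunField.transcendental_sub transcendental_jF 1728)
    (Fermat.Agent.FunField.adjoin_sub_eq _ 1728) (fun x => embF_jF_sub hζ _ x) ?_
  refine order_ofPowerSeries (n := 2) ?_
  have h1 := order_dExp_J_two UpperHalfPlane.I E₆_I
  have h2 : (J - fun _ => ι 1728) = (J - fun _ => 1728) := by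
    have h3 : ι 1728 = 1728 := map_ofNat ι 1728
    rw [h3]
  rw [h2, h1]
  rfl

theorem natCard_places_infty (hζ : ι ζ = Complex.exp (2 * Real.pi * Complex.I / N)) :
    Nat.card {v : Place K (F0 K N) // 0 < v.ord (jF K N)⁻¹} = cyc (rep N ModularGroup.T) := by
  have hN : (N : ℂ) ≠ 0 := by exact_mod_cast NeZero.ne N
  have hG := (hasExp_J' (RingHom.id ℂ)).level N
  have hprim : IsPrimitiveRoot (Complex.exp (2 * Real.pi * Complex.I / N)) N :=
    Complex.isPrimitiveRoot_exp N (NeZero.ne N)
  refine natCard_eq_cyc (expData_qN (ι := ι)) hζ ModularGroup.T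
    (Units.mk0 (Complex.exp (2 * Real.pi * Complex.I / N)) (Complex.exp_ne_zero _))
    (fun τ => ?_) (m := N) (Nat.pos_of_ne_zero (NeZero.ne N)) hprim
    (transcendental_inv transcendental_jF) (Fermat.Agent.FunField.adjoin_inv_eq _)
    (G := (ModularCurve.qExpand ℂ N (ModularCurve.jqModC ℂ))⁻¹)
    (fun x => by rw [map_inv₀, embF_jF expData_qN hζ x hG]) ?_
  · rw [modular_T_smul, qN_apply, qN_apply, Function.Periodic.qParam, Function.Periodic.qParam,
      Units.val_mk0, ← Complex.exp_add]
    congr 1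
    have : (((1 : ℝ) +ᵥ τ : ℍ) : ℂ) = 1 + τ := by simp
    rw [this]
    push_cast
    field_simp
  · have h1 : (ModularCurve.qExpand ℂ N (ModularCurve.jqModC ℂ)).order = -(N : ℤ) := by
      refine order_eq_of_coeff ?_ ?_
      · rw [show -(N : ℤ) = (N : ℤ) * (-1) by ring, ModularCurve.qExpand_coeff_mul]
        have h3 := coeff_jqModC_pow_self' (R := ℂ) 1
        rw [pow_one, Nat.cast_one] at h3
        rw [h3]
        exact one_ne_zero
      · intro m hm
        by_cases hdvd : (N : ℤ) ∣ m
        · obtain ⟨n, rfl⟩ := hdvd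
          rw [ModularCurve.qExpand_coeff_mul]
          have hpos : (0 : ℤ) < N := by exact_mod_cast Nat.pos_of_ne_zero (NeZero.ne N)
          have hn : n < -((1 : ℕ) : ℤ) := by
            push_cast
            nlinarith
          have := coeff_jqModC_pow_of_lt' (R := ℂ) hn
          rwa [pow_one] at this
        · exact ModularCurve.qExpand_coeff_of_not_dvd _ _ hdvd
    have h2 : ModularCurve.qExpand ℂ N (ModularCurve.jqModC ℂ) ≠ 0 := by
      intro h
      rw [h, HahnSeries.order_zero] at h1
      have : (N : ℤ) ≠ 0 := by exact_mod_cast NeZero.ne N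
      omega
    have h3 := HahnSeries.order_mul h2 (inv_ne_zero h2)
    rw [mul_inv_cancel₀ h2, HahnSeries.order_one, h1] at h3
    omega

/-- The genus of `X₀(N)`. -/
theorem genus_F0 (hζ : ι ζ = Complex.exp (2 * Real.pi * Complex.I / N))
    [HasCanonicalDivisor (K := K) (F := F0 K N)] :
    (genus K (F0 K N) : ℚ) = ModularCurve.genusFormula N := by
  classical
  haveI := finiteDimensional_F0 hζ
  have htr : Transcendental K (jF K N) := transcendental_jF
  obtain ⟨g, hg1, hg2⟩ := Fermat.Agent.Gamma0Comb.exists_genus N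
  have h0 : ∃ ω : Ω[F0 K N⁄K], ω ≠ 0 := by
    haveI := Fermat.Agent.FunField.nontrivial_kaehler htr
    exact exists_ne 0
  have hdeg := Fermat.Agent.FunField.degree_canonicalDivisorOf htr ({0, 1728} : Finset K)
    (fun c hc v hv => by
      simp only [Finset.mem_insert, Finset.mem_singleton, not_or] at hc
      exact ord_eq_one_of_ne hζ hc.1 hc.2 v hv) h0.choose_spec
  have hne : (0 : K) ≠ 1728 := by norm_num
  rw [Finset.sum_pair hne, natCard_places_zero hζ, natCard_places_1728 hζ,
    natCard_places_infty hζ, finrank_eq hζ, Fermat.Agent.Gamma0Comb.cyc_T] at hdeg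
  have hcard : Fintype.card (XN N) = ModularCurve.dedekindPsi N := by
    rw [← Fermat.Agent.Gamma0Comb.natCard_coset, Nat.card_eq_fintype_card]
  rw [hcard] at hdeg
  rw [genus, dif_pos h0, hdeg, ← hg1]
  have h5 : ((ModularCurve.dedekindPsi N : ℤ) - cyc (rep N (ModularGroup.S * ModularGroup.T)) +
      (ModularCurve.dedekindPsi N - cyc (rep N ModularGroup.S)) - ModularCurve.dedekindPsi N -
      ModularCurve.cuspCount N + 2) = ((2 * g : ℕ) : ℤ) := by
    have h6 : (2 * (g : ℤ) + (cyc (rep N ModularGroup.S) +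
      cyc (rep N (ModularGroup.S * ModularGroup.T)) +
      ModularCurve.cuspCount N)) = ModularCurve.dedekindPsi N + 2 := by exact_mod_cast hg2
    push_cast
    linarith
  rw [h5, Int.toNat_natCast]
  congr 1
  omega

end Fermat.Agent.ModFun
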